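import Fermat.Agent.RT.Lift59.Chain.Limit

/-!
# Primes of the new part and of the base
-/

set_option autoImplicit false

noncomputable section

namespace Fermat.Agent.RT.Lift59.Chain

open IsLocalRing MvPowerSeries
open Fermat.Agent.RT.Assembly

variable {O : Type} [CommRing O] [IsDomain O] [IsDiscreteValuationRing O]
  [IsAdicComplete (maximalIdeal O) O] [Finite (ResidueField O)]
  {P : Shape O} {p : ℕ}

local notation "S" => MvPowerSeries (Fin P.R) O
local notation "J₀" => Ideal.span (Set.range fun l : Fin P.R => (X l : S))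

namespace Uniform

variable (L : Uniform P p) (hp : (p : O) ∈ maximalIdeal O)

omit [IsAdicComplete (maximalIdeal O) O] in
/-- `tw - 2` maps every level into the multiples of the variables. -/
theorem tw_sub_two_smul_mem (i : Fin P.R) (j : Fin (P.t + 1)) (z : L.Mod hp j) :
    (L.tw i - 2) • z ∈ J₀ • (⊤ : Submodule S (L.Mod hp j)) := by
  have hu : IsUnit ((1 : S) + X i) := MvPowerSeries.isUnit_iff_constantCoeff.2 (by simp)
  set w := (↑hu.unit⁻¹ : S) with hw
  have e : z = w • z + (X i : S) • w • z := by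
    conv_lhs => rw [← one_smul S z, ← hu.mul_val_inv, ← hw, add_mul, one_mul, add_smul, mul_smul]
  rw [e, ← L.X_X_smul]
  exact Submodule.smul_mem_smul (Ideal.subset_span ⟨i, rfl⟩) Submodule.mem_top

/-- At a prime of the support containing all `tw - 2`, an element mapping the level into the
multiples of the variables vanishes. -/
theorem mem_of_smul_mem_span (hpr : p.Prime) (j : Fin (P.t + 1)) {𝔔 : Ideal L.Ring} [𝔔.IsPrime]
    (hann : Module.annihilator L.Ring (L.Mod hp j) ≤ 𝔔) (htw : ∀ i, L.tw i - 2 ∈ 𝔔) {a : L.Ring}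
    (ha : ∀ z : L.Mod hp j, a • z ∈ J₀ • (⊤ : Submodule S (L.Mod hp j))) : a ∈ 𝔔 := by
  have := L.finite hp hpr j
  let I : Ideal S := Ideal.span (Set.range fun l : Fin P.R => (X l : S) * X l)
  obtain ⟨K, hK⟩ := I.exists_radical_pow_le_of_fg (IsNoetherian.noetherian _)
  have hJ : J₀ ^ K ≤ I := le_trans (Ideal.pow_right_mono (Ideal.span_le.2 (by
    rintro _ ⟨l, rfl⟩
    exact ⟨2, (sq (X l : S)).symm ▸ Ideal.subset_span ⟨l, rfl⟩⟩)) K) hK
  have hpow : ∀ (n : ℕ) (z : L.Mod hp j),
      a ^ n • z ∈ J₀ ^ n • (⊤ : Submodule S (L.Mod hp j)) := by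
    intro n
    induction n with
    | zero =>
      intro z
      simp
    | succ n ih =>
      intro z
      rw [pow_succ a n, mul_smul]
      refine Submodule.smul_induction_on (ha z) (fun r hr y _ => ?_) fun y y' hy hy' => ?_
      · rw [smul_comm, pow_succ' (J₀) n, Submodule.mul_smul]
        exact Submodule.smul_mem_smul hr (ih y)
      · rw [smul_add]
        exact add_mem hy hy'
  refine Ideal.IsPrime.mem_of_pow_mem ‹_› K (Lift.mem_of_forall_smul_mem hann fun z => ?_)
  have h := Submodule.smul_mono_left hJ (hpow K z)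
  obtain ⟨y, hy⟩ := exists_eq_sum_of_mem_span_smul _ h
  rw [hy]
  refine Submodule.sum_mem _ fun l _ => ?_
  rw [mul_smul, L.X_X_smul]
  exact Submodule.smul_mem_smul (htw l) Submodule.mem_top

omit [IsAdicComplete (maximalIdeal O) O] [Finite (ResidueField O)] in
theorem isPrime_ker_constantCoeff :
    (RingHom.ker (constantCoeff : S →+* O)).IsPrime := RingHom.ker_isPrime _

omit [IsAdicComplete (maximalIdeal O) O] [Finite (ResidueField O)] in
theorem span_X_le_ker : J₀ ≤ RingHom.ker (constantCoeff : S →+* O) :=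
  Ideal.span_le.2 (by rintro _ ⟨l, rfl⟩; exact constantCoeff_X l)

/-- A prime of the new part below a given prime of its support: it has full dimension, constants
do not vanish on it, and some prime over it contains all `tw - 2` and everything mapping the level
into old forms at the base. -/
theorem exists_coker_prime (hpr : p.Prime) (i : Fin P.t) {𝔭 : Ideal L.Ring} [𝔭.IsPrime]
    (h𝔭 : Module.annihilator L.Ring (L.Mod hp i.succ ⧸ LinearMap.range (L.δ hp i)) ≤ 𝔭) :
    ∃ 𝔮 : Ideal L.Ring, 𝔮.IsPrime ∧ 𝔮 ≤ 𝔭 ∧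
      Module.annihilator L.Ring (L.Mod hp i.succ) ≤ 𝔮 ∧
      ringKrullDim (L.Ring ⧸ 𝔮) = ringKrullDim S ∧
      ∃ 𝔔 : Ideal L.Ring, 𝔔.IsPrime ∧ 𝔮 ≤ 𝔔 ∧ (∀ l, L.tw l - 2 ∈ 𝔔) ∧
        (∀ c : O, c ≠ 0 → algebraMap O L.Ring c ∉ 𝔔) ∧
        ∀ a : L.Ring, (∀ z : L.Mod hp i.succ,
          ∃ u, a • z - L.δ hp i u ∈ J₀ • (⊤ : Submodule S (L.Mod hp i.succ))) → a ∈ 𝔔 := by
  have := L.finite hp hpr i.succ
  let δ' : L.Mod hp i.castSucc × L.Mod hp i.castSucc →ₗ[S] L.Mod hp i.succ :=
    { toFun := L.δ hp i, map_add' := map_add _, map_smul' := L.δ_smul hp i }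
  obtain ⟨g, hg⟩ := Lift.exists_leftInverse_of_injective_mod δ' (L.δ_inj hp i)
  let W := LinearMap.range (L.δ hp i)
  have hW : ∀ (s : S) m, m ∈ W → s • m ∈ W := by
    rintro s _ ⟨u, rfl⟩
    exact ⟨s • u, L.δ_smul hp i s u⟩
  have : SMulCommClass S L.Ring (L.Mod hp i.succ) := SMulCommClass.symm ..
  let φ : S →+* Module.End L.Ring (L.Mod hp i.succ ⧸ W) :=
    { toFun := fun s => W.mapQ W (Module.toModuleEnd L.Ring (L.Mod hp i.succ) s) (fun m hm => hW s m hm)
      map_one' := Submodule.linearMap_qext _ (LinearMap.ext fun m => by simp)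
      map_mul' := fun s t => Submodule.linearMap_qext _ (LinearMap.ext fun m => by simp [mul_smul])
      map_zero' := Submodule.linearMap_qext _ (LinearMap.ext fun m => by simp)
      map_add' := fun s t => Submodule.linearMap_qext _ (LinearMap.ext fun m => by simp [add_smul]) }
  let _ : Module S (L.Mod hp i.succ ⧸ W) := Module.compHom _ φ
  let q : L.Mod hp i.succ →ₗ[S] L.Mod hp i.succ ⧸ W :=
    { toFun := Submodule.Quotient.mk, map_add' := fun _ _ => rfl, map_smul' := fun _ _ => rfl }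
  have : SMulCommClass L.Ring S (L.Mod hp i.succ ⧸ W) := ⟨fun a s x => ((φ s).map_smul a x).symm⟩
  have : Module.Finite S (L.Mod hp i.succ ⧸ W) :=
    Module.Finite.of_surjective q (Submodule.Quotient.mk_surjective W)
  have htf : ∀ (s : S) (x : L.Mod hp i.succ ⧸ W), s • x = 0 → s = 0 ∨ x = 0 := fun s x hx => by
    refine or_iff_not_imp_left.mpr fun hs => ?_
    obtain ⟨m, rfl⟩ := Submodule.Quotient.mk_surjective W x
    obtain ⟨u, hu⟩ := (Submodule.Quotient.mk_eq_zero W).1 (show Submodule.Quotient.mk (s • m) = 0 from hx)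
    have h0 : s • g m = u := by
      rw [← map_smul, ← hu]
      exact LinearMap.congr_fun hg u
    exact (Submodule.Quotient.mk_eq_zero W).2 ⟨g m, smul_right_injective _ hs (by
      show s • L.δ hp i (g m) = s • m
      rw [← L.δ_smul, h0, hu])⟩
  obtain ⟨𝔮, h𝔮, hle⟩ := Ideal.exists_minimalPrimes_le h𝔭
  obtain ⟨hdim, hover⟩ := Lift.minimalPrime_spec htf h𝔮
  obtain ⟨𝔔, hQ, hqQ, hmem, hscal⟩ := hover _ (isPrime_ker_constantCoeff (P := P))
  have hJ : ∀ (a : L.Ring) (z : L.Mod hp i.succ) (u),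
      a • z - L.δ hp i u ∈ J₀ • (⊤ : Submodule S (L.Mod hp i.succ)) →
      a • q z ∈ RingHom.ker (constantCoeff : S →+* O) •
        (⊤ : Submodule S (L.Mod hp i.succ ⧸ W)) := fun a z u h => by
    have h1 := Submodule.mem_map_of_mem (f := q) h
    rw [Submodule.map_smul''] at h1
    have e : q (a • z - L.δ hp i u) = a • q z := by
      show Submodule.Quotient.mk (a • z - L.δ hp i u) = a • Submodule.Quotient.mk z
      rw [← Submodule.Quotient.mk_smul, Submodule.Quotient.eq]
      exact ⟨-u, by rw [map_neg]; abel⟩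
    exact e ▸ Submodule.smul_mono span_X_le_ker le_top h1
  refine ⟨𝔮, h𝔮.1.1, hle, ((LinearMap.range (L.δ hp i)).mkQ.annihilator_le_of_surjective
    (Submodule.mkQ_surjective _)).trans h𝔮.1.2, hdim, 𝔔, hQ, hqQ, fun l => hmem _ fun x => ?_,
    fun c hc hmemc => ?_, fun a ha => hmem a fun x => ?_⟩
  · obtain ⟨z, rfl⟩ := Submodule.Quotient.mk_surjective W x
    exact hJ _ z 0 (by rw [map_zero, sub_zero]; exact L.tw_sub_two_smul_mem hp l _ z)
  · have h := (hscal (algebraMap O L.Ring c) (C c) fun x => by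
      obtain ⟨z, rfl⟩ := Submodule.Quotient.mk_surjective W x
      exact congrArg (Submodule.Quotient.mk (p := W)) (L.compat hp _ c z)).1 hmemc
    rw [RingHom.mem_ker, constantCoeff_C] at h
    exact hc h
  · obtain ⟨z, rfl⟩ := Submodule.Quotient.mk_surjective W x
    obtain ⟨u, hu⟩ := ha z
    exact hJ a z u hu

/-- The degeneracy map is injective, so the support grows. -/
theorem annihilator_succ_le (i : Fin P.t) :
    Module.annihilator L.Ring (L.Mod hp i.succ) ≤ Module.annihilator L.Ring (L.Mod hp i.castSucc) := by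
  let δ' : L.Mod hp i.castSucc × L.Mod hp i.castSucc →ₗ[S] L.Mod hp i.succ :=
    { toFun := L.δ hp i, map_add' := map_add _, map_smul' := L.δ_smul hp i }
  obtain ⟨g, hg⟩ := Lift.exists_leftInverse_of_injective_mod δ' (L.δ_inj hp i)
  intro a ha
  refine Module.mem_annihilator.2 fun x => ?_
  have h : L.δ hp i (a • (x, 0)) = 0 := by
    rw [map_smul]
    exact Module.mem_annihilator.1 ha _
  have h2 := LinearMap.congr_fun hg (a • (x, (0 : L.Mod hp i.castSucc)))
  rw [LinearMap.comp_apply, show δ' (a • (x, 0)) = 0 from h, map_zero, LinearMap.id_apply] at h2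
  exact (congrArg Prod.fst h2).symm

/-- The minimal primes at the bottom have full dimension and miss the constants. -/
theorem exists_bottom_prime (hpr : p.Prime) :
    ∃ 𝔮 : Ideal L.Ring, 𝔮.IsPrime ∧ Module.annihilator L.Ring (L.Mod hp 0) ≤ 𝔮 ∧
      ringKrullDim (L.Ring ⧸ 𝔮) = ringKrullDim S ∧
      ∀ c : O, c ≠ 0 → algebraMap O L.Ring c ∉ 𝔮 := by
  have := L.finite hp hpr 0
  have hne : Module.annihilator L.Ring (L.Mod hp 0) ≠ ⊤ := by
    intro h
    obtain ⟨b⟩ := (L.seq hp 0).exists_basis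
    exact b.ne_zero ⟨0, L.D_pos⟩ (by
      rw [← one_smul L.Ring (b _)]
      exact Module.mem_annihilator.1 (h ▸ Submodule.mem_top : (1 : L.Ring) ∈ _) _)
  obtain ⟨m, hm, hle⟩ := Ideal.exists_le_maximal _ hne
  have := hm.isPrime
  obtain ⟨𝔮, h𝔮, -⟩ := Ideal.exists_minimalPrimes_le hle
  obtain ⟨hdim, hover⟩ := Lift.minimalPrime_spec
    (fun (s : S) (x : L.Mod hp 0) h => smul_eq_zero.1 h) h𝔮
  obtain ⟨𝔔, -, hqQ, -, hscal⟩ := hover ⊥ Ideal.isPrime_bot
  refine ⟨𝔮, h𝔮.1.1, h𝔮.1.2, hdim, fun c hc hmem => hc ?_⟩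
  have h := (hscal (algebraMap O L.Ring c) (C c) fun x => L.compat hp 0 c x).1 (hqQ hmem)
  rw [Ideal.mem_bot] at h
  simpa using congrArg (constantCoeff (σ := Fin P.R) (R := O)) h

end Uniform

end Fermat.Agent.RT.Lift59.Chain

end
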