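import Fermat.Agent.RT.Lift59.Chain.Conic
import Fermat.Agent.RT.Algebra.Finite

/-!
# The prime of a type of component

At each scalar place a type is free (`N = 0`), conic (`N = 0` and `a² + be = δ²`) or
multiplicative (`a² + be = δ²`, `N (F₀ + δ) = 0 = (F₀ - δ) N`), and some free coordinates vanish.
The prime of a type is the kernel of a parametrisation; it is contained in every prime containing
the relations of the type in which `δ` does not vanish.
-/

set_option autoImplicit false

noncomputable section

namespace Fermat.Agent.RT.Lift59.Chain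

open IsLocalRing MvPowerSeries
open Fermat.Agent.RT.Germ Fermat.Agent.RT.Algebra Fermat.Agent.RT.Assembly
open Fermat.Agent.CFT.Tangent (exists_evalHom)

/-- The types at a scalar place. -/
inductive Kind : Type
  | free
  | conic
  | mult
  deriving DecidableEq

section Matrices

variable {R R' : Type} [CommRing R] [CommRing R']

/-- The matrix of trace zero with entries `(a, b, e)`. -/
def tri (a : Fin 3 → R) : Matrix (Fin 2) (Fin 2) R := !![a 0, a 1; a 2, -a 0]

/-- The entries determining a matrix of trace zero. -/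
def out3 (M : Matrix (Fin 2) (Fin 2) R) : Fin 3 → R := ![M 0 0, M 0 1, M 1 0]

/-- `(F + d) N (F - d)`. -/
def flipN (d : R) (F N : Matrix (Fin 2) (Fin 2) R) : Matrix (Fin 2) (Fin 2) R :=
  (F + d • 1) * N * (F - d • 1)

theorem tri_out3_flipN (d : R) (a n : Fin 3 → R) :
    tri (out3 (flipN d (tri a) (tri n))) = flipN d (tri a) (tri n) := by
  ext i j
  fin_cases i <;> fin_cases j <;>
    simp [tri, out3, flipN, Matrix.mul_apply, Fin.sum_univ_two, Matrix.one_apply]
  ring

theorem flipN_smul (d c : R) (F N : Matrix (Fin 2) (Fin 2) R) :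
    flipN d F (c • N) = c • flipN d F N := by
  simp [flipN]

theorem out3_smul (c : R) (M : Matrix (Fin 2) (Fin 2) R) (k : Fin 3) :
    out3 (c • M) k = c * out3 M k := by
  fin_cases k <;> simp [out3]

theorem map_out3_flipN (f : R →+* R') (d : R) (a n : Fin 3 → R) (k : Fin 3) :
    f (out3 (flipN d (tri a) (tri n)) k) =
      out3 (flipN (f d) (tri fun j => f (a j)) (tri fun j => f (n j))) k := by
  fin_cases k <;>
    simp [tri, out3, flipN, Matrix.mul_apply, Fin.sum_univ_two, Matrix.one_apply]

theorem sub_mul_add_eq_zero {d : R} {a : Fin 3 → R} (h : a 0 ^ 2 + a 1 * a 2 = d ^ 2) :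
    (tri a - d • 1) * (tri a + d • 1) = 0 := by
  ext i j
  fin_cases i <;> fin_cases j <;>
    simp [tri, Matrix.mul_apply, Fin.sum_univ_two, Matrix.one_apply] <;>
    first | linear_combination h | ring

theorem flipN_mul_eq_zero {d : R} {a : Fin 3 → R} (h : a 0 ^ 2 + a 1 * a 2 = d ^ 2)
    (n : Fin 3 → R) :
    tri (out3 (flipN d (tri a) (tri n))) * (tri a + d • 1) = 0 ∧
      (tri a - d • 1) * tri (out3 (flipN d (tri a) (tri n))) = 0 := by
  rw [tri_out3_flipN, flipN]
  refine ⟨?_, ?_⟩
  · rw [mul_assoc, sub_mul_add_eq_zero h, mul_zero]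
  · rw [← mul_assoc, ← mul_assoc, sub_mul_add_eq_zero h, zero_mul, zero_mul]

/-- On the relations `flipN` is `-4 d²`. -/
theorem flipN_eq_smul {d : R} {F N : Matrix (Fin 2) (Fin 2) R} (hR : N * (F + d • 1) = 0)
    (hL : (F - d • 1) * N = 0) : flipN d F N = (-(4 * d ^ 2)) • N := by
  have e1 : N * (F - d • 1) = (-(2 * d)) • N := by
    rw [show F - d • (1 : Matrix (Fin 2) (Fin 2) R) = (F + d • 1) + (-(2 * d)) • 1 by module,
      mul_add, hR, zero_add, mul_smul_comm, mul_one]
  have e2 : (F + d • 1) * N = (2 * d) • N := by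
    rw [show F + d • (1 : Matrix (Fin 2) (Fin 2) R) = (F - d • 1) + (2 * d) • 1 by module,
      add_mul, hL, zero_add, smul_mul_assoc, one_mul]
  rw [flipN, mul_assoc, e1, mul_smul_comm, e2, smul_smul]
  congr 1
  ring

end Matrices

variable {O : Type} [CommRing O] [IsDomain O] [IsDiscreteValuationRing O]
  [IsAdicComplete (maximalIdeal O) O] [Finite (ResidueField O)]
  {V ρ : Type} [Finite V] [Finite ρ]

local notation "Λ" => MvPowerSeries (Coord V ρ) O

variable (δ : V → O) (kind : V → Kind) (Z : Set ρ)

/-- The trace zero part of Frobenius at `v`. -/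
def fVec (v : V) (j : Fin 3) : Λ := X (Sum.inl (v, 0, j))

/-- The nilpotent part of inertia at `v`. -/
def nVec (v : V) (j : Fin 3) : Λ := X (Sum.inl (v, 1, j))

/-- `N (F₀ + δ)` at `v`. -/
def relRight (v : V) : Matrix (Fin 2) (Fin 2) Λ :=
  tri (nVec v) * (tri (fVec v) + (C (δ v) : Λ) • (1 : Matrix (Fin 2) (Fin 2) Λ))

/-- `(F₀ - δ) N` at `v`. -/
def relLeft (v : V) : Matrix (Fin 2) (Fin 2) Λ :=
  (tri (fVec v) - (C (δ v) : Λ) • (1 : Matrix (Fin 2) (Fin 2) Λ)) * tri (nVec v)

open scoped Classical in
/-- The values replacing `N` by `(F₀ + δ) N (F₀ - δ)` at multiplicative places. -/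
def thetaVal : Coord V ρ → Λ
  | Sum.inl (v, i, j) => if i = 0 then X (Sum.inl (v, i, j)) else
      if kind v = Kind.mult then
        out3 (flipN (C (δ v)) (tri (fVec v)) (tri (nVec v))) j
      else 0
  | Sum.inr r => if r ∈ Z then 0 else X (Sum.inr r)

variable {δ}

omit [IsAdicComplete (maximalIdeal O) O] [Finite (ResidueField O)] [Finite V] [Finite ρ] in
theorem thetaVal_mem (_hδ : ∀ v, δ v ∈ maximalIdeal O) (i : Coord V ρ) :
    thetaVal δ kind Z i ∈ maximalIdeal Λ := by
  have hX := fun c : Coord V ρ => X_mem_maximalIdeal (O := O) c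
  rcases i with ⟨v, i, j⟩ | r
  · simp only [thetaVal]
    split_ifs
    · exact hX _
    · rw [← residue_eq_zero_iff, map_out3_flipN]
      have hn : ∀ l, residue Λ (nVec v l) = 0 := fun l => (residue_eq_zero_iff _).2 (hX _)
      have : tri (fun l => residue Λ (nVec (O := O) (ρ := ρ) v l)) = 0 := by
        ext a b
        fin_cases a <;> fin_cases b <;> simp [tri, hn]
      rw [this]
      fin_cases j <;> simp [out3, flipN]
    · exact zero_mem _
  · simp only [thetaVal]
    split_ifs
    · exact zero_mem _
    · exact hX _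

variable (hδ : ∀ v, δ v ∈ maximalIdeal O)

open scoped Classical in
/-- The places carrying a conic. -/
def conicSet [Fintype V] : Finset V := Finset.univ.filter fun v => kind v ≠ Kind.free

/-- The parametrisation of a type. -/
def mixHom : Λ →ₐ[O] Λ :=
  letI := Fintype.ofFinite V
  letI := Classical.decEq V
  (curve hδ (conicSet kind)).comp (subst' (thetaVal δ kind Z) (thetaVal_mem kind Z hδ))

/-- The prime of a type. -/
def mixPrime : Ideal Λ := RingHom.ker (mixHom kind Z hδ : Λ →+* Λ)

instance mixPrime_isPrime : (mixPrime kind Z hδ).IsPrime :=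
  haveI : IsDomain Λ := NoZeroDivisors.to_isDomain _
  RingHom.ker_isPrime _

theorem mem_mixPrime {f : Λ} : f ∈ mixPrime kind Z hδ ↔ mixHom kind Z hδ f = 0 := Iff.rfl

theorem mixHom_C (c : O) : mixHom kind Z hδ (C c) = C c := (mixHom kind Z hδ).commutes c

theorem C_notMem_mixPrime {c : O} (hc : c ≠ 0) : (C c : Λ) ∉ mixPrime kind Z hδ := by
  rw [mem_mixPrime, mixHom_C]
  exact fun h => hc (by simpa using congrArg constantCoeff h)

open scoped Classical in
theorem mixHom_inl (v : V) (j : Fin 3) :
    mixHom kind Z hδ (X (Sum.inl (v, 0, j))) =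
      if kind v = Kind.free then X (Sum.inl (v, 0, j)) else
        ![C (δ v) + X (Sum.inl (v, 0, 1)) * X (Sum.inl (v, 0, 2)),
          X (Sum.inl (v, 0, 1)) *
            (2 * C (δ v) + X (Sum.inl (v, 0, 1)) * X (Sum.inl (v, 0, 2))),
          -X (Sum.inl (v, 0, 2))] j := by
  simp only [mixHom, AlgHom.comp_apply, subst'_X, thetaVal, if_true, curve_X, curveVal, conicSet,
    Finset.mem_filter, Finset.mem_univ, true_and, and_true]
  by_cases h : kind v = Kind.free <;> simp [h]

open scoped Classical in
theorem mixHom_nil_of_mult {v : V} (hv : kind v = Kind.mult) (k : Fin 3) :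
    mixHom kind Z hδ (nVec v k) = out3 (flipN (C (δ v))
      (tri fun j => mixHom kind Z hδ (fVec v j)) (tri (nVec v))) k := by
  simp only [mixHom, nVec, AlgHom.comp_apply, subst'_X, thetaVal,
    if_neg (by decide : ¬(1 : Fin 2) = 0), hv, if_true]
  rw [← RingHom.coe_coe, map_out3_flipN, RingHom.coe_coe, curve_C]
  congr 3
  · funext j
    simp [fVec, thetaVal]
  · funext j
    simp [nVec, curve_X, curveVal]

theorem mixHom_nil_of_ne {v : V} (hv : kind v ≠ Kind.mult) (k : Fin 3) :
    mixHom kind Z hδ (nVec v k) = 0 := by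
  simp [mixHom, nVec, thetaVal, hv]

theorem mixHom_inr (r : ρ) [Decidable (r ∈ Z)] :
    mixHom kind Z hδ (X (Sum.inr r)) = if r ∈ Z then 0 else X (Sum.inr r) := by
  classical
  simp only [mixHom, AlgHom.comp_apply, subst'_X, thetaVal]
  by_cases h : r ∈ Z
  · simp [h]
  · simp [h, curve_X, curveVal]

theorem conic_eq_zero {v : V} (hv : kind v ≠ Kind.free) :
    mixHom kind Z hδ (fVec v 0) ^ 2 + mixHom kind Z hδ (fVec v 1) * mixHom kind Z hδ (fVec v 2) =
      C (δ v) ^ 2 := by
  simp only [fVec, mixHom_inl, hv, if_false]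
  simp
  ring

theorem conicRel_mem_mixPrime {v : V} (hv : kind v ≠ Kind.free) :
    conicRel δ v ∈ mixPrime kind Z hδ := by
  rw [mem_mixPrime, conicRel, map_sub, map_add, map_pow, map_mul, map_pow, mixHom_C]
  exact sub_eq_zero.2 (conic_eq_zero kind Z hδ hv)

theorem nVec_mem_mixPrime {v : V} (hv : kind v ≠ Kind.mult) (k : Fin 3) :
    nVec v k ∈ mixPrime kind Z hδ :=
  (mem_mixPrime kind Z hδ).2 (mixHom_nil_of_ne kind Z hδ hv k)

theorem inr_mem_mixPrime {r : ρ} (hr : r ∈ Z) :
    (X (Sum.inr r) : Λ) ∈ mixPrime kind Z hδ := by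
  classical
  rw [mem_mixPrime, mixHom_inr, if_pos hr]

theorem inr_notMem_mixPrime {r : ρ} (hr : r ∉ Z) :
    (X (Sum.inr r) : Λ) ∉ mixPrime kind Z hδ := by
  classical
  rw [mem_mixPrime, mixHom_inr, if_neg hr]
  exact fun h => one_ne_zero (α := O) (by
    simpa [X, coeff_monomial] using congrArg (coeff (Finsupp.single (Sum.inr r : Coord V ρ) 1)) h)

attribute [local irreducible] mixHom

omit [IsDomain O] [IsDiscreteValuationRing O] [IsAdicComplete (maximalIdeal O) O]
  [Finite (ResidueField O)] [Finite V] [Finite ρ] in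
theorem map_tri {R' : Type} [CommRing R'] (f : Λ →+* R') (a : Fin 3 → Λ) :
    f.mapMatrix (tri a) = tri fun l => f (a l) := by
  ext p q; fin_cases p <;> fin_cases q <;> simp [tri]

omit [IsDomain O] [IsDiscreteValuationRing O] [IsAdicComplete (maximalIdeal O) O]
  [Finite (ResidueField O)] [Finite V] [Finite ρ] in
theorem map_relRight {R' : Type} [CommRing R'] (f : Λ →+* R') (v : V) :
    f.mapMatrix (relRight δ v) = tri (fun l => f (nVec v l)) *
      (tri (fun l => f (fVec v l)) + f (C (δ v)) • 1) := by
  rw [relRight, map_mul, map_add, map_tri, map_tri]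
  congr 2
  ext p q
  fin_cases p <;> fin_cases q <;> simp

omit [IsDomain O] [IsDiscreteValuationRing O] [IsAdicComplete (maximalIdeal O) O]
  [Finite (ResidueField O)] [Finite V] [Finite ρ] in
theorem map_relLeft {R' : Type} [CommRing R'] (f : Λ →+* R') (v : V) :
    f.mapMatrix (relLeft δ v) =
      (tri (fun l => f (fVec v l)) - f (C (δ v)) • 1) * tri fun l => f (nVec v l) := by
  rw [relLeft, map_mul, map_sub, map_tri, map_tri]
  congr 2
  ext p q
  fin_cases p <;> fin_cases q <;> simp

theorem rel_mem_mixPrime {v : V} (hv : kind v = Kind.mult) (i j : Fin 2) :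
    relRight δ v i j ∈ mixPrime kind Z hδ ∧ relLeft δ v i j ∈ mixPrime kind Z hδ := by
  have hn' := fun l => mixHom_nil_of_mult kind Z hδ hv l
  have hn : (fun l => (mixHom kind Z hδ : Λ →+* Λ) (nVec v l)) =
      out3 (flipN (C (δ v)) (tri fun l => mixHom kind Z hδ (fVec v l)) (tri (nVec v))) :=
    funext hn'
  obtain ⟨e1, e2⟩ := flipN_mul_eq_zero (a := fun l => mixHom kind Z hδ (fVec v l))
    (d := (C (δ v) : Λ)) (conic_eq_zero kind Z hδ (v := v) (by rw [hv]; decide))
    (nVec (O := O) (ρ := ρ) v)
  have hC : (mixHom kind Z hδ : Λ →+* Λ) (C (δ v)) = C (δ v) := mixHom_C kind Z hδ (δ v)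
  have h1 := map_relRight (δ := δ) (mixHom kind Z hδ : Λ →+* Λ) v
  have h2' := map_relLeft (δ := δ) (mixHom kind Z hδ : Λ →+* Λ) v
  rw [hn, hC] at h1 h2'
  exact ⟨congrFun (congrFun (h1.trans e1) i) j, congrFun (congrFun (h2'.trans e2) i) j⟩

theorem exists_nVec_notMem_mixPrime (h2 : IsUnit (2 : O)) {v : V} (hv : kind v = Kind.mult)
    (hδv : δ v ≠ 0) : nVec v 1 ∉ mixPrime kind Z hδ := by
  classical
  intro h
  rw [mem_mixPrime, mixHom_nil_of_mult kind Z hδ hv] at h
  let sv : Coord V ρ → Λ := fun i => if i = Sum.inl (v, 1, 1) then X (Sum.inl (v, 1, 1)) else 0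
  have hs : ∀ i, sv i ∈ maximalIdeal Λ := fun i => by
    simp only [sv]; split_ifs
    · exact X_mem_maximalIdeal _
    · exact zero_mem _
  set E := subst' sv hs
  have hC : E (C (δ v)) = C (δ v) := E.commutes _
  have hne : kind v ≠ Kind.free := by rw [hv]; decide
  have h' := congrArg E h
  rw [map_zero, ← RingHom.coe_coe, map_out3_flipN, RingHom.coe_coe, hC] at h'
  simp only [fVec, nVec, mixHom_inl, hne, if_false, E] at h'
  simp [tri, out3, flipN, Matrix.mul_apply, Fin.sum_univ_two, sv, subst'_X, map_ofNat,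
    show subst' sv hs (C (δ v)) = C (δ v) from hC] at h'
  rcases h' with (h' | h') | h'
  all_goals
    first
    | exact one_ne_zero (α := O) (by
        simpa [X, coeff_monomial] using
          congrArg (coeff (Finsupp.single (Sum.inl (v, 1, 1) : Coord V ρ) 1)) h')
    | exact hδv (by
        have := congrArg constantCoeff h'
        simp only [map_add, map_sub, map_neg, constantCoeff_C, map_zero] at this
        exact (mul_eq_zero.1 (show (2 : O) * δ v = 0 by
          first | linear_combination this | linear_combination -this)).resolve_left h2.ne_zero)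

/-- **The prime of a type is the smallest prime with the relations of the type.** -/
theorem mixPrime_le (h2 : IsUnit (2 : O)) {𝔮 : Ideal Λ} (hq : 𝔮.IsPrime)
    (hZ : ∀ r ∈ Z, X (Sum.inr r) ∈ 𝔮) (hconic : ∀ v, kind v ≠ Kind.free → conicRel δ v ∈ 𝔮)
    (hnil : ∀ v, kind v ≠ Kind.mult → ∀ k, nVec v k ∈ 𝔮)
    (hδ0 : ∀ v, kind v ≠ Kind.free → δ v ≠ 0)
    (hδq : ∀ v, kind v = Kind.mult → C (δ v) ∉ 𝔮)
    (hrel : ∀ v, kind v = Kind.mult → ∀ i j,
      relRight δ v i j ∈ 𝔮 ∧
        relLeft δ v i j ∈ 𝔮) :
    mixPrime kind Z hδ ≤ 𝔮 := by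
  let : Fintype V := Fintype.ofFinite V
  let := Classical.decEq V
  intro f hf
  have hspan : subst' (thetaVal δ kind Z) (thetaVal_mem kind Z hδ) f ∈
      Ideal.span (conicRel (ρ := ρ) δ '' ↑(conicSet kind)) :=
    mem_span_conicRel_of_curve_eq_zero hδ h2
      (fun v hv => hδ0 v (by simpa [conicSet] using hv)) (by
      have := hf
      rw [mem_mixPrime, mixHom, AlgHom.comp_apply] at this
      convert this using 2)
  -- the quotient and the series in one variable over it
  let D := Λ ⧸ 𝔮
  have : IsLocalRing D := IsLocalRing.of_surjective' _ Ideal.Quotient.mk_surjective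
  have : IsAdicComplete (maximalIdeal D) D :=
    isAdicComplete_of_surjective (Ideal.Quotient.mkₐ O 𝔮) Ideal.Quotient.mk_surjective
  have : Finite (ResidueField D) := by
    have := finite_residueField_mvPowerSeries (σ := Coord V ρ) (O := O)
    have : IsLocalHom (Ideal.Quotient.mk 𝔮) :=
      IsLocalHom.of_surjective _ Ideal.Quotient.mk_surjective
    refine Finite.of_surjective (ResidueField.map (Ideal.Quotient.mk 𝔮)) fun z => ?_
    obtain ⟨y, rfl⟩ := IsLocalRing.residue_surjective z
    obtain ⟨y, rfl⟩ := Ideal.Quotient.mk_surjective y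
    exact ⟨residue Λ y, ResidueField.map_residue _ _⟩
  let R := MvPowerSeries Unit D
  let mk : Λ →ₐ[O] D := Ideal.Quotient.mkₐ O 𝔮
  let w : R := X ()
  have hwm : w ∈ maximalIdeal R := X_mem_maximalIdeal _
  have hxm : ∀ i, mk (X i) ∈ maximalIdeal D := fun i => by
    have : IsLocalHom (mk : Λ →+* D) := IsLocalHom.of_surjective _ Ideal.Quotient.mk_surjective
    exact (IsLocalRing.mem_maximalIdeal _).2 fun h =>
      (IsLocalRing.mem_maximalIdeal _).1 (X_mem_maximalIdeal (O := O) i)
        (isUnit_of_map_unit (mk : Λ →+* D) _ h)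
  -- inertia scaled by `c v` times the variable
  let val : (V → D) → Coord V ρ → R := fun c i => match i with
    | Sum.inl (v, i, j) => if i = 0 then C (mk (X (Sum.inl (v, i, j))))
        else C (c v * mk (X (Sum.inl (v, i, j)))) * w
    | Sum.inr r => C (mk (X (Sum.inr r)))
  have hval : ∀ c i, val c i ∈ maximalIdeal R := fun c i => by
    rcases i with ⟨v, i, j⟩ | r
    · simp only [val]
      split_ifs
      · exact C_mem_maximalIdeal (hxm _)
      · exact Ideal.mul_mem_left _ _ hwm
    · exact C_mem_maximalIdeal (hxm _)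
  choose η hη using fun c => exists_evalHom (𝒪 := O) (val c) (hval c)
  let s : V → D := fun v =>
    if kind v = Kind.mult then -(4 * mk (C (δ v)) ^ 2) else 1
  have hs0 : ∀ v, s v ≠ 0 := fun v => by
    simp only [s]
    split_ifs with hv
    · refine neg_ne_zero.2 (mul_ne_zero ?_ (pow_ne_zero 2 fun h =>
        hδq v hv (Ideal.Quotient.eq_zero_iff_mem.1 h)))
      have h4 : IsUnit (4 : D) := by
        have : IsUnit ((2 : O) * 2) := h2.mul h2
        have := this.map (algebraMap O D)
        rw [map_mul, map_ofNat] at this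
        norm_num at this
        exact this
      exact h4.ne_zero
    · exact one_ne_zero
  set S := ∏ v, s v
  let c' : V → D := fun v => ∏ u ∈ Finset.univ.erase v, s u
  have hc' : ∀ v, s v * c' v = S := fun v => Finset.mul_prod_erase _ _ (Finset.mem_univ v)
  -- `η_S = η_{c'} ∘ θ`
  have key : η (fun _ => S) =
      (η c').comp (subst' (thetaVal δ kind Z) (thetaVal_mem kind Z hδ)) := by
    refine algHom_ext_X (fun i => ?_) fun i => (hη _ i).symm ▸ hval _ i
    rw [hη, AlgHom.comp_apply, subst'_X]
    rcases i with ⟨v, i, j⟩ | r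
    · by_cases hi : i = 0
      · simp [thetaVal, hi, hη, val]
      · obtain rfl : i = 1 := by omega
        simp only [thetaVal, if_neg (by decide : ¬(1 : Fin 2) = 0), val]
        by_cases hv : kind v = Kind.mult
        · rw [if_pos hv]
          show _ = (η c' : Λ →+* R) _
          rw [map_out3_flipN]
          have e : (tri fun l => (η c' : Λ →+* R) (nVec v l)) =
              (C (c' v) * w) • tri (fun l => C (mk (nVec v l))) := by
            refine Matrix.ext fun a b => ?_
            fin_cases a <;> fin_cases b <;>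
              simp [tri, nVec, hη, val, map_mul] <;> ring
          have eF : (fun l => (η c' : Λ →+* R) (fVec v l)) = fun l => C (mk (fVec v l)) := by
            funext l; simp [fVec, hη, val]
          have ed : (η c' : Λ →+* R) (C (δ v)) = C (mk (C (δ v))) := by
            rw [RingHom.coe_coe, show (C (δ v) : Λ) = algebraMap O Λ (δ v) from rfl, AlgHom.commutes,
              AlgHom.commutes, IsScalarTower.algebraMap_apply O (Λ ⧸ 𝔮) R]
            rfl
          rw [e, eF, ed, flipN_smul, out3_smul]
          have hker : ∀ a b, (tri (fun l => mk (nVec v l)) *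
                (tri (fun l => mk (fVec v l)) + mk (C (δ v)) • 1)) a b = 0 ∧
              ((tri (fun l => mk (fVec v l)) - mk (C (δ v)) • 1) *
                tri (fun l => mk (nVec v l))) a b = 0 := fun a b => by
            obtain ⟨r1, r2⟩ := hrel v hv a b
            have r1' := Ideal.Quotient.eq_zero_iff_mem.2 r1
            have r2' := Ideal.Quotient.eq_zero_iff_mem.2 r2
            exact ⟨(congrFun (congrFun (map_relRight (δ := δ) (mk : Λ →+* D) v) a) b).symm.trans r1',
              (congrFun (congrFun (map_relLeft (δ := δ) (mk : Λ →+* D) v) a) b).symm.trans r2'⟩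
          have hD := flipN_eq_smul (d := mk (C (δ v)))
            (Matrix.ext fun a b => (hker a b).1) (Matrix.ext fun a b => (hker a b).2)
          rw [← map_out3_flipN (C : D →+* R) (mk (C (δ v))), hD, out3_smul]
          have e3 : out3 (tri fun l => mk (nVec v l)) j = mk (X (Sum.inl (v, 1, j))) := by
            fin_cases j <;> simp [out3, tri, nVec]
          rw [e3, ← hc' v]
          simp only [s, if_pos hv, map_mul, map_neg, map_pow, map_ofNat]
          ring
        · rw [if_neg hv, map_zero]
          have : mk (X (Sum.inl (v, 1, j))) = 0 :=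
            Ideal.Quotient.eq_zero_iff_mem.2 (hnil v hv j)
          simp [this]
    · simp only [thetaVal, val]
      split_ifs with hr
      · rw [map_zero, show mk (X (Sum.inr r)) = 0 from
          Ideal.Quotient.eq_zero_iff_mem.2 (hZ r hr), map_zero]
      · simp [hη, val]
  have hfS : η (fun _ => S) f = 0 := by
    rw [key, AlgHom.comp_apply]
    refine Submodule.span_induction (p := fun x _ => η c' x = 0) ?_ (map_zero _)
      (fun x y _ _ hx hy => by rw [map_add, hx, hy, add_zero])
      (fun a x _ hx => by rw [smul_eq_mul, map_mul, hx, mul_zero]) hspan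
    rintro _ ⟨v, hv, rfl⟩
    have hv' : kind v ≠ Kind.free := by simpa [conicSet] using hv
    have h := congrArg (C : D →+* R) (Ideal.Quotient.eq_zero_iff_mem.2 (hconic v hv'))
    rw [map_zero] at h
    rw [← h, show η c' (conicRel δ v) = _ from rfl]
    simp only [conicRel, map_sub, map_add, map_mul, map_pow, hη, val, if_true]
    rw [show η c' (C (δ v)) = C (mk (C (δ v))) from by
      rw [show (C (δ v) : Λ) = algebraMap O Λ (δ v) from rfl, AlgHom.commutes, AlgHom.commutes,
        IsScalarTower.algebraMap_apply O (Λ ⧸ 𝔮) R]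
      rfl]
    simp [mk]
    rfl
  -- unscale
  have hf1 : η (fun _ => 1) f = 0 := by
    let σR : R →ₐ[O] R := (rescaleAlgHom fun _ => S).restrictScalars O
    have hσX : σR w = C S * w := by
      show rescaleAlgHom (fun _ : Unit => S) (X ()) = _
      rw [rescaleAlgHom, substAlgHom_X]
      simp [smul_eq_C_mul, w]
    have hσC : ∀ x : D, σR (C x) = C x := fun x => (rescaleAlgHom fun _ : Unit => S).commutes x
    have e : η (fun _ => S) = σR.comp (η fun _ => 1) := by
      refine algHom_ext_X (fun i => ?_) fun i => (hη _ i).symm ▸ hval _ i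
      rw [AlgHom.comp_apply, hη, hη]
      rcases i with ⟨v, i, j⟩ | r
      · simp only [val]
        split_ifs
        · rw [hσC]
        · rw [map_mul σR, hσC, hσX, one_mul, map_mul]
          ring
      · simp only [val]
        rw [hσC]
    rw [e, AlgHom.comp_apply] at hfS
    refine MvPowerSeries.ext fun d => ?_
    have hd := congrArg (coeff d) hfS
    rw [show σR (η (fun _ => 1) f) = rescaleAlgHom (fun _ : Unit => S) (η (fun _ => 1) f) from rfl,
      rescaleAlgHom_apply, coeff_rescale, map_zero] at hd
    exact (mul_eq_zero.1 hd).resolve_left (Finset.prod_ne_zero_iff.2 fun _ _ =>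
      pow_ne_zero _ (Finset.prod_ne_zero_iff.2 fun v _ => hs0 v))
  -- evaluate the variable at one
  rw [← Ideal.Quotient.eq_zero_iff_mem]
  refine IsHausdorff.haus' (I := maximalIdeal D) (mk f) fun K => ?_
  rw [SModEq.zero, smul_eq_mul, Ideal.mul_top]
  obtain ⟨t, ht⟩ := exists_poly f K
  let pval : Coord V ρ → MvPolynomial Unit D := fun i => match i with
    | Sum.inl (v, i, j) => if i = 0 then MvPolynomial.C (mk (X (Sum.inl (v, i, j))))
        else MvPolynomial.C (mk (X (Sum.inl (v, i, j)))) * MvPolynomial.X ()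
    | Sum.inr r => MvPolynomial.C (mk (X (Sum.inr r)))
  set P := MvPolynomial.aeval pval t
  have hPη : (P : R) = η (fun _ => 1) (t : Λ) := by
    have : ((MvPolynomial.coeToMvPowerSeries.algHom D).restrictScalars O).comp
        (MvPolynomial.aeval pval) =
        (η fun _ => 1).comp (MvPolynomial.coeToMvPowerSeries.algHom O) :=
      MvPolynomial.algHom_ext fun i => by
        rcases i with ⟨v, i, j⟩ | r
        · by_cases hi : i = 0
          · simp [pval, hη, val, hi]; rfl
          · simp [pval, hη, val, hi, w]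
        · simp [pval, hη, val]; rfl
    simpa using DFunLike.congr_fun this t
  have hcoef : ∀ d, coeff d (P : R) ∈ maximalIdeal D ^ K := by
    have hmem : η (fun _ => 1) (f - (t : Λ)) ∈
        ((maximalIdeal D).map (C : D →+* R)) ^ K := by
      have h1 := Ideal.mem_map_of_mem ((η fun _ => 1) : Λ →+* R) ht
      rw [Ideal.map_pow, Ideal.map_span, ← Set.range_comp] at h1
      refine Ideal.pow_right_mono (Ideal.span_le.2 (Set.range_subset_iff.2 fun i => ?_)) K h1
      show η (fun _ => 1) (X i) ∈ _
      rw [hη]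
      rcases i with ⟨v, i, j⟩ | r
      · simp only [val]
        split_ifs
        · exact Ideal.mem_map_of_mem _ (hxm _)
        · rw [one_mul]
          exact Ideal.mul_mem_right _ _ (Ideal.mem_map_of_mem _ (hxm _))
      · exact Ideal.mem_map_of_mem _ (hxm _)
    rw [map_sub, hf1, zero_sub, ← hPη, neg_mem_iff, ← Ideal.map_pow] at hmem
    refine Submodule.span_induction
      (p := fun (x : R) _ => ∀ d, coeff d x ∈ maximalIdeal D ^ K) ?_
      (fun d => by simp) (fun x y _ _ hx hy d => by rw [map_add]; exact add_mem (hx d) (hy d))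
      ?_ hmem
    · rintro _ ⟨a, ha, rfl⟩ d
      rw [coeff_C]
      split_ifs
      · exact ha
      · exact zero_mem _
    · intro a x _ hx d
      classical
      rw [smul_eq_mul, coeff_mul]
      exact Ideal.sum_mem _ fun p _ => Ideal.mul_mem_left _ _ (hx p.2)
  have heval : mk (t : Λ) = MvPolynomial.eval (fun _ => (1 : D)) P := by
    have : mk.comp (MvPolynomial.coeToMvPowerSeries.algHom O) =
        ((MvPolynomial.aeval fun _ : Unit => (1 : D)).restrictScalars O).comp
          (MvPolynomial.aeval pval) :=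
      MvPolynomial.algHom_ext fun i => by
        rcases i with ⟨v, i, j⟩ | r
        · by_cases hi : i = 0 <;> simp [pval, hi]
        · simp [pval]
    simpa [P, MvPolynomial.aeval_eq_eval] using DFunLike.congr_fun this t
  have h1 : mk (f - (t : Λ)) ∈ maximalIdeal D ^ K := by
    have := Ideal.mem_map_of_mem (mk : Λ →+* D) ht
    rw [Ideal.map_pow, Ideal.map_span, ← Set.range_comp] at this
    exact Ideal.pow_right_mono (Ideal.span_le.2 (Set.range_subset_iff.2 hxm)) K this
  have h2' : MvPolynomial.eval (fun _ => (1 : D)) P ∈ maximalIdeal D ^ K := by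
    rw [MvPolynomial.eval_eq]
    refine Ideal.sum_mem _ fun d _ => Ideal.mul_mem_right _ _ ?_
    rw [← MvPolynomial.coeff_coe]
    exact hcoef d
  rw [map_sub, heval] at h1
  have h := add_mem h1 h2'
  rwa [sub_add_cancel] at h

/-- The parameters of a type. -/
def paramVec (v : V) : Fin 3 → Λ :=
  match kind v with
  | Kind.free => fVec v
  | Kind.conic => fVec v
  | Kind.mult => ![nVec v 0, nVec v 1 + fVec v 2, nVec v 2 + fVec v 1]

/-- **The dimension of a type.** -/
theorem ringKrullDim_mixPrime_le (_h2 : IsUnit (2 : O)) :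
    ringKrullDim (Λ ⧸ mixPrime kind Z hδ) ≤
      ringKrullDim (MvPowerSeries (V × Fin 3 ⊕ ρ) O) := by
  classical
  let B := Λ ⧸ mixPrime kind Z hδ
  let mk : Λ →ₐ[O] B := Ideal.Quotient.mkₐ O _
  have : IsLocalRing B := IsLocalRing.of_surjective' _ Ideal.Quotient.mk_surjective
  have : IsAdicComplete (maximalIdeal B) B :=
    isAdicComplete_of_surjective mk Ideal.Quotient.mk_surjective
  have hloc : IsLocalHom (mk : Λ →+* B) := IsLocalHom.of_surjective _ Ideal.Quotient.mk_surjective
  have hmk : ∀ {x : Λ}, x ∈ maximalIdeal Λ → mk x ∈ maximalIdeal B := fun {x} hx =>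
    (IsLocalRing.mem_maximalIdeal _).2 fun h =>
      (IsLocalRing.mem_maximalIdeal _).1 hx (isUnit_of_map_unit (mk : Λ →+* B) _ h)
  let pv : V × Fin 3 ⊕ ρ → B := Sum.elim (fun x => mk (paramVec kind x.1 x.2))
    fun r => mk (X (Sum.inr r))
  have hX := fun c : Coord V ρ => X_mem_maximalIdeal (O := O) c
  have hpv : ∀ i, pv i ∈ maximalIdeal B := by
    rintro (⟨v, k⟩ | r)
    · refine hmk ?_
      cases hk : kind v <;> simp only [paramVec, hk, fVec]
      · exact hX _
      · exact hX _
      · fin_cases k
        · exact hX _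
        · exact add_mem (hX _) (hX _)
        · exact add_mem (hX _) (hX _)
    · exact hmk (hX _)
  obtain ⟨p, hp⟩ := exists_evalHom (𝒪 := O) pv hpv
  let S0 := MvPowerSeries (V × Fin 3 ⊕ ρ) O
  let : Algebra S0 B := (p : S0 →+* B).toAlgebra
  set J := (maximalIdeal S0).map (algebraMap S0 B)
  have hJ : J ≤ maximalIdeal B := by
    rw [Ideal.map_le_iff_le_comap]
    intro x hx
    have : IsLocalHom (algebraMap O B) := isLocalHom_algebraMap_of_surjective mk
      Ideal.Quotient.mk_surjective
    rw [Ideal.mem_comap]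
    show p x ∈ maximalIdeal B
    have h0 : constantCoeff x ∈ maximalIdeal O := (IsLocalRing.mem_maximalIdeal _).2 fun h =>
      (IsLocalRing.mem_maximalIdeal _).1 hx (MvPowerSeries.isUnit_iff_constantCoeff.2 h)
    have := Fintype.ofFinite (V × Fin 3 ⊕ ρ)
    obtain ⟨g, hg⟩ := Ideal.mem_span_range_iff_exists_fun.mp (Patching.sub_C_mem_span_range_X x)
    have hx' : x = ∑ i, g i * X i + C (constantCoeff x) := by rw [hg]; ring
    rw [hx', map_add, map_sum, show (C (constantCoeff x) : S0) = algebraMap O S0 _ from rfl,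
      AlgHom.commutes]
    refine add_mem (Ideal.sum_mem _ fun i _ => ?_) ((IsLocalRing.mem_maximalIdeal _).2 fun h =>
      (IsLocalRing.mem_maximalIdeal _).1 h0 (isUnit_of_map_unit (algebraMap O B) _ h))
    rw [map_mul, hp]
    exact Ideal.mul_mem_left _ _ (hpv i)
  -- every prime over the parameters is maximal
  have hrad : maximalIdeal B ≤ J.radical := by
    rw [Ideal.radical_eq_sInf]
    refine le_sInf ?_
    rintro P ⟨hJP, hP⟩
    have hpar : ∀ i, pv i ∈ P := fun i => hp i ▸ hJP (Ideal.mem_map_of_mem _ (X_mem_maximalIdeal i))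
    have hπ : ∀ c ∈ maximalIdeal O, mk (C c) ∈ P := fun c hc => by
      have h := hJP (Ideal.mem_map_of_mem (algebraMap S0 B)
        (C_mem_maximalIdeal (σ := V × Fin 3 ⊕ ρ) hc))
      rwa [show algebraMap S0 B (C c) = p (algebraMap O S0 c) from rfl, AlgHom.commutes,
        ← AlgHom.commutes mk] at h
    have hz : ∀ {x : Λ}, x ∈ mixPrime kind Z hδ → mk x ∈ P := fun {x} hx => by
      rw [show mk x = 0 from Ideal.Quotient.eq_zero_iff_mem.2 hx]
      exact zero_mem _
    have hcoord : ∀ c : Coord V ρ, mk (X c) ∈ P := by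
      rintro (⟨v, i, j⟩ | r)
      swap
      · exact hpar (Sum.inr r)
      set a := fun k => mk (fVec v k) with ha
      set n := fun k => mk (nVec v k) with hn
      suffices h : (∀ k, a k ∈ P) ∧ ∀ k, n k ∈ P by
        fin_cases i
        · exact h.1 j
        · exact h.2 j
      cases hk : kind v with
      | free =>
        exact ⟨fun k => by simpa [pv, paramVec, hk] using hpar (Sum.inl (v, k)),
          fun k => hz (nVec_mem_mixPrime kind Z hδ (by rw [hk]; decide) k)⟩
      | conic =>
        exact ⟨fun k => by simpa [pv, paramVec, hk] using hpar (Sum.inl (v, k)),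
          fun k => hz (nVec_mem_mixPrime kind Z hδ (by rw [hk]; decide) k)⟩
      | mult =>
        have hs : n 0 ∈ P := by simpa [pv, paramVec, hk, hn] using hpar (Sum.inl (v, 0))
        have hte : n 1 + a 2 ∈ P := by
          simpa [pv, paramVec, hk, hn, ha] using hpar (Sum.inl (v, 1))
        have hrb : n 2 + a 1 ∈ P := by
          simpa [pv, paramVec, hk, hn, ha] using hpar (Sum.inl (v, 2))
        have hd := hπ _ (hδ v)
        have h00 := hz ((rel_mem_mixPrime kind Z hδ hk 0 0).1)
        have h11 := hz ((rel_mem_mixPrime kind Z hδ hk 1 1).1)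
        have hcon := hz (conicRel_mem_mixPrime kind Z hδ (v := v) (by rw [hk]; decide))
        simp [tri, relRight, Matrix.mul_apply, Fin.sum_univ_two, Matrix.one_apply] at h00 h11
        simp only [conicRel, map_sub, map_add, map_mul, map_pow] at hcon
        change n 0 * (a 0 + mk (C (δ v))) + n 1 * a 2 ∈ P at h00
        change a 0 ^ 2 + a 1 * a 2 - mk (C (δ v)) ^ 2 ∈ P at hcon
        have hte2 : n 1 * a 2 ∈ P := (Ideal.add_mem_iff_right _ (Ideal.mul_mem_right _ _ hs)).1 h00
        have he : a 2 ∈ P := hP.mem_of_pow_mem 2 (by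
          have := sub_mem (Ideal.mul_mem_right (a 2) _ hte) hte2
          convert this using 1; ring)
        have hrb2 : n 2 * a 1 ∈ P := by
          have h11' : n 2 * a 1 + -n 0 * (-a 0 + mk (C (δ v))) ∈ P := by
            convert h11 using 1; ring
          exact (Ideal.add_mem_iff_left _ (Ideal.mul_mem_right _ _ (neg_mem hs))).1 h11'
        have hb : a 1 ∈ P := hP.mem_of_pow_mem 2 (by
          have := sub_mem (Ideal.mul_mem_right (a 1) _ hrb) hrb2
          convert this using 1; ring)
        have ha0 : a 0 ∈ P := hP.mem_of_pow_mem 2 (by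
          have := sub_mem (add_mem hcon (Ideal.pow_mem_of_mem _ hd 2 two_pos))
            (Ideal.mul_mem_left _ (a 1) he)
          convert this using 1; ring)
        refine ⟨fun k => ?_, fun k => ?_⟩
        · fin_cases k
          · exact ha0
          · exact hb
          · exact he
        · fin_cases k
          · exact hs
          · simpa using sub_mem hte he
          · simpa using sub_mem hrb hb
    intro x hx
    obtain ⟨y, rfl⟩ := Ideal.Quotient.mk_surjective x
    have h0 : constantCoeff y ∈ maximalIdeal O := (IsLocalRing.mem_maximalIdeal _).2 fun h =>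
      (IsLocalRing.mem_maximalIdeal _).1 hx
        ((MvPowerSeries.isUnit_iff_constantCoeff.2 h).map (Ideal.Quotient.mk _))
    have := Fintype.ofFinite (Coord V ρ)
    obtain ⟨g, hg⟩ := Ideal.mem_span_range_iff_exists_fun.mp (Patching.sub_C_mem_span_range_X y)
    have hy : y = ∑ i, g i * X i + C (constantCoeff y) := by rw [hg]; ring
    show mk y ∈ P
    rw [hy, map_add, map_sum]
    refine add_mem (Ideal.sum_mem _ fun i _ => ?_) (hπ _ h0)
    rw [map_mul]
    exact Ideal.mul_mem_left _ _ (hcoord i)
  -- finiteness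
  obtain ⟨N, hN⟩ := Ideal.exists_pow_le_of_le_radical_of_fg hrad (IsNoetherian.noetherian _)
  have hfinq : Finite (B ⧸ J) := by
    have : Finite (ResidueField B) := by
      have := finite_residueField_mvPowerSeries (σ := Coord V ρ) (O := O)
      refine Finite.of_surjective (ResidueField.map (mk : Λ →+* B)) fun z => ?_
      obtain ⟨y, rfl⟩ := IsLocalRing.residue_surjective z
      obtain ⟨y, rfl⟩ := Ideal.Quotient.mk_surjective y
      exact ⟨residue Λ y, ResidueField.map_residue _ _⟩
    have := finite_quotient_pow (O := B) N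
    exact Finite.of_surjective _ (Ideal.Quotient.factor_surjective hN)
  have : Finite (B ⧸ (maximalIdeal S0 • ⊤ : Submodule S0 B)) := by
    rw [Ideal.smul_top_eq_map]
    exact hfinq
  have : IsHausdorff (maximalIdeal S0) B := IsHausdorff.of_map (S := B) hJ
  have : Module.Finite S0 B := finite_of_quotient (maximalIdeal S0)
  exact Algebra.ringKrullDim_le_of_isIntegral

end Fermat.Agent.RT.Lift59.Chain

end
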