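import Fermat.Agent.RT.Lift59.Chain.Data
import Fermat.Agent.RT.Lift59.Chain.Mix

/-!
# Components of a coordinate algebra with the local relations

A prime has the type of a set `St` of places if `φ` and the conics vanish there, inertia vanishes
at the others and constants do not. Primes of the same type and of full dimension are equal, and
over one there is a prime on which the component can be flipped at any further place.
-/

set_option autoImplicit false

noncomputable section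

namespace Fermat.Agent.RT.Lift59.Chain

open IsLocalRing MvPowerSeries
open Fermat.Agent.RT.Germ Fermat.Agent.RT.Algebra Fermat.Agent.RT.Assembly
open Fermat.Agent.CFT.Tangent (exists_evalHom surjective_evalHom)

variable {O : Type} [CommRing O] [IsDomain O] [IsDiscreteValuationRing O]
  [IsAdicComplete (maximalIdeal O) O] [Finite (ResidueField O)]

/-- The remaining coordinates on a component: the free ones and one at each node. -/
abbrev Shape.Small (P : Shape O) : Type := Coord P.Vs (Fin P.g ⊕ P.Nd)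

omit [IsAdicComplete (maximalIdeal O) O] [Finite (ResidueField O)] [IsDomain O]
  [IsDiscreteValuationRing O] in
theorem ringKrullDim_params [IsLocalRing O] (P : Shape O) :
    ringKrullDim (MvPowerSeries (P.Vs × Fin 3 ⊕ (Fin P.g ⊕ P.Nd)) O) =
      ringKrullDim (MvPowerSeries (Fin P.R) O) := by
  have := Fintype.ofFinite P.Vs
  have := Fintype.ofFinite P.Nd
  obtain ⟨e⟩ : Nonempty (P.Vs × Fin 3 ⊕ (Fin P.g ⊕ P.Nd) ≃ Fin P.R) := by
    refine ⟨(Fintype.equivFin _).trans (finCongr ?_)⟩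
    have h := P.count
    rw [Nat.card_eq_fintype_card, Nat.card_eq_fintype_card] at h
    simp only [Fintype.card_sum, Fintype.card_prod, Fintype.card_fin]
    omega
  exact ringKrullDim_eq_of_ringEquiv (MvPowerSeries.renameEquiv O e).toRingEquiv

variable (P : Shape O) {A : Type} [CommRing A] [Algebra O A] (γ : P.Coords →ₐ[O] A)

/-- The relations valid in a coordinate algebra. -/
structure RelAlg : Prop where
  surj : Function.Surjective γ
  node_mul : ∀ w j, γ (P.ent w j * (P.phi w * (P.phi w + C (P.κ w)))) = 0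
  node_line : ∀ w j, ∃ c : A,
    (γ (P.ent w j) - c * γ (P.ent w (P.j₀ w))) * γ (P.phi w + C (P.κ w)) = 0
  scalar_mul : ∀ v (k : Fin 3), γ (X (Sum.inl (v, 1, k)) * P.conic v) = 0
  scalar_right : ∀ v i j, γ (P.relR v i j) = 0
  scalar_left : ∀ v i j, γ (P.relL v i j) = 0

/-- A prime of the component of a set of places. -/
structure IsType (St : Set (P.Nd ⊕ P.Vs)) (𝔮 : Ideal A) : Prop where
  prime : 𝔮.IsPrime
  const : ∀ c : O, c ≠ 0 → algebraMap O A c ∉ 𝔮
  phi_mem : ∀ w, Sum.inl w ∈ St → γ (P.phi w) ∈ 𝔮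
  ent_mem : ∀ w, Sum.inl w ∉ St → ∀ j, γ (P.ent w j) ∈ 𝔮
  conic_mem : ∀ v, Sum.inr v ∈ St → γ (P.conic v) ∈ 𝔮
  nil_mem : ∀ v, Sum.inr v ∉ St → ∀ k : Fin 3, γ (X (Sum.inl (v, 1, k))) ∈ 𝔮

variable {P γ}

omit [IsAdicComplete (maximalIdeal O) O] [Finite (ResidueField O)] in
theorem kappa_add_notMem {𝔭 : Ideal A} (_h𝔭 : 𝔭.IsPrime)
    (hc : ∀ c : O, c ≠ 0 → algebraMap O A c ∉ 𝔭) (w : P.Nd) (hφ : γ (P.phi w) ∈ 𝔭) :
    γ (P.phi w + C (P.κ w)) ∉ 𝔭 := fun h => hc _ (P.κ_ne w) (by
  rw [map_add, show (C (P.κ w) : P.Coords) = algebraMap O _ (P.κ w) from rfl, AlgHom.commutes] at h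
  exact (Ideal.add_mem_iff_right _ hφ).1 h)

open scoped Classical in
/-- The values of the remaining coordinates on a component. -/
def smallVal (γ : P.Coords →ₐ[O] A) (St : Set (P.Nd ⊕ P.Vs)) : P.Small → A
  | Sum.inl x => γ (X (Sum.inl x))
  | Sum.inr (Sum.inl z) => γ (X (Sum.inr (Sum.inl z)))
  | Sum.inr (Sum.inr w) =>
      if Sum.inl w ∈ St then γ (P.ent w (P.j₀ w)) else γ (P.phi w)

open scoped Classical in
/-- The types at the scalar places. -/
def kindOf (St : Set (P.Nd ⊕ P.Vs)) (v : P.Vs) : Kind :=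
  if Sum.inr v ∈ St then Kind.mult else Kind.free

omit [IsAdicComplete (maximalIdeal O) O] [Finite (ResidueField O)] in
theorem kindOf_eq_mult {St : Set (P.Nd ⊕ P.Vs)} {v : P.Vs}
    (h : kindOf St v = Kind.mult) : Sum.inr v ∈ St := by
  unfold kindOf at h
  by_contra h'
  rw [if_neg h'] at h
  cases h

variable [IsLocalRing A]

omit [IsAdicComplete (maximalIdeal O) O] [Finite (ResidueField O)] in
theorem coord_mem (h : RelAlg P γ) (c : P.Crd) : γ (X c) ∈ maximalIdeal A := by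
  have : IsLocalHom (γ : P.Coords →+* A) := IsLocalHom.of_surjective _ h.surj
  exact (IsLocalRing.mem_maximalIdeal _).2 fun hu =>
    (IsLocalRing.mem_maximalIdeal _).1 (X_mem_maximalIdeal (O := O) c)
      (isUnit_of_map_unit (γ : P.Coords →+* A) _ hu)

omit [IsAdicComplete (maximalIdeal O) O] [Finite (ResidueField O)] in
theorem smallVal_mem (h : RelAlg P γ) (St : Set (P.Nd ⊕ P.Vs)) (i : P.Small) :
    smallVal γ St i ∈ maximalIdeal A := by
  rcases i with x | z | w
  · exact coord_mem h _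
  · exact coord_mem h _
  · simp only [smallVal]
    split_ifs <;> exact coord_mem h _

/-- The component coordinates generate a common quotient of primes of one type. -/
theorem exists_small_surjective (h : RelAlg P γ) {St : Set (P.Nd ⊕ P.Vs)} {I : Ideal A}
    (hI : I ≠ ⊤) (hphi : ∀ w, Sum.inl w ∈ St → γ (P.phi w) ∈ I)
    (hent : ∀ w, Sum.inl w ∉ St → ∀ j, γ (P.ent w j) ∈ I)
    (hline : ∀ w, Sum.inl w ∈ St → ∀ j, ∃ c : A,
      γ (P.ent w j) - c * γ (P.ent w (P.j₀ w)) ∈ I) :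
    ∃ ψ : MvPowerSeries P.Small O →ₐ[O] A ⧸ I, Function.Surjective ψ ∧
      ∀ i, ψ (X i) = Ideal.Quotient.mk I (smallVal γ St i) := by
  let B := A ⧸ I
  have : Nontrivial B := Ideal.Quotient.nontrivial_iff.2 hI
  have : IsLocalRing B := IsLocalRing.of_surjective' _ Ideal.Quotient.mk_surjective
  let q : P.Coords →ₐ[O] B := (Ideal.Quotient.mkₐ O I).comp γ
  have hq : Function.Surjective q := Ideal.Quotient.mk_surjective.comp h.surj
  have : IsNoetherianRing B := isNoetherianRing_of_surjective _ _ (q : P.Coords →+* B) hq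
  have : IsAdicComplete (maximalIdeal B) B := isAdicComplete_of_surjective q hq
  have hloc : IsLocalHom (algebraMap O B) := isLocalHom_algebraMap_of_surjective q hq
  have hlocq : IsLocalHom (q : P.Coords →+* B) := IsLocalHom.of_surjective _ hq
  have hlocI : IsLocalHom (Ideal.Quotient.mk I) :=
    IsLocalHom.of_surjective _ Ideal.Quotient.mk_surjective
  have hs : ∀ i, Ideal.Quotient.mk I (smallVal γ St i) ∈ maximalIdeal B := fun i =>
    (IsLocalRing.mem_maximalIdeal _).2 fun hu =>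
      (IsLocalRing.mem_maximalIdeal _).1 (smallVal_mem h St i)
        (isUnit_of_map_unit (Ideal.Quotient.mk I) _ hu)
  obtain ⟨ψ, hψ⟩ := exists_evalHom (𝒪 := O) (fun i => Ideal.Quotient.mk I (smallVal γ St i)) hs
  have hres : Function.Surjective (residue B ∘ algebraMap O B) := fun z => by
    obtain ⟨b, rfl⟩ := IsLocalRing.residue_surjective z
    obtain ⟨x, rfl⟩ := hq b
    refine ⟨constantCoeff x, sub_eq_zero.1 ?_⟩
    have := Fintype.ofFinite P.Crd
    rw [Function.comp_apply, ← map_sub, residue_eq_zero_iff, ← neg_mem_iff, neg_sub,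
      ← AlgHom.commutes q, ← map_sub]
    refine (IsLocalRing.mem_maximalIdeal _).2 fun hu => ?_
    have h' := isUnit_of_map_unit (q : P.Coords →+* B) _ hu
    have := MvPowerSeries.isUnit_iff_constantCoeff.mp h'
    simp [show algebraMap O P.Coords (constantCoeff x) = C (constantCoeff x) from rfl] at this
  refine ⟨ψ, surjective_evalHom hres ψ hψ hs fun y hy => ?_, hψ⟩
  obtain ⟨x, rfl⟩ := hq y
  set J := Ideal.span (Set.range fun i => Ideal.Quotient.mk I (smallVal γ St i)) ⊔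
    (maximalIdeal O).map (algebraMap O B)
  have hval : ∀ i, Ideal.Quotient.mk I (smallVal γ St i) ∈ J := fun i =>
    Submodule.mem_sup_left (Ideal.subset_span ⟨i, rfl⟩)
  have hX : ∀ c : P.Crd, q (X c) ∈ J := by
    classical
    have hzero : ∀ {a : A}, a ∈ I → Ideal.Quotient.mk I a ∈ J := fun {a} ha => by
      rw [Ideal.Quotient.eq_zero_iff_mem.2 ha]; exact zero_mem _
    rintro (x | z | ⟨w, _ | j⟩)
    · exact hval (Sum.inl x)
    · exact hval (Sum.inr (Sum.inl z))
    · show Ideal.Quotient.mk I (γ (P.phi w)) ∈ J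
      by_cases hw : Sum.inl w ∈ St
      · exact hzero (hphi w hw)
      · simpa [smallVal, hw] using hval (Sum.inr (Sum.inr w))
    · show Ideal.Quotient.mk I (γ (P.ent w j)) ∈ J
      by_cases hw : Sum.inl w ∈ St
      · obtain ⟨c, hc⟩ := hline w hw j
        rw [Ideal.Quotient.eq.2 hc, map_mul]
        have := hval (Sum.inr (Sum.inr w))
        simp only [smallVal, if_pos hw] at this
        exact Ideal.mul_mem_left _ _ this
      · exact hzero (hent w hw j)
  have := Fintype.ofFinite P.Crd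
  have h0 : constantCoeff x ∈ maximalIdeal O := (IsLocalRing.mem_maximalIdeal _).2 fun hu =>
    (IsLocalRing.mem_maximalIdeal _).1 hy
      ((MvPowerSeries.isUnit_iff_constantCoeff.2 hu).map q)
  obtain ⟨g, hg⟩ := Ideal.mem_span_range_iff_exists_fun.mp (Patching.sub_C_mem_span_range_X x)
  have hx : x = ∑ i, g i * X i + C (constantCoeff x) := by rw [hg]; ring
  show q x ∈ J
  rw [hx, map_add, map_sum, show (C (constantCoeff x) : P.Coords) = algebraMap O _ _ from rfl,
    AlgHom.commutes]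
  refine add_mem (Ideal.sum_mem _ fun i _ => ?_)
    (Submodule.mem_sup_right (Ideal.mem_map_of_mem _ h0))
  rw [map_mul]
  exact Ideal.mul_mem_left _ _ (hX i)

omit [IsAdicComplete (maximalIdeal O) O] [Finite (ResidueField O)] [IsLocalRing A] in
theorem line_mem (_h : RelAlg P γ) {St : Set (P.Nd ⊕ P.Vs)} {𝔮 : Ideal A}
    (hq : IsType P γ St 𝔮) {w : P.Nd} (hw : Sum.inl w ∈ St) (j : Fin 2 × Fin 2) {c : A}
    (hc : (γ (P.ent w j) - c * γ (P.ent w (P.j₀ w))) * γ (P.phi w + C (P.κ w)) = 0) :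
    γ (P.ent w j) - c * γ (P.ent w (P.j₀ w)) ∈ 𝔮 :=
  (hq.prime.mem_or_mem (hc ▸ zero_mem 𝔮)).resolve_right
    (kappa_add_notMem hq.prime hq.const w (hq.phi_mem w hw))

omit [IsLocalRing A] in
/-- The kernel on the component coordinates contains the prime of the type. -/
theorem mixPrime_le_ker (h : RelAlg P γ) (h2 : IsUnit (2 : O)) {St : Set (P.Nd ⊕ P.Vs)}
    {𝔮 : Ideal A} (hq : IsType P γ St 𝔮) (g : MvPowerSeries P.Small O →ₐ[O] A ⧸ 𝔮)
    (hg : ∀ i, g (X i) = Ideal.Quotient.mk 𝔮 (smallVal γ St i)) :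
    mixPrime (kindOf St) ∅ P.δ_mem ≤ RingHom.ker (g : MvPowerSeries P.Small O →+* A ⧸ 𝔮) := by
  classical
  have := hq.prime
  let f : P.Coords →+* A ⧸ 𝔮 := (Ideal.Quotient.mk 𝔮).comp γ.toRingHom
  have hn : ∀ v, (fun k => (g : MvPowerSeries P.Small O →+* A ⧸ 𝔮) (nVec v k)) =
      fun k => f (nVec v k) := fun v => funext fun k => hg (Sum.inl (v, 1, k))
  have hf : ∀ v, (fun k => (g : MvPowerSeries P.Small O →+* A ⧸ 𝔮) (fVec v k)) =
      fun k => f (fVec v k) := fun v => funext fun k => hg (Sum.inl (v, 0, k))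
  have hd : ∀ c : O, (g : MvPowerSeries P.Small O →+* A ⧸ 𝔮) (C c) = f (C c) := fun c => by
    show g (algebraMap O _ c) = Ideal.Quotient.mk 𝔮 (γ (algebraMap O _ c))
    rw [AlgHom.commutes, AlgHom.commutes]
    rfl
  refine mixPrime_le (kindOf St) ∅ P.δ_mem h2 (RingHom.ker_isPrime _) (fun r hr => hr.elim)
    (fun v hv => ?_) (fun v hv k => ?_) (fun v _ => P.δ_ne v) (fun v _ hmem => ?_)
    (fun v hv i j => ?_)
  · have hv' : Sum.inr v ∈ St := by
      by_contra h'
      exact hv (by simp [kindOf, h'])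
    have h0 : f (P.conic v) = 0 := Ideal.Quotient.eq_zero_iff_mem.2 (hq.conic_mem v hv')
    rw [RingHom.mem_ker, ← h0]
    simp only [conicRel, Shape.conic, map_sub, map_add, map_mul, map_pow]
    rw [← hd]
    have e : ∀ k : Fin 3, (g : MvPowerSeries P.Small O →+* A ⧸ 𝔮) (X (Sum.inl (v, 0, k))) =
        f (X (Sum.inl (v, 0, k))) := fun k => congrFun (hf v) k
    rw [e, e, e]
  · have hv' : Sum.inr v ∉ St := fun h' => hv (by simp [kindOf, h'])
    rw [RingHom.mem_ker]
    exact (congrFun (hn v) k).trans (Ideal.Quotient.eq_zero_iff_mem.2 (hq.nil_mem v hv' k))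
  · rw [RingHom.mem_ker, hd] at hmem
    have := Ideal.Quotient.eq_zero_iff_mem.1 hmem
    rw [show (C (P.δ v) : P.Coords) = algebraMap O _ (P.δ v) from rfl] at this
    exact hq.const _ (P.δ_ne v) (by simpa using this)
  · have hR : relRight P.δ v = P.relR v := rfl
    have hL : relLeft P.δ v = P.relL v := rfl
    constructor <;> rw [RingHom.mem_ker]
    · have e := map_relRight (δ := P.δ) (g : MvPowerSeries P.Small O →+* A ⧸ 𝔮) v
      rw [hn, hf, hd] at e
      have e' := e.trans (map_relRight (δ := P.δ) f v).symm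
      refine (congrFun (congrFun e' i) j).trans ?_
      show f (relRight P.δ v i j) = 0
      rw [hR]
      exact Ideal.Quotient.eq_zero_iff_mem.2 ((h.scalar_right v i j).symm ▸ zero_mem 𝔮)
    · have e := map_relLeft (δ := P.δ) (g : MvPowerSeries P.Small O →+* A ⧸ 𝔮) v
      rw [hn, hf, hd] at e
      have e' := e.trans (map_relLeft (δ := P.δ) f v).symm
      refine (congrFun (congrFun e' i) j).trans ?_
      show f (relLeft P.δ v i j) = 0
      rw [hL]
      exact Ideal.Quotient.eq_zero_iff_mem.2 ((h.scalar_left v i j).symm ▸ zero_mem 𝔮)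

omit [IsLocalRing A] in
/-- On a prime of full dimension the kernel is the prime of the type. -/
theorem ker_le_mixPrime (h : RelAlg P γ) (h2 : IsUnit (2 : O)) {St : Set (P.Nd ⊕ P.Vs)}
    {𝔮 : Ideal A} (hq : IsType P γ St 𝔮)
    (hdim : ringKrullDim (MvPowerSeries (Fin P.R) O) ≤ ringKrullDim (A ⧸ 𝔮))
    (g : MvPowerSeries P.Small O →ₐ[O] A ⧸ 𝔮) (hsurj : Function.Surjective g)
    (hg : ∀ i, g (X i) = Ideal.Quotient.mk 𝔮 (smallVal γ St i)) :
    RingHom.ker (g : MvPowerSeries P.Small O →+* A ⧸ 𝔮) ≤ mixPrime (kindOf St) ∅ P.δ_mem := by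
  set Pm := mixPrime (kindOf St) (∅ : Set (Fin P.g ⊕ P.Nd)) P.δ_mem
  have hle := mixPrime_le_ker h h2 hq g hg
  intro x hx
  by_contra hxP
  let B := MvPowerSeries P.Small O ⧸ Pm
  let f : B →+* A ⧸ 𝔮 := Ideal.Quotient.lift Pm (g : _ →+* A ⧸ 𝔮) fun a ha => RingHom.mem_ker.1 (hle ha)
  have hf : Function.Surjective f := fun y => by
    obtain ⟨a, rfl⟩ := hsurj y
    exact ⟨Ideal.Quotient.mk Pm a, rfl⟩
  have hne : Ideal.Quotient.mk Pm x ≠ 0 := fun h0 => hxP (Ideal.Quotient.eq_zero_iff_mem.1 h0)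
  have h1 : ringKrullDim (A ⧸ 𝔮) + 1 ≤ ringKrullDim B :=
    ringKrullDim_succ_le_of_surjective f hf (r := Ideal.Quotient.mk Pm x)
      (mem_nonZeroDivisors_of_ne_zero hne) hx
  have h3 := le_trans (add_le_add hdim le_rfl) (h1.trans
    ((ringKrullDim_mixPrime_le (kindOf St) ∅ P.δ_mem h2).trans (ringKrullDim_params P).le))
  have htop : ringKrullDim (MvPowerSeries (Fin P.R) O) ≠ ⊤ := ringKrullDim_ne_top
  obtain ⟨D, hD⟩ := WithBot.ne_bot_iff_exists.mp
    (ringKrullDim_ne_bot (R := MvPowerSeries (Fin P.R) O))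
  rw [← hD] at h3 htop
  obtain ⟨D', rfl⟩ :=
    ENat.ne_top_iff_exists.mp (show D ≠ ⊤ from fun h' => htop (by rw [h']; rfl))
  exact absurd h3 (by norm_cast; omega)

/-- **Primes of one type and of full dimension are the smallest of their type.** -/
theorem IsType.le_of_dim (h : RelAlg P γ) (h2 : IsUnit (2 : O)) {St : Set (P.Nd ⊕ P.Vs)}
    {𝔮 𝔮' : Ideal A} (hq : IsType P γ St 𝔮) (hq' : IsType P γ St 𝔮')
    (hdim : ringKrullDim (MvPowerSeries (Fin P.R) O) ≤ ringKrullDim (A ⧸ 𝔮)) : 𝔮 ≤ 𝔮' := by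
  set I := 𝔮 ⊓ 𝔮'
  have hI : I ≠ ⊤ := fun e => hq.prime.ne_top (top_le_iff.1 (e ▸ inf_le_left))
  obtain ⟨ψ, hψs, hψ⟩ := exists_small_surjective h (St := St) hI
    (fun w hw => ⟨hq.phi_mem w hw, hq'.phi_mem w hw⟩)
    (fun w hw j => ⟨hq.ent_mem w hw j, hq'.ent_mem w hw j⟩)
    (fun w hw j => by
      obtain ⟨c, hc⟩ := h.node_line w j
      exact ⟨c, line_mem h hq hw j hc, line_mem h hq' hw j hc⟩)
  let g := (Ideal.Quotient.factorₐ O (inf_le_left : I ≤ 𝔮)).comp ψ
  let g' := (Ideal.Quotient.factorₐ O (inf_le_right : I ≤ 𝔮')).comp ψ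
  have hg : ∀ i, g (X i) = Ideal.Quotient.mk 𝔮 (smallVal γ St i) := fun i => by
    rw [AlgHom.comp_apply, hψ]; rfl
  have hg' : ∀ i, g' (X i) = Ideal.Quotient.mk 𝔮' (smallVal γ St i) := fun i => by
    rw [AlgHom.comp_apply, hψ]; rfl
  have hgs : Function.Surjective g :=
    (Ideal.Quotient.factor_surjective inf_le_left).comp hψs
  intro x hx
  obtain ⟨f, hf⟩ := hψs (Ideal.Quotient.mk I x)
  have h0 : g f = 0 := by
    rw [AlgHom.comp_apply, hf]
    exact Ideal.Quotient.eq_zero_iff_mem.2 hx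
  have h1 := mixPrime_le_ker h h2 hq' g' hg' (ker_le_mixPrime h h2 hq hdim g hgs hg h0)
  rw [RingHom.mem_ker] at h1
  have h2' : g' f = 0 := h1
  rw [AlgHom.comp_apply, hf] at h2'
  exact Ideal.Quotient.eq_zero_iff_mem.1 h2'

/-- **A prime to flip on**: over a component of full dimension the flip element at a new place
vanishes on a prime on which constants and inertia at the flipped places do not. -/
theorem exists_flip_prime (h : RelAlg P γ) (h2 : IsUnit (2 : O)) {St : Set (P.Nd ⊕ P.Vs)}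
    {𝔮 : Ideal A} (hq : IsType P γ St 𝔮)
    (hdim : ringKrullDim (MvPowerSeries (Fin P.R) O) ≤ ringKrullDim (A ⧸ 𝔮))
    {u : P.Nd ⊕ P.Vs} (hu : u ∉ St) :
    ∃ 𝔭 : Ideal A, 𝔭.IsPrime ∧ 𝔮 ≤ 𝔭 ∧ (∀ c : O, c ≠ 0 → algebraMap O A c ∉ 𝔭) ∧
      γ (P.flipEl u) ∈ 𝔭 ∧ (∀ w, Sum.inl w = u → γ (P.phi w) ∈ 𝔭) ∧
      (∀ w, Sum.inl w ∈ St → ∃ j, γ (P.ent w j) ∉ 𝔭) ∧
      ∀ v, Sum.inr v ∈ St → ∃ k : Fin 3, γ (X (Sum.inl (v, 1, k))) ∉ 𝔭 := by
  classical
  have := hq.prime
  obtain ⟨g, hgs, hg⟩ := exists_small_surjective h (St := St) hq.prime.ne_top hq.phi_mem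
    hq.ent_mem fun w hw j => (h.node_line w j).imp fun c hc => line_mem h hq hw j hc
  let kind' : P.Vs → Kind := fun v => if Sum.inr v = u then Kind.conic else kindOf St v
  let Z' : Set (Fin P.g ⊕ P.Nd) :=
    {r | ∃ w, r = Sum.inr w ∧ Sum.inl w = u}
  set P' := mixPrime kind' Z' P.δ_mem
  have hK : RingHom.ker (g : MvPowerSeries P.Small O →+* A ⧸ 𝔮) ≤ P' := by
    refine (ker_le_mixPrime h h2 hq hdim g hgs hg).trans (mixPrime_le (kindOf St) ∅ P.δ_mem h2
      inferInstance (fun r hr => hr.elim) (fun v hv => ?_) (fun v hv k => ?_)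
      (fun v _ => P.δ_ne v) (fun v _ => C_notMem_mixPrime _ _ _ (P.δ_ne v)) fun v hv => ?_)
    · refine conicRel_mem_mixPrime kind' Z' _ ?_
      simp only [kind']
      split_ifs
      · exact fun e => by cases e
      · exact hv
    · refine nVec_mem_mixPrime kind' Z' _ ?_ k
      simp only [kind']
      split_ifs
      · exact fun e => by cases e
      · exact hv
    · refine rel_mem_mixPrime kind' Z' _ ?_
      have : Sum.inr v ≠ u := fun e => hu (e ▸ kindOf_eq_mult hv)
      simp [kind', this, hv]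
  have : (P'.map (g : MvPowerSeries P.Small O →+* A ⧸ 𝔮)).IsPrime :=
    Ideal.map_isPrime_of_surjective hgs hK
  let 𝔭 := (P'.map (g : MvPowerSeries P.Small O →+* A ⧸ 𝔮)).comap (Ideal.Quotient.mk 𝔮)
  have hmem : ∀ {x : A} {y : MvPowerSeries P.Small O},
      g y = Ideal.Quotient.mk 𝔮 x → (x ∈ 𝔭 ↔ y ∈ P') := fun {x y} e => by
    rw [Ideal.mem_comap, ← e]
    refine ⟨fun hy => ?_, fun hy => Ideal.mem_map_of_mem _ hy⟩
    obtain ⟨z, hz, hzy⟩ := (Ideal.mem_map_iff_of_surjective _ hgs).1 hy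
    have : y - z ∈ P' := hK (RingHom.mem_ker.2 (show g (y - z) = 0 by rw [map_sub, sub_eq_zero]; exact hzy.symm))
    simpa using add_mem this hz
  have hconst : ∀ c : O, g (C c) = Ideal.Quotient.mk 𝔮 (algebraMap O A c) := fun c => by
    rw [show (C c : MvPowerSeries P.Small O) = algebraMap O _ c from rfl, AlgHom.commutes]
    rfl
  refine ⟨𝔭, Ideal.IsPrime.comap _, fun x hx => ?_, fun c hc hmemc =>
    C_notMem_mixPrime _ _ _ hc ((hmem (hconst c)).1 hmemc), ?_, fun w hw => ?_, fun w hw => ?_,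
    fun v hv => ?_⟩
  · rw [Ideal.mem_comap, Ideal.Quotient.eq_zero_iff_mem.2 hx]
    exact zero_mem _
  · rcases u with w | v
    · rw [Shape.flipEl, map_mul]
      refine Ideal.mul_mem_right _ _ ?_
      refine (hmem (y := X (Sum.inr (Sum.inr w))) ?_).2 (inr_mem_mixPrime _ _ _ ⟨w, rfl, rfl⟩)
      rw [hg]
      simp [smallVal, hu]
    · rw [Shape.flipEl, map_mul]
      refine Ideal.mul_mem_left _ _ ?_
      refine (hmem (y := conicRel P.δ v) ?_).2
        (conicRel_mem_mixPrime _ _ _ (by simp [kind']))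
      simp only [conicRel, Shape.conic, map_sub, map_add, map_mul, map_pow, hg, smallVal,
        show (C (P.δ v) : P.Coords) = algebraMap O _ (P.δ v) from rfl, AlgHom.commutes, hconst]
  · subst hw
    refine (hmem (y := X (Sum.inr (Sum.inr w))) ?_).2 (inr_mem_mixPrime _ _ _ ⟨w, rfl, rfl⟩)
    rw [hg]
    simp [smallVal, hu]
  · refine ⟨P.j₀ w, fun hmemw => ?_⟩
    refine inr_notMem_mixPrime kind' Z' P.δ_mem (r := Sum.inr w) ?_
      ((hmem (y := X (Sum.inr (Sum.inr w))) ?_).1 hmemw)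
    · rintro ⟨w', e, e'⟩
      exact hu (e' ▸ (Sum.inr.inj e) ▸ hw)
    · rw [hg]
      simp [smallVal, hw]
  · refine ⟨1, fun hmemv => ?_⟩
    have hne : Sum.inr v ≠ u := fun e => hu (e ▸ hv)
    exact exists_nVec_notMem_mixPrime kind' Z' P.δ_mem h2 (v := v)
      (by simp [kind', kindOf, hne, hv]) (P.δ_ne v)
      ((hmem (y := nVec v 1) (hg (Sum.inl (v, 1, 1)))).1 hmemv)

end Fermat.Agent.RT.Lift59.Chain

end
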