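import Fermat.Agent.RT.Lift59.Chain.PS
import Fermat.Agent.RT.Germ.Multi

/-!
# Parametrised conics

The conics `a² + be = δ²` at a set of places are parametrised by
`(a, b, e) = (δ + xy, x (2δ + xy), -y)`; the kernel of the parametrisation is generated by the
conics. In particular these generate a prime ideal.
-/

set_option autoImplicit false

noncomputable section

namespace Fermat.Agent.RT.Lift59.Chain

open IsLocalRing MvPowerSeries
open Fermat.Agent.RT.Germ Fermat.Agent.RT.Algebra Fermat.Agent.RT.Assembly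
open Fermat.Agent.CFT.Tangent (surjective_evalHom)

variable {O : Type} [CommRing O] [IsDomain O] [IsDiscreteValuationRing O]
  [IsAdicComplete (maximalIdeal O) O] [Finite (ResidueField O)]
  {V ρ : Type} [Finite V] [Finite ρ] [DecidableEq V]

local notation "Λ" => MvPowerSeries (Coord V ρ) O

omit [IsAdicComplete (maximalIdeal O) O] [Finite (ResidueField O)] [DecidableEq V] in
/-- Maps sending the variables into the maximal ideal preserve its powers. -/
theorem map_mem_pow {R : Type} [CommRing R] [IsLocalRing R] [Algebra O R]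
    [IsLocalHom (algebraMap O R)] (f : Λ →ₐ[O] R) (hf : ∀ i, f (X i) ∈ maximalIdeal R) {x : Λ}
    {K : ℕ} (hx : x ∈ maximalIdeal Λ ^ K) : f x ∈ maximalIdeal R ^ K := by
  have hle : maximalIdeal Λ ≤ (maximalIdeal R).comap (f : Λ →+* R) := fun y hy => by
    have h0 : constantCoeff y ∈ maximalIdeal O := (IsLocalRing.mem_maximalIdeal _).2 fun h =>
      (IsLocalRing.mem_maximalIdeal _).1 hy (MvPowerSeries.isUnit_iff_constantCoeff.2 h)
    have := Fintype.ofFinite (Coord V ρ)
    obtain ⟨g, hg⟩ := Ideal.mem_span_range_iff_exists_fun.mp (Patching.sub_C_mem_span_range_X y)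
    have hy' : y = ∑ i, g i * X i + C (constantCoeff y) := by rw [hg]; ring
    rw [Ideal.mem_comap, hy', map_add, map_sum, RingHom.coe_coe,
      show (C (constantCoeff y) : Λ) = algebraMap O Λ (constantCoeff y) from rfl, AlgHom.commutes]
    refine add_mem (Ideal.sum_mem _ fun i _ => ?_)
      ((IsLocalRing.mem_maximalIdeal _).2 fun h => (IsLocalRing.mem_maximalIdeal _).1 h0
        (isUnit_of_map_unit (algebraMap O R) _ h))
    rw [map_mul]
    exact Ideal.mul_mem_left _ _ (hf i)
  have h := Ideal.mem_map_of_mem (f : Λ →+* R) hx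
  rw [Ideal.map_pow] at h
  exact Ideal.pow_right_mono (Ideal.map_le_iff_le_comap.2 hle) K h

/-- The endomorphism with given values at the variables. -/
def subst' (s : Coord V ρ → Λ) (hs : ∀ i, s i ∈ maximalIdeal Λ) : Λ →ₐ[O] Λ :=
  (exists_substHom s hs).choose

omit [DecidableEq V] in
@[simp]
theorem subst'_X (s : Coord V ρ → Λ) (hs : ∀ i, s i ∈ maximalIdeal Λ) (i : Coord V ρ) :
    subst' s hs (X i) = s i :=
  (exists_substHom s hs).choose_spec i

variable (δ : V → O)

/-- The values of the parametrisation at the places of `Q`. -/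
def curveVal (Q : Finset V) : Coord V ρ → Λ
  | Sum.inl (v, i, j) => if v ∈ Q ∧ i = 0 then
      ![C (δ v) + X (Sum.inl (v, 0, 1)) * X (Sum.inl (v, 0, 2)),
        X (Sum.inl (v, 0, 1)) *
          (2 * C (δ v) + X (Sum.inl (v, 0, 1)) * X (Sum.inl (v, 0, 2))),
        -X (Sum.inl (v, 0, 2))] j
    else X (Sum.inl (v, i, j))
  | Sum.inr r => X (Sum.inr r)

/-- The values of the map killing `a` at `v`. -/
def killVal (v : V) : Coord V ρ → Λ
  | Sum.inl (u, i, j) => if u = v ∧ i = 0 ∧ j = 0 then 0 else X (Sum.inl (u, i, j))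
  | Sum.inr r => X (Sum.inr r)

variable {δ}

omit [IsAdicComplete (maximalIdeal O) O] [Finite (ResidueField O)] [Finite V] [Finite ρ] in
theorem curveVal_mem (hδ : ∀ v, δ v ∈ maximalIdeal O) (Q : Finset V) (i : Coord V ρ) :
    curveVal δ Q i ∈ maximalIdeal Λ := by
  have hX := fun c : Coord V ρ => X_mem_maximalIdeal (O := O) c
  rcases i with ⟨v, i, j⟩ | r
  · simp only [curveVal]
    split_ifs
    · fin_cases j
      · exact add_mem (C_mem_maximalIdeal (hδ v)) (Ideal.mul_mem_right _ _ (hX _))
      · exact Ideal.mul_mem_right _ _ (hX _)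
      · exact neg_mem (hX _)
    · exact hX _
  · exact hX _

omit [IsAdicComplete (maximalIdeal O) O] [Finite (ResidueField O)] [Finite V] [Finite ρ] in
theorem killVal_mem (v : V) (i : Coord V ρ) : (killVal v i : Λ) ∈ maximalIdeal Λ := by
  rcases i with ⟨u, i, j⟩ | r
  · simp only [killVal]
    split_ifs
    · exact zero_mem _
    · exact X_mem_maximalIdeal _
  · exact X_mem_maximalIdeal _

variable (hδ : ∀ v, δ v ∈ maximalIdeal O)

/-- The parametrisation of the conics at `Q`. -/
def curve (Q : Finset V) : Λ →ₐ[O] Λ := subst' (curveVal δ Q) (curveVal_mem hδ Q)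

/-- Putting `a = 0` at `v`. -/
def kill (v : V) : Λ →ₐ[O] Λ := subst' (killVal v) (killVal_mem v)

theorem curve_X (Q : Finset V) (i : Coord V ρ) : curve hδ Q (X i) = curveVal δ Q i := subst'_X _ _ i

theorem kill_X (v : V) (i : Coord V ρ) : (kill v (X i) : Λ) = killVal v i := subst'_X _ _ i

theorem curve_mem (Q : Finset V) (i : Coord V ρ) : curve hδ Q (X i) ∈ maximalIdeal Λ :=
  curve_X hδ Q i ▸ curveVal_mem hδ Q i

theorem kill_mem (v : V) (i : Coord V ρ) : (kill v (X i) : Λ) ∈ maximalIdeal Λ :=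
  kill_X (O := O) v i ▸ killVal_mem v i

theorem curve_empty (f : Λ) : curve hδ ∅ f = f := by
  have : curve (ρ := ρ) hδ ∅ = AlgHom.id O Λ := algHom_ext_X (fun i => by
    rw [curve_X]
    rcases i with ⟨v, i, j⟩ | r <;> simp [curveVal]) (curve_mem hδ ∅)
  rw [this]
  rfl

theorem curve_C (Q : Finset V) (c : O) : curve (ρ := ρ) hδ Q (C c) = C c :=
  (curve hδ Q).commutes c

theorem curve_insert {v : V} {Q : Finset V} (hv : v ∉ Q) (f : Λ) :
    curve hδ (insert v Q) f = curve hδ {v} (curve hδ Q f) := by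
  have : curve (ρ := ρ) hδ (insert v Q) = (curve hδ {v}).comp (curve hδ Q) :=
    algHom_ext_X (fun i => by
      rw [AlgHom.comp_apply, curve_X, curve_X]
      rcases i with ⟨u, i, j⟩ | r
      · simp only [curveVal, Finset.mem_insert]
        by_cases hu : u ∈ Q ∧ i = 0
        · obtain ⟨hu, rfl⟩ := hu
          have huv : u ≠ v := fun h => hv (h ▸ hu)
          have e1 : ∀ j : Fin 3, curve (ρ := ρ) hδ {v} (X (Sum.inl (u, 0, j))) =
              X (Sum.inl (u, 0, j)) := fun j => by rw [curve_X]; simp [curveVal, huv]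
          have e2 : curve (ρ := ρ) hδ {v} (C (δ u)) = C (δ u) := curve_C hδ _ _
          fin_cases j <;> simp [hu, e1, e2, map_ofNat]
        · rw [if_neg hu, curve_X]
          simp only [curveVal, Finset.mem_singleton]
          by_cases huv : u = v
          · subst huv; simp
          · rw [if_neg (by tauto), if_neg (by tauto)]
      · simp [curveVal, curve_X]) (curve_mem hδ _)
  rw [this]
  rfl

theorem curve_conicRel_of_mem {v : V} {Q : Finset V} (hv : v ∈ Q) :
    curve hδ Q (conicRel (ρ := ρ) δ v) = 0 := by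
  simp only [conicRel, map_sub, map_add, map_pow, map_mul, curve_X, curveVal, hv, true_and,
    if_true, curve_C]
  simp
  ring

theorem curve_conicRel_of_notMem {v : V} {Q : Finset V} (hv : v ∉ Q) :
    curve hδ Q (conicRel (ρ := ρ) δ v) = conicRel δ v := by
  simp [conicRel, curve_X, curveVal, hv, curve_C]

theorem kill_curve {v : V} {Q : Finset V} (hv : v ∉ Q) (f : Λ) :
    kill v (curve hδ Q f) = curve hδ Q (kill v f) := by
  have : (kill (O := O) (ρ := ρ) v).comp (curve hδ Q) = (curve hδ Q).comp (kill v) :=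
    algHom_ext_X (fun i => by
      rw [AlgHom.comp_apply, AlgHom.comp_apply, curve_X, kill_X]
      rcases i with ⟨u, i, j⟩ | r
      · simp only [curveVal, killVal]
        by_cases hu : u ∈ Q ∧ i = 0
        · obtain ⟨hu, rfl⟩ := hu
          have huv : u ≠ v := fun h => hv (h ▸ hu)
          have e1 : ∀ j : Fin 3, (kill v (X (Sum.inl (u, 0, j))) : Λ) =
              X (Sum.inl (u, 0, j)) := fun j => by rw [kill_X]; simp [killVal, huv]
          have e2 : (kill v (C (δ u)) : Λ) = C (δ u) := (kill v).commutes _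
          rw [if_neg (by tauto : ¬ (u = v ∧ (0 : Fin 2) = 0 ∧ j = 0)), curve_X]
          fin_cases j <;> simp [hu, e1, e2, curveVal, map_ofNat]
        · rw [if_neg hu, kill_X]
          simp only [killVal]
          split_ifs with h
          · simp
          · rw [curve_X]
            simp only [curveVal, if_neg hu]
      · simp [curveVal, killVal, curve_X, kill_X]) fun i => by
        rw [AlgHom.comp_apply, curve_X]
        have h := map_mem_pow (kill (O := O) (ρ := ρ) v) (kill_mem v)
          (by rw [pow_one]; exact curveVal_mem hδ Q i : curveVal δ Q i ∈ maximalIdeal Λ ^ 1)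
        rwa [pow_one] at h
  exact DFunLike.congr_fun this f

omit hδ in
/-- Every series is linear in `a` modulo the conic at `v`. -/
theorem exists_split (v : V) (f : Λ) : ∃ A₀ A₁ g : Λ, kill v A₀ = A₀ ∧ kill v A₁ = A₁ ∧
    f = A₀ + X (Sum.inl (v, 0, 0)) * A₁ + g * conicRel δ v := by
  set a : Λ := X (Sum.inl (v, 0, 0))
  set c : Λ := C (δ v) ^ 2 - X (Sum.inl (v, 0, 1)) * X (Sum.inl (v, 0, 2))
  have hc : kill v c = c := by
    simp [c, kill_X, killVal, show (kill v (C (δ v)) : Λ) = C (δ v) from (kill v).commutes _]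
  have hrel : conicRel δ v = a ^ 2 - c := by simp only [conicRel, a, c]; ring
  have hpol : ∀ t : MvPolynomial (Coord V ρ) O, ∃ A₀ A₁ g : Λ, kill v A₀ = A₀ ∧ kill v A₁ = A₁ ∧
      (t : Λ) = A₀ + a * A₁ + g * conicRel δ v := by
    intro t
    induction t using MvPolynomial.induction_on with
    | C r => exact ⟨C r, 0, 0, (kill v).commutes r, map_zero _, by simp⟩
    | add s t hs ht =>
      obtain ⟨s₀, s₁, g, h0, h1, es⟩ := hs
      obtain ⟨t₀, t₁, g', k0, k1, et⟩ := ht
      exact ⟨s₀ + t₀, s₁ + t₁, g + g', by rw [map_add, h0, k0], by rw [map_add, h1, k1],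
        by rw [MvPolynomial.coe_add, es, et]; ring⟩
    | mul_X t i ht =>
      obtain ⟨t₀, t₁, g, h0, h1, et⟩ := ht
      by_cases hi : i = Sum.inl (v, 0, 0)
      · subst hi
        refine ⟨c * t₁, t₀, a * g + t₁, by rw [map_mul, hc, h1], h0, ?_⟩
        rw [MvPolynomial.coe_mul, MvPolynomial.coe_X, et, hrel]
        show _ * a = _
        ring
      · have hXi : (kill v (X i) : Λ) = X i := by
          rw [kill_X]
          rcases i with ⟨u, i', j⟩ | r
          · simp only [killVal]
            exact if_neg fun h => hi (by simp [h.1, h.2.1, h.2.2])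
          · rfl
        refine ⟨t₀ * X i, t₁ * X i, g * X i, by rw [map_mul, h0, hXi], by rw [map_mul, h1, hXi], ?_⟩
        rw [MvPolynomial.coe_mul, MvPolynomial.coe_X, et]
        ring
  choose P hP using fun K => exists_poly f K
  choose B₀ B₁ G hB₀ hB₁ hPB using fun K => hpol (P K)
  let U : Ultrafilter ℕ := Filter.hyperfilter ℕ
  obtain ⟨A₀, hA₀⟩ := exists_ultralimit U B₀
  obtain ⟨A₁, hA₁⟩ := exists_ultralimit U B₁
  obtain ⟨g, hg⟩ := exists_ultralimit U G
  have hfix : ∀ (B : ℕ → Λ) (A : Λ), (∀ n, kill v (B n) = B n) →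
      (∀ K, ∀ᶠ n in (U : Filter ℕ), B n - A ∈ maximalIdeal Λ ^ K) → kill v A = A :=
    fun B A hB hA => Algebra.eq_of_eventually_sub_mem U fun K => by
      filter_upwards [hA K] with n hn
      have h := map_mem_pow (kill v) (kill_mem v) hn
      rw [map_sub, hB] at h
      simpa using sub_mem hn h
  refine ⟨A₀, A₁, g, hfix _ _ hB₀ hA₀, hfix _ _ hB₁ hA₁,
    Algebra.eq_of_eventually_sub_mem U fun K => ?_⟩
  filter_upwards [hA₀ K, hA₁ K, hg K, Filter.hyperfilter_le_cofinite (by
    rw [Nat.cofinite_eq_atTop]; exact Filter.eventually_ge_atTop K)] with n h0 h1 h2 hn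
  have h3 : f - (P n : Λ) ∈ maximalIdeal Λ ^ K :=
    Ideal.pow_le_pow_right hn (Ideal.pow_right_mono span_X_le_maximalIdeal n (hP n))
  rw [hPB] at h3
  have := add_mem h3 (add_mem (add_mem h0 (Ideal.mul_mem_left _ a h1))
    (Ideal.mul_mem_right (conicRel δ v) _ h2))
  convert this using 1
  ring

variable (h2 : IsUnit (2 : O))
include h2

/-- The parametrisation is injective on the series free of `a`. -/
theorem eq_zero_of_curve_singleton {v : V} (hδv : δ v ≠ 0) {A : Λ} (hA : kill v A = A)
    (h0 : curve hδ {v} A = 0) : A = 0 := by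
  classical
  have hX := fun c : Coord V ρ => X_mem_maximalIdeal (O := O) c
  let ψval : Coord V ρ → Λ := fun i => if i = Sum.inl (v, 0, 1) then
      X (Sum.inl (v, 0, 1)) * (2 + C (δ v) * (X (Sum.inl (v, 0, 1)) * X (Sum.inl (v, 0, 2))))
    else if i = Sum.inl (v, 0, 2) then -X (Sum.inl (v, 0, 2)) else X i
  have hψval : ∀ i, ψval i ∈ maximalIdeal Λ := fun i => by
    simp only [ψval]
    split_ifs
    · exact Ideal.mul_mem_right _ _ (hX _)
    · exact neg_mem (hX _)
    · exact hX _
  let ψ := subst' ψval hψval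
  have hψ : ∀ i, ψ (X i) = ψval i := subst'_X _ _
  have hunit : IsUnit (2 + C (δ v) * (X (Sum.inl (v, 0, 1)) * X (Sum.inl (v, 0, 2))) : Λ) := by
    refine MvPowerSeries.isUnit_iff_constantCoeff.2 ?_
    simpa [map_ofNat] using h2
  have hres : Function.Surjective (residue Λ ∘ algebraMap O Λ) := fun z => by
    obtain ⟨g, rfl⟩ := IsLocalRing.residue_surjective z
    refine ⟨constantCoeff g, ?_⟩
    rw [Function.comp_apply, ← sub_eq_zero, ← map_sub, residue_eq_zero_iff,
      IsLocalRing.mem_maximalIdeal]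
    refine fun h => ?_
    have h' := MvPowerSeries.isUnit_iff_constantCoeff.mp h
    simp [show algebraMap O Λ (constantCoeff g) = C (constantCoeff g) from rfl] at h'
  have hsurj : Function.Surjective ψ := by
    refine surjective_evalHom hres ψ hψ hψval fun y hy => ?_
    have h0 : constantCoeff y ∈ maximalIdeal O := (IsLocalRing.mem_maximalIdeal _).2 fun h =>
      (IsLocalRing.mem_maximalIdeal _).1 hy (MvPowerSeries.isUnit_iff_constantCoeff.2 h)
    rw [show y = (y - C (constantCoeff y)) + C (constantCoeff y) by ring]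
    refine add_mem (Submodule.mem_sup_left ?_)
      (Submodule.mem_sup_right (Ideal.mem_map_of_mem (algebraMap O Λ) h0))
    have := Fintype.ofFinite (Coord V ρ)
    refine (Ideal.span_le.2 ?_ : Ideal.span (Set.range X) ≤ _) (Patching.sub_C_mem_span_range_X y)
    rintro _ ⟨i, rfl⟩
    have hmem : ψval i ∈ Ideal.span (Set.range ψval) := Ideal.subset_span ⟨i, rfl⟩
    by_cases hb : i = Sum.inl (v, 0, 1)
    · subst hb
      obtain ⟨u, hu⟩ := hunit
      have e : ψval (Sum.inl (v, 0, 1)) = X (Sum.inl (v, 0, 1)) * (u : Λ) := by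
        rw [hu]; simp [ψval]
      rw [e] at hmem
      have := Ideal.mul_mem_right (↑u⁻¹ : Λ) _ hmem
      rwa [mul_assoc, Units.mul_inv, mul_one] at this
    · by_cases he : i = Sum.inl (v, 0, 2)
      · subst he
        simp only [ψval, hb, if_false, if_true] at hmem
        simpa using hmem
      · simpa [ψval, hb, he] using hmem
  have hψinj := injective_of_surjective_endo (ψ : Λ →+* Λ) hsurj
  let s : Coord V ρ → O := fun i =>
    if i = Sum.inl (v, 0, 1) ∨ i = Sum.inl (v, 0, 2) then δ v else 1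
  let r : Coord V ρ → O := fun i =>
    if i = Sum.inl (v, 0, 1) then δ v ^ 2 else if i = Sum.inl (v, 0, 2) then δ v else 1
  have hrX : ∀ (t : Coord V ρ → O) (i : Coord V ρ),
      rescaleAlgHom t (X i : Λ) = C (t i) * X i := fun t i => by
    rw [rescaleAlgHom, substAlgHom_X]
    simp [smul_eq_C_mul]
  have key : ((rescaleAlgHom s).comp (curve hδ {v})).comp (kill v) =
      (ψ.comp (rescaleAlgHom r)).comp (kill v) := by
    have hC : ∀ (t : Coord V ρ → O) (c : O), rescaleAlgHom t (C c : Λ) = C c := fun t c =>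
      (rescaleAlgHom t).commutes c
    refine algHom_ext_X (fun i => ?_) fun i => ?_
    · simp only [AlgHom.comp_apply, kill_X]
      rcases i with ⟨u, i, j⟩ | q
      · simp only [killVal]
        split_ifs with hk
        · simp
        · rw [curve_X, hrX r, map_mul, hψ, show ψ (C _) = C _ from ψ.commutes _]
          by_cases hu : u = v ∧ i = 0
          · obtain ⟨rfl, rfl⟩ := hu
            fin_cases j
            · simp at hk
            · simp [curveVal, hrX, hC, ψval, s, r, map_ofNat]
              ring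
            · simp [curveVal, hrX, ψval, s, r]
          · simp only [curveVal, Finset.mem_singleton, if_neg hu, hrX]
            have n1 : (Sum.inl (u, i, j) : Coord V ρ) ≠ Sum.inl (v, 0, 1) := fun h => hu (by
              simp only [Sum.inl.injEq, Prod.mk.injEq] at h; exact ⟨h.1, h.2.1⟩)
            have n2 : (Sum.inl (u, i, j) : Coord V ρ) ≠ Sum.inl (v, 0, 2) := fun h => hu (by
              simp only [Sum.inl.injEq, Prod.mk.injEq] at h; exact ⟨h.1, h.2.1⟩)
            simp [ψval, s, r, n1, n2]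
      · simp [killVal, curve_X, curveVal, hrX, hψ, ψval, s, r]
    · simp only [AlgHom.comp_apply, kill_X]
      have h1 := map_mem_pow ((rescaleAlgHom s).comp (curve hδ {v})) (fun i => by
        have := map_mem_pow (rescaleAlgHom s) (fun c => by
          rw [hrX]; exact Ideal.mul_mem_left _ _ (hX c))
          (by rw [pow_one]; exact curve_mem hδ {v} i : curve hδ {v} (X i) ∈ maximalIdeal Λ ^ 1)
        rwa [pow_one] at this)
        (by rw [pow_one]; exact killVal_mem v i : killVal v i ∈ maximalIdeal Λ ^ 1)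
      rwa [pow_one] at h1
  have h := DFunLike.congr_fun key A
  simp only [AlgHom.comp_apply, hA, h0, map_zero] at h
  have h' : rescaleAlgHom r A = 0 := hψinj (by rw [map_zero]; exact h.symm)
  refine MvPowerSeries.ext fun d => ?_
  have hd := congrArg (coeff d) h'
  rw [rescaleAlgHom_apply, coeff_rescale, map_zero] at hd
  refine (mul_eq_zero.1 hd).resolve_left ?_
  refine Finset.prod_ne_zero_iff.2 fun i _ => pow_ne_zero _ ?_
  simp only [r]
  split_ifs
  · exact pow_ne_zero _ hδv
  · exact hδv
  · exact one_ne_zero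

omit [IsAdicComplete (maximalIdeal O) O] [Finite (ResidueField O)] [Finite V] [Finite ρ] h2 in
/-- `A₀² = (δ² - be) A₁²` forces both to be small, by the order in `b`. -/
theorem sq_eq_mul_sq {v : V} (hδv : δ v ∈ maximalIdeal O) {A₀ A₁ : Λ}
    (h : A₀ ^ 2 = (C (δ v) ^ 2 - X (Sum.inl (v, 0, 1)) * X (Sum.inl (v, 0, 2))) * A₁ ^ 2) :
    MvPowerSeries.map (residue O) A₀ = 0 ∧ MvPowerSeries.map (residue O) A₁ = 0 := by
  classical
  set F := ResidueField O
  set B₀ := MvPowerSeries.map (residue O) A₀
  set B₁ := MvPowerSeries.map (residue O) A₁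
  set b : MvPowerSeries (Coord V ρ) F := X (Sum.inl (v, 0, 1))
  set e : MvPowerSeries (Coord V ρ) F := X (Sum.inl (v, 0, 2))
  have hB : B₀ ^ 2 = -(b * e * B₁ ^ 2) := by
    have h1 := congrArg (MvPowerSeries.map (residue O)) h
    simp only [map_pow, map_mul, map_sub, map_C, map_X, (residue_eq_zero_iff _).2 hδv, map_zero,
      zero_pow two_ne_zero, zero_sub, neg_mul] at h1
    exact h1
  let w : Coord V ρ → ℕ := fun i => if i = Sum.inl (v, 0, 1) then 1 else 0
  have hb : b.weightedOrder w = (1 : ℕ) := by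
    rw [show b = monomial (Finsupp.single (Sum.inl (v, 0, 1)) 1) 1 from rfl,
      weightedOrder_monomial_of_ne_zero w one_ne_zero, Finsupp.weight_single]
    simp [w]
  have he : e.weightedOrder w = (0 : ℕ) := by
    rw [show e = monomial (Finsupp.single (Sum.inl (v, 0, 2)) 1) 1 from rfl,
      weightedOrder_monomial_of_ne_zero w one_ne_zero, Finsupp.weight_single]
    simp [w]
  have hord := congrArg (fun f => MvPowerSeries.weightedOrder w f) hB
  simp only [pow_two, weightedOrder_neg, weightedOrder_mul, hb, he] at hord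
  rcases eq_or_ne B₀ 0 with h0 | h0
  · refine ⟨h0, ?_⟩
    have hz : b * e * B₁ ^ 2 = 0 := by simpa [h0] using hB.symm
    have hb0 : b ≠ 0 := fun h => by rw [h, weightedOrder_zero] at hb; simp at hb
    have he0 : e ≠ 0 := fun h => by rw [h, weightedOrder_zero] at he; simp at he
    simpa [hb0, he0] using hz
  rcases eq_or_ne B₁ 0 with h1 | h1
  · exact ⟨by simpa [h1] using hB, h1⟩
  obtain ⟨x, hx⟩ := ENat.ne_top_iff_exists.1
    (fun h => h0 ((weightedOrder_eq_top_iff w).1 h) : B₀.weightedOrder w ≠ ⊤)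
  obtain ⟨y, hy⟩ := ENat.ne_top_iff_exists.1
    (fun h => h1 ((weightedOrder_eq_top_iff w).1 h) : B₁.weightedOrder w ≠ ⊤)
  rw [← hx, ← hy] at hord
  norm_cast at hord
  omega

/-- The series linear in `a` map injectively. -/
theorem linear_eq_zero {v : V} (hδv : δ v ≠ 0) {A₀ A₁ : Λ} (hA₀ : kill v A₀ = A₀)
    (hA₁ : kill v A₁ = A₁) (h : curve hδ {v} (A₀ + X (Sum.inl (v, 0, 0)) * A₁) = 0) :
    A₀ = 0 ∧ A₁ = 0 := by
  set c : Λ := C (δ v) ^ 2 - X (Sum.inl (v, 0, 1)) * X (Sum.inl (v, 0, 2))
  have hc : kill v c = c := by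
    simp [c, kill_X, killVal, show (kill v (C (δ v)) : Λ) = C (δ v) from (kill v).commutes _]
  have hsq : A₀ ^ 2 = c * A₁ ^ 2 := by
    refine sub_eq_zero.1 (eq_zero_of_curve_singleton hδ h2 hδv (A := A₀ ^ 2 - c * A₁ ^ 2)
      (by rw [map_sub, map_pow, map_mul, map_pow, hA₀, hA₁, hc]) ?_)
    have hrel : curve hδ {v} (conicRel (ρ := ρ) δ v) = 0 :=
      curve_conicRel_of_mem hδ (Finset.mem_singleton_self v)
    have e : A₀ ^ 2 - c * A₁ ^ 2 = (A₀ + X (Sum.inl (v, 0, 0)) * A₁) *
        (A₀ - X (Sum.inl (v, 0, 0)) * A₁) + conicRel δ v * A₁ ^ 2 := by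
      simp only [c, conicRel]; ring
    rw [e, map_add, map_mul, map_mul, h, hrel, zero_mul, zero_mul, add_zero]
  obtain ⟨π, hπ⟩ := IsDiscreteValuationRing.exists_irreducible O
  have key : ∀ (K : ℕ) (A₀ A₁ : Λ), A₀ ^ 2 = c * A₁ ^ 2 →
      A₀ ∈ maximalIdeal Λ ^ K ∧ A₁ ∈ maximalIdeal Λ ^ K := by
    intro K
    induction K with
    | zero => intro A₀ A₁ _; simp
    | succ K ih =>
      intro A₀ A₁ hA
      obtain ⟨h0, h1⟩ := sq_eq_mul_sq (hδ v) hA
      have div : ∀ A : Λ, MvPowerSeries.map (residue O) A = 0 → ∃ A', A = C π * A' := fun A hA => by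
        have hd : ∀ d, ∃ x, coeff d A = π * x := fun d => by
          have := congrArg (coeff d) hA
          rw [coeff_map, map_zero, residue_eq_zero_iff, hπ.maximalIdeal_eq,
            Ideal.mem_span_singleton] at this
          exact this
        choose x hx using hd
        obtain ⟨A', hA'⟩ : ∃ A' : Λ, ∀ d, coeff d A' = x d := ⟨fun d => x d, fun d => rfl⟩
        exact ⟨A', MvPowerSeries.ext fun d => by rw [coeff_C_mul, hA', hx]⟩
      obtain ⟨A₀', rfl⟩ := div A₀ h0
      obtain ⟨A₁', rfl⟩ := div A₁ h1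
      have hπ0 : (C π : Λ) ≠ 0 := fun h => hπ.ne_zero (by
        have := congrArg constantCoeff h
        simpa using this)
      obtain ⟨k0, k1⟩ := ih A₀' A₁' (mul_left_cancel₀ (pow_ne_zero 2 hπ0) (by
        linear_combination hA))
      have hπm : (C π : Λ) ∈ maximalIdeal Λ := C_mem_maximalIdeal
        ((IsLocalRing.mem_maximalIdeal _).2 hπ.not_isUnit)
      rw [pow_succ']
      exact ⟨Ideal.mul_mem_mul hπm k0, Ideal.mul_mem_mul hπm k1⟩
  have hH : IsHausdorff (maximalIdeal Λ) Λ := inferInstance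
  refine ⟨hH.haus' _ fun K => ?_, hH.haus' _ fun K => ?_⟩ <;>
    rw [SModEq.zero, smul_eq_mul, Ideal.mul_top]
  · exact (key K A₀ A₁ hsq).1
  · exact (key K A₀ A₁ hsq).2

/-- **The kernel of the parametrisation** is generated by the conics. -/
theorem mem_span_conicRel_of_curve_eq_zero {Q : Finset V} (hδ0 : ∀ v ∈ Q, δ v ≠ 0) {f : Λ}
    (hf : curve hδ Q f = 0) : f ∈ Ideal.span (conicRel (ρ := ρ) δ '' Q) := by
  induction Q using Finset.induction_on generalizing f with
  | empty => rw [curve_empty] at hf; rw [hf]; exact zero_mem _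
  | insert v Q hv ih =>
    obtain ⟨A₀, A₁, g, h0, h1, rfl⟩ := exists_split (δ := δ) v f
    rw [curve_insert hδ hv, map_add (curve hδ Q), map_mul (curve hδ Q) g,
      curve_conicRel_of_notMem hδ hv, map_add (curve hδ {v}), map_mul (curve hδ {v}) _ (conicRel δ v),
      curve_conicRel_of_mem hδ (Finset.mem_singleton_self v), mul_zero, add_zero,
      map_add (curve hδ Q), map_mul (curve hδ Q), curve_X] at hf
    simp only [curveVal, hv, false_and, if_false] at hf
    obtain ⟨e0, e1⟩ := linear_eq_zero hδ h2 (hδ0 v (Finset.mem_insert_self v Q))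
      (by rw [kill_curve hδ hv, h0]) (by rw [kill_curve hδ hv, h1]) hf
    have hsub : Ideal.span (conicRel (ρ := ρ) δ '' Q) ≤
        Ideal.span (conicRel δ '' ↑(insert v Q)) :=
      Ideal.span_mono (Set.image_mono (by simp))
    refine add_mem (add_mem (hsub (ih (fun u hu => hδ0 u (Finset.mem_insert_of_mem hu)) e0))
      (Ideal.mul_mem_left _ _ (hsub (ih (fun u hu => hδ0 u (Finset.mem_insert_of_mem hu)) e1))))
      (Ideal.mul_mem_left _ _ (Ideal.subset_span ⟨v, by simp, rfl⟩))

end Fermat.Agent.RT.Lift59.Chain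

end
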