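import Fermat.Agent.RT.Lift.Flip
import Fermat.Agent.RT.Assembly.Quotient
import Fermat.Agent.RT.Germ.Multi

/-!
# The levels of the lifting argument: what the chain of flips consumes

A shape fixes the places where the component is flipped: `Nd` places of node type, with one
coordinate `φ` vanishing on the component of multiplicative type and four entries `N` vanishing on
the unramified one, and `Vs` scalar places, with the coordinates `(a, b, e)` of the trace zero part
of Frobenius and `(s, t, r)` of the nilpotent part of inertia. Level `j` of a sequence carries the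
first `j` places of the order.
-/

set_option autoImplicit false

noncomputable section

namespace Fermat.Agent.RT.Lift59.Chain

open IsLocalRing MvPowerSeries
open Fermat.Agent.RT.Germ Fermat.Agent.RT.Assembly

/-- The places of the flips, in order. -/
structure Shape (O : Type) [CommRing O] [IsLocalRing O] : Type 1 where
  /-- The number of auxiliary primes. -/
  R : ℕ
  /-- The number of remaining coordinates. -/
  g : ℕ
  /-- The number of flips. -/
  t : ℕ
  Nd : Type
  Vs : Type
  [finNd : Finite Nd]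
  [finVs : Finite Vs]
  ord : Fin t ≃ Nd ⊕ Vs
  /-- The difference of the two multiplicative values of `φ`. -/
  κ : Nd → O
  /-- The entry of `N` generating the others on the multiplicative component. -/
  j₀ : Nd → Fin 2 × Fin 2
  δ : Vs → O
  κ_ne : ∀ w, κ w ≠ 0
  δ_ne : ∀ v, δ v ≠ 0
  δ_mem : ∀ v, δ v ∈ maximalIdeal O
  count : g + Nat.card Nd + 3 * Nat.card Vs = R

attribute [instance] Shape.finNd Shape.finVs

namespace Shape

variable {O : Type} [CommRing O] [IsLocalRing O] (P : Shape O)

/-- The coordinates other than those of scalar places. -/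
abbrev Free : Type := Fin P.g ⊕ P.Nd × Option (Fin 2 × Fin 2)

/-- The coordinates. -/
abbrev Crd : Type := Germ.Coord P.Vs P.Free

/-- The coordinate ring. -/
abbrev Coords : Type := MvPowerSeries P.Crd O

/-- `φ` at a node. -/
def phi (w : P.Nd) : P.Coords := X (Sum.inr (Sum.inr (w, none)))

/-- The entries of `N` at a node. -/
def ent (w : P.Nd) (j : Fin 2 × Fin 2) : P.Coords := X (Sum.inr (Sum.inr (w, some j)))

/-- The trace zero part of Frobenius at a scalar place. -/
def frobMat (v : P.Vs) : Matrix (Fin 2) (Fin 2) P.Coords :=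
  !![X (Sum.inl (v, 0, 0)), X (Sum.inl (v, 0, 1));
    X (Sum.inl (v, 0, 2)), -X (Sum.inl (v, 0, 0))]

/-- The nilpotent part of inertia at a scalar place. -/
def nilMat (v : P.Vs) : Matrix (Fin 2) (Fin 2) P.Coords :=
  !![X (Sum.inl (v, 1, 0)), X (Sum.inl (v, 1, 1));
    X (Sum.inl (v, 1, 2)), -X (Sum.inl (v, 1, 0))]

/-- `a ^ 2 + b e - δ ^ 2`. -/
def conic (v : P.Vs) : P.Coords :=
  X (Sum.inl (v, 0, 0)) ^ 2 + X (Sum.inl (v, 0, 1)) * X (Sum.inl (v, 0, 2)) - C (P.δ v) ^ 2

/-- `N (F₀ + δ)` at a scalar place. -/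
def relR (v : P.Vs) : Matrix (Fin 2) (Fin 2) P.Coords :=
  P.nilMat v * (P.frobMat v + (C (P.δ v) : P.Coords) • 1)

/-- `(F₀ - δ) N` at a scalar place. -/
def relL (v : P.Vs) : Matrix (Fin 2) (Fin 2) P.Coords :=
  (P.frobMat v - (C (P.δ v) : P.Coords) • 1) * P.nilMat v

/-- The coordinates which vanish when inertia is trivial at the place. -/
def inertiaCrd : P.Nd ⊕ P.Vs → Set P.Coords
  | Sum.inl w => Set.range (P.ent w)
  | Sum.inr v => Set.range fun k : Fin 3 => X (Sum.inl (v, 1, k))

/-- `T ^ 2 - c ^ 2` in coordinates at a place. -/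
def flipEl : P.Nd ⊕ P.Vs → P.Coords
  | Sum.inl w => P.phi w * (P.phi w + C (P.κ w))
  | Sum.inr v => 4 * P.conic v

end Shape

variable {O : Type} [CommRing O] [IsLocalRing O] (P : Shape O)

local notation "S" => MvPowerSeries (Fin P.R) O

/-- The levels with a fixed set of auxiliary primes, of depth `n`. -/
structure Level (p n : ℕ) : Type 1 where
  A : Type
  [crA : CommRing A]
  [locA : IsLocalRing A]
  [algA : Algebra O A]
  γ : P.Coords →ₐ[O] A
  γ_surj : Function.Surjective γ
  /-- The point of the curve. -/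
  e : A →ₐ[O] O
  e_phi : ∀ w, e (γ (P.phi w)) = 0
  e_conic : ∀ v, e (γ (P.conic v)) = 0
  node_mul : ∀ w j, γ (P.ent w j * (P.phi w * (P.phi w + C (P.κ w)))) = 0
  node_line : ∀ w j, ∃ c : A,
    (γ (P.ent w j) - c * γ (P.ent w (P.j₀ w))) * γ (P.phi w + C (P.κ w)) = 0
  scalar_mul : ∀ v (k : Fin 3), γ (X (Sum.inl (v, 1, k)) * P.conic v) = 0
  scalar_right : ∀ v i j, γ (P.relR v i j) = 0
  scalar_left : ∀ v i j, γ (P.relL v i j) = 0
  /-- The module of each level. -/
  M : Fin (P.t + 1) → Type
  [acgM : ∀ j, AddCommGroup (M j)]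
  [modA : ∀ j, Module A (M j)]
  [modS : ∀ j, Module S (M j)]
  [commM : ∀ j, SMulCommClass A S (M j)]
  compat : ∀ j (c : O) (x : M j), algebraMap O A c • x = (C c : S) • x
  rank : Fin (P.t + 1) → ℕ
  b : ∀ j, Fin (rank j) → M j
  span : ∀ j (x : M j), ∃ c : Fin (rank j) → S, x = ∑ i, c i • b j i
  kill : ∀ j, ∀ f ∈ levelIdeal (ι := Fin P.R) O p n, ∀ x : M j, f • x = 0
  indep : ∀ j (c : Fin (rank j) → S), ∑ i, c i • b j i = 0 →
    ∀ i, c i ∈ levelIdeal (ι := Fin P.R) O p n
  /-- The traces of the inertia generators at the auxiliary primes. -/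
  tw : Fin P.R → A
  tw_act : ∀ i j (x : M j),
    ((1 : S) + X i) • tw i • x = (((1 : S) + X i) ^ 2 + 1) • x
  e_tw : ∀ i, e (tw i) = 2
  /-- Inertia is trivial at the places not yet in the level, except possibly at a node first in
  the order with `κ` a unit, where the dichotomy follows from `node_mul`. -/
  unr : ∀ (i : Fin P.t) (j : Fin (P.t + 1)), (j : ℕ) ≤ i →
    (∀ w, P.ord i = Sum.inl w → IsUnit (P.κ w) → (i : ℕ) ≠ 0) →
    ∀ f ∈ P.inertiaCrd (P.ord i), ∀ x : M j, γ f • x = 0
  /-- The degeneracy map into the next level. -/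
  deg : ∀ i : Fin P.t, M i.castSucc × M i.castSucc →ₗ[A] M i.succ
  deg_smul : ∀ i (c : S) u, deg i (c • u) = c • deg i u
  /-- Ihara's lemma. -/
  deg_inj : ∀ i u, deg i u ∈ maximalIdeal S • (⊤ : Submodule S (M i.succ)) →
    u ∈ maximalIdeal S • (⊤ : Submodule S (M i.castSucc × M i.castSucc))
  /-- At each flip either the map back with its composite and Ihara's lemma, or, at a node first
  in the order with `κ` a unit, a class outside the image of the old ones. -/
  flip : ∀ i : Fin P.t,
    (∃ (T c : A) (degS : M i.succ →ₗ[A] M i.castSucc × M i.castSucc),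
      degS ∘ₗ deg i = Lift.crossMap c T ∧ T ^ 2 - c ^ 2 = γ (P.flipEl (P.ord i)) ∧
      (∀ (r : S) x, degS (r • x) = r • degS x) ∧
      ∀ u, ∃ x, degS x - u ∈ maximalIdeal S • (⊤ : Submodule S (M i.castSucc × M i.castSucc))) ∨
    ((i : ℕ) = 0 ∧ (∃ w, P.ord i = Sum.inl w ∧ IsUnit (P.κ w)) ∧
      ∃ x : M i.succ, ∀ u, x - deg i u ∉ maximalIdeal S • (⊤ : Submodule S (M i.succ)))

attribute [instance] Level.crA Level.locA Level.algA Level.acgM Level.modA Level.modS Level.commM

/-- Sequences of levels of bounded rank, with the separation of new and old systems at the base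
and the absence of the system of the curve at the top. -/
structure LevelSeq (p : ℕ) : Type 1 where
  lev : ∀ n, Level P p n
  B : ℕ
  rank_le : ∀ n j, (lev n).rank j ≤ B
  rank_pos : ∀ n, 0 < (lev n).rank 0
  /-- An element killing the new part at the base and acting as a nonzero constant on the old
  part. -/
  sep : ∀ i : Fin P.t, ∃ c : O, c ≠ 0 ∧ ∀ n, ∃ a : (lev n).A,
    (∀ x : (lev n).M i.succ, ∃ u, a • x - (lev n).deg i u ∈
      Ideal.span (Set.range fun k : Fin P.R => (X k : S)) • (⊤ : Submodule S ((lev n).M i.succ))) ∧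
    ∀ x : (lev n).M i.castSucc, (algebraMap O (lev n).A c - a) • x ∈
      Ideal.span (Set.range fun k : Fin P.R => (X k : S)) •
        (⊤ : Submodule S ((lev n).M i.castSucc))
  /-- An element killing the top level at the base, nonzero at the curve. -/
  top : ∃ c : O, c ≠ 0 ∧ ∀ n, ∃ a : (lev n).A,
    (∀ x : (lev n).M (Fin.last P.t), a • x ∈
      Ideal.span (Set.range fun k : Fin P.R => (X k : S)) •
        (⊤ : Submodule S ((lev n).M (Fin.last P.t)))) ∧
    (lev n).e a = c

end Fermat.Agent.RT.Lift59.Chain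

end
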