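import Fermat.Agent.RT.Lift59.Chain.Data

/-!
# The modules of a level are generated over its ring by square free monomials on the basis
-/

set_option autoImplicit false

noncomputable section

namespace Fermat.Agent.RT.Lift59.Chain

open IsLocalRing MvPowerSeries
open Fermat.Agent.RT.Assembly

variable {O : Type} [CommRing O] [IsLocalRing O] {P : Shape O} {p n : ℕ}

local notation "S" => MvPowerSeries (Fin P.R) O

/-- An element of `I • ⊤` for an ideal with finitely many generators. -/
theorem exists_eq_sum_of_mem_span_smul {R M ι : Type*} [CommRing R] [AddCommGroup M] [Module R M]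
    [Fintype ι] (g : ι → R) {x : M} (h : x ∈ Ideal.span (Set.range g) • (⊤ : Submodule R M)) :
    ∃ y : ι → M, x = ∑ i, g i • y i := by
  refine Submodule.smul_induction_on h (fun r hr y _ => ?_) fun y z hy hz => ?_
  · obtain ⟨c, rfl⟩ := Ideal.mem_span_range_iff_exists_fun.mp hr
    exact ⟨fun i => c i • y, by simp only [Finset.sum_smul, mul_comm (c _), mul_smul]⟩
  · obtain ⟨a, rfl⟩ := hy
    obtain ⟨b, rfl⟩ := hz
    exact ⟨a + b, by simp only [Pi.add_apply, smul_add, Finset.sum_add_distrib]⟩

namespace Level

variable (L : Level P p n) (j : Fin (P.t + 1))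

/-- The quadratic equation of a diamond operator. -/
theorem X_X_smul (i : Fin P.R) (m : L.M j) :
    (X i : S) • (X i : S) • m = (L.tw i - 2) • m + (L.tw i - 2) • (X i : S) • m := by
  have h := L.tw_act i j m
  have h2 : (2 : L.A) • m = m + m := two_smul _ m
  rw [sub_smul, sub_smul, smul_comm (L.tw i) (X i : S) m, h2]
  rw [show (2 : L.A) • (X i : S) • m = (X i : S) • m + (X i : S) • m from two_smul _ _]
  simp only [sq, mul_smul, add_smul, one_smul, smul_add] at h
  linear_combination (norm := abel) -h

/-- The square free monomials on the basis generate over the ring of the level. -/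
theorem exists_gen [IsNoetherianRing O] [IsAdicComplete (maximalIdeal O) O] (hpr : p.Prime)
    (hp : (p : O) ∈ maximalIdeal O) (x : L.M j) :
    ∃ c : Finset (Fin P.R) × Fin (L.rank j) → L.A,
      x = ∑ q, c q • (∏ i ∈ q.1, (X i : S)) • L.b j q.2 := by
  classical
  let w : Finset (Fin P.R) × Fin (L.rank j) → L.M j := fun q =>
    (∏ i ∈ q.1, (X i : S)) • L.b j q.2
  let W := Submodule.span L.A (Set.range w)
  suffices hx : x ∈ W by
    obtain ⟨c, hc⟩ := (Submodule.mem_span_range_iff_exists_fun L.A).1 hx
    exact ⟨c, hc.symm⟩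
  have hX : ∀ (i : Fin P.R), ∀ m ∈ W, (X i : S) • m ∈ W := by
    intro i m hm
    induction hm using Submodule.span_induction with
    | mem m hm =>
      obtain ⟨⟨e, k⟩, rfl⟩ := hm
      by_cases hi : i ∈ e
      · have e1 : w (e, k) = (X i : S) • w (e.erase i, k) := by
          simp only [w, smul_smul, Finset.mul_prod_erase _ _ hi]
        rw [e1, L.X_X_smul, ← e1]
        exact add_mem (W.smul_mem _ (Submodule.subset_span ⟨_, rfl⟩))
          (W.smul_mem _ (Submodule.subset_span ⟨_, rfl⟩))
      · exact Submodule.subset_span ⟨(insert i e, k), by simp [w, smul_smul, Finset.prod_insert hi]⟩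
    | zero => rw [smul_zero]; exact zero_mem _
    | add a b _ _ ha hb => rw [smul_add]; exact add_mem ha hb
    | smul a m _ ha => rw [← smul_comm]; exact W.smul_mem _ ha
  let J : Ideal S := levelIdeal O p n
  let Ψ : (Fin (L.rank j) → S) →ₗ[S] L.M j := Fintype.linearCombination S (L.b j)
  have hJ : ∀ v : Fin (L.rank j) → S, (∀ k, v k ∈ J) → Ψ v = 0 := fun v hv => by
    rw [Fintype.linearCombination_apply]
    exact Finset.sum_eq_zero fun k _ => L.kill j _ (hv k) _
  let W' : Submodule O (Fin (L.rank j) → S ⧸ J) :=
    { carrier := {u | ∀ v : Fin (L.rank j) → S, (∀ k, Ideal.Quotient.mk J (v k) = u k) → Ψ v ∈ W}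
      add_mem' := fun {u u'} hu hu' v hv => by
        choose v' hv' using fun k => Ideal.Quotient.mk_surjective (I := J) (u k)
        have h2 := hu' (v - v') fun k => by rw [Pi.sub_apply, map_sub, hv, hv', Pi.add_apply]; abel
        rw [map_sub] at h2
        simpa using add_mem (hu v' hv') h2
      zero_mem' := fun v hv => by
        rw [hJ v fun k => Ideal.Quotient.eq_zero_iff_mem.1 (hv k)]
        exact zero_mem _
      smul_mem' := fun c u hu v hv => by
        choose v' hv' using fun k => Ideal.Quotient.mk_surjective (I := J) (u k)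
        have h0 := hJ (v - (C c : S) • v') fun k => Ideal.Quotient.eq_zero_iff_mem.1 (by
          rw [Pi.sub_apply, Pi.smul_apply, smul_eq_mul, map_sub, hv, Pi.smul_apply, ← hv' k]
          exact sub_eq_zero.2 (congrArg (Ideal.Quotient.mk J) (Algebra.smul_def c (v' k))))
        rw [map_sub, sub_eq_zero] at h0
        rw [h0, map_smul, ← L.compat]
        exact W.smul_mem _ (hu v' hv') }
  have htop : W' = ⊤ := by
    refine eq_top_of_X_stable hpr hp n W' (fun i u hu v hv => ?_) fun k v hv => ?_
    · choose v' hv' using fun k => Ideal.Quotient.mk_surjective (I := J) (u k)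
      have h0 := hJ (v - (X i : S) • v') fun k => Ideal.Quotient.eq_zero_iff_mem.1 (by
        rw [Pi.sub_apply, Pi.smul_apply, smul_eq_mul, map_sub, map_mul, hv, hv', Pi.smul_apply,
          smul_eq_mul]
        exact sub_self _)
      rw [map_sub, sub_eq_zero] at h0
      rw [h0, map_smul]
      exact hX i _ (hu v' hv')
    · have h0 := hJ (v - Pi.single k 1) fun l => Ideal.Quotient.eq_zero_iff_mem.1 (by
        rw [Pi.sub_apply, map_sub, hv]
        rcases eq_or_ne l k with rfl | hl
        · simp [Pi.single_eq_same]
        · simp [Pi.single_eq_of_ne hl])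
      rw [map_sub, sub_eq_zero] at h0
      rw [h0, Fintype.linearCombination_apply_single, one_smul]
      exact Submodule.subset_span ⟨(∅, k), by simp [w]⟩
  obtain ⟨c, rfl⟩ := L.span j x
  have h := (htop ▸ Submodule.mem_top : (fun k => Ideal.Quotient.mk J (c k)) ∈ W') c fun k => rfl
  rwa [Fintype.linearCombination_apply] at h

end Level

end Fermat.Agent.RT.Lift59.Chain

end
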