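import Fermat.Agent.RT.Lift59.Chain.Uniform
import Fermat.Agent.RT.Lift59.Chain.Component

/-!
# What the levels give in the limit
-/

set_option autoImplicit false

noncomputable section

namespace Fermat.Agent.RT.Lift59.Chain

open IsLocalRing MvPowerSeries
open Fermat.Agent.RT.Assembly

variable {O : Type} [CommRing O] [IsDomain O] [IsDiscreteValuationRing O]
  [IsAdicComplete (maximalIdeal O) O] [Finite (ResidueField O)]
  {P : Shape O} {p : ℕ}

local notation "S" => MvPowerSeries (Fin P.R) O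
local notation "J₀" => Ideal.span (Set.range fun l : Fin P.R => (X l : S))

namespace Uniform

variable (L : Uniform P p)

omit [IsAdicComplete (maximalIdeal O) O] [Finite (ResidueField O)] in
theorem γ_apply (f : P.Coords) : L.γ f = Lim.lim U L.ringAt fun k => (L.lev k).γ f := rfl

omit [IsAdicComplete (maximalIdeal O) O] [Finite (ResidueField O)] in
/-- An identity along the sequence holds in the limit. -/
theorem lim_eq {x y : ∀ k, L.ringAt k} (h : ∀ k, x k = y k) :
    Lim.lim U L.ringAt x = Lim.lim U L.ringAt y := congrArg _ (funext h)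

omit [IsAdicComplete (maximalIdeal O) O] [Finite (ResidueField O)] in
theorem γ_eq_zero {f : P.Coords} (h : ∀ k, (L.lev k).γ f = 0) : L.γ f = 0 :=
  (L.lim_eq (y := 0) h).trans (map_zero _)

/-- The relations hold in the limit. -/
theorem relAlg : RelAlg P L.γ where
  surj := L.γ_surjective
  node_mul w j := L.γ_eq_zero fun k => (L.lev k).node_mul w j
  node_line w j := by
    choose c hc using fun k => (L.lev k).node_line w j
    refine ⟨Lim.lim U L.ringAt c, ?_⟩
    simp only [γ_apply, ← map_mul, ← map_sub]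
    exact (L.lim_eq (y := 0) hc).trans (map_zero _)
  scalar_mul v k := L.γ_eq_zero fun n => (L.lev n).scalar_mul v k
  scalar_right v i j := L.γ_eq_zero fun n => (L.lev n).scalar_right v i j
  scalar_left v i j := L.γ_eq_zero fun n => (L.lev n).scalar_left v i j

theorem exists_limit_point : ∃ π : L.Ring →ₐ[O] O, ∀ (x : ∀ k, L.ringAt k) (l : O),
    (∀ k, (L.lev k).e (x k) = l) → π (Lim.lim U L.ringAt x) = l := by
  have he : ∀ k, ∀ x ∈ maximalIdeal (L.ringAt k), (L.lev k).e x ∈ maximalIdeal O := fun k x hx => by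
    have : IsLocalHom ((L.lev k).e : L.ringAt k →+* O) :=
      IsLocalHom.of_surjective _ fun c => ⟨algebraMap O _ c, (L.lev k).e.commutes c⟩
    exact (IsLocalRing.mem_maximalIdeal _).2 fun hu =>
      (IsLocalRing.mem_maximalIdeal _).1 hx
        (isUnit_of_map_unit ((L.lev k).e : L.ringAt k →+* O) _ hu)
  obtain ⟨π, hπ⟩ := Lim.exists_point U L.ringAt (fun k => (L.lev k).e) he
  refine ⟨π, fun x l hx => (Lim.eq_of_eventually U fun K => ?_).symm⟩
  filter_upwards [hπ x K] with k hk
  simpa [hx k] using hk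

/-- The point of the curve in the limit. -/
def π : L.Ring →ₐ[O] O := L.exists_limit_point.choose

theorem π_lim {x : ∀ k, L.ringAt k} {l : O} (h : ∀ k, (L.lev k).e (x k) = l) :
    L.π (Lim.lim U L.ringAt x) = l := L.exists_limit_point.choose_spec x l h

theorem π_γ_phi (w : P.Nd) : L.π (L.γ (P.phi w)) = 0 := L.π_lim fun k => (L.lev k).e_phi w

theorem π_γ_conic (v : P.Vs) : L.π (L.γ (P.conic v)) = 0 := L.π_lim fun k => (L.lev k).e_conic v

theorem π_algebraMap (c : O) : L.π (algebraMap O L.Ring c) = c := L.π.commutes c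

/-- The trace of inertia at an auxiliary prime. -/
def tw (i : Fin P.R) : L.Ring := Lim.lim U L.ringAt fun k => (L.lev k).tw i

theorem π_tw (i : Fin P.R) : L.π (L.tw i) = 2 := L.π_lim fun k => (L.lev k).e_tw i

variable (hp : (p : O) ∈ maximalIdeal O)

omit [IsAdicComplete (maximalIdeal O) O] in
theorem tw_act (i : Fin P.R) (j : Fin (P.t + 1)) (z : L.Mod hp j) :
    ((1 : S) + X i) • L.tw i • z = (((1 : S) + X i) ^ 2 + 1) • z := by
  obtain ⟨x, rfl⟩ := (L.seq hp j).cls_surjective z
  rw [tw, Lim.ModSeq.smul_cls, ← map_smul, ← map_smul]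
  exact congrArg _ (funext fun k => (L.lev k).tw_act i j (x k))

omit [IsAdicComplete (maximalIdeal O) O] in
theorem X_X_smul (i : Fin P.R) (j : Fin (P.t + 1)) (z : L.Mod hp j) :
    (X i : S) • (X i : S) • z = (L.tw i - 2) • (z + (X i : S) • z) := by
  have h := L.tw_act hp i j z
  have h2 : ∀ m : L.Mod hp j, (2 : L.Ring) • m = m + m := fun m => two_smul _ m
  rw [smul_add, sub_smul, sub_smul, smul_comm (L.tw i) (X i : S) z, h2, h2]
  simp only [sq, mul_smul, add_smul, one_smul, smul_add] at h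
  linear_combination (norm := abel) -h

omit [IsAdicComplete (maximalIdeal O) O] in
theorem unr (i : Fin P.t) (j : Fin (P.t + 1)) (hji : (j : ℕ) ≤ i)
    (h0 : ∀ w, P.ord i = Sum.inl w → IsUnit (P.κ w) → (i : ℕ) ≠ 0)
    {f : P.Coords} (hf : f ∈ P.inertiaCrd (P.ord i)) :
    L.γ f ∈ Module.annihilator L.Ring (L.Mod hp j) := by
  refine Module.mem_annihilator.2 fun z => ?_
  obtain ⟨x, rfl⟩ := (L.seq hp j).cls_surjective z
  rw [γ_apply, Lim.ModSeq.smul_cls, ← map_zero ((L.seq hp j).cls)]
  exact congrArg _ (funext fun k => (L.lev k).unr i j hji h0 f hf (x k))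

/-- One component of the degeneracy map, linear over the coefficients. -/
def degFst (i : Fin P.t) (k : ℕ) :
    (L.seq hp i.castSucc).M k →ₗ[S] (L.seq hp i.succ).M k where
  toFun x := (L.lev k).deg i (x, 0)
  map_add' x y := by rw [← map_add, Prod.mk_add_mk, add_zero]
  map_smul' c x := by
    rw [RingHom.id_apply, ← (L.lev k).deg_smul, Prod.smul_mk, smul_zero]

/-- The other component. -/
def degSnd (i : Fin P.t) (k : ℕ) :
    (L.seq hp i.castSucc).M k →ₗ[S] (L.seq hp i.succ).M k where
  toFun x := (L.lev k).deg i (0, x)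
  map_add' x y := by rw [← map_add, Prod.mk_add_mk, add_zero]
  map_smul' c x := by
    rw [RingHom.id_apply, ← (L.lev k).deg_smul, Prod.smul_mk, smul_zero]

/-- The degeneracy map in the limit. -/
def δ (i : Fin P.t) :
    L.Mod hp i.castSucc × L.Mod hp i.castSucc →ₗ[L.Ring] L.Mod hp i.succ :=
  (Lim.mapLim (L.degFst hp i) fun k a x => by
    show (L.lev k).deg i (a • x, 0) = a • (L.lev k).deg i (x, 0)
    rw [← map_smul, Prod.smul_mk, smul_zero]).coprod
  (Lim.mapLim (L.degSnd hp i) fun k a x => by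
    show (L.lev k).deg i (0, a • x) = a • (L.lev k).deg i (0, x)
    rw [← map_smul, Prod.smul_mk, smul_zero])

omit [IsAdicComplete (maximalIdeal O) O] in
theorem δ_cls (i : Fin P.t) (x y : ∀ k, (L.seq hp i.castSucc).M k) :
    L.δ hp i ((L.seq hp i.castSucc).cls x, (L.seq hp i.castSucc).cls y) =
      (L.seq hp i.succ).cls fun k => (L.lev k).deg i (x k, y k) := by
  rw [δ, LinearMap.coprod_apply, Lim.mapLim_cls, Lim.mapLim_cls, ← map_add]
  refine congrArg _ (funext fun k => ?_)
  show (L.lev k).deg i (x k, 0) + (L.lev k).deg i (0, y k) = _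
  rw [← map_add, Prod.mk_add_mk, add_zero, zero_add]

omit [IsAdicComplete (maximalIdeal O) O] in
theorem δ_smul (i : Fin P.t) (c : S) (u) : L.δ hp i (c • u) = c • L.δ hp i u := by
  obtain ⟨z₁, z₂⟩ := u
  obtain ⟨x, rfl⟩ := (L.seq hp i.castSucc).cls_surjective z₁
  obtain ⟨y, rfl⟩ := (L.seq hp i.castSucc).cls_surjective z₂
  rw [Prod.smul_mk, ← map_smul, ← map_smul, δ_cls, δ_cls, ← map_smul]
  exact congrArg _ (funext fun k => (L.lev k).deg_smul i c (x k, y k))

/-- A pair lies in the multiples of the maximal ideal when both entries do. -/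
theorem prod_mem_smul_top {R M N : Type*} [CommRing R] [AddCommGroup M] [Module R M]
    [AddCommGroup N] [Module R N] (I : Ideal R) (u : M × N) :
    u ∈ I • (⊤ : Submodule R (M × N)) ↔
      u.1 ∈ I • (⊤ : Submodule R M) ∧ u.2 ∈ I • (⊤ : Submodule R N) := by
  constructor
  · intro h
    refine ⟨?_, ?_⟩
    · have h' := Submodule.mem_map_of_mem (f := LinearMap.fst R M N) h
      rw [Submodule.map_smul''] at h'
      exact Submodule.smul_mono le_rfl le_top h'
    · have h' := Submodule.mem_map_of_mem (f := LinearMap.snd R M N) h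
      rw [Submodule.map_smul''] at h'
      exact Submodule.smul_mono le_rfl le_top h'
  · rintro ⟨h1, h2⟩
    have h1' := Submodule.mem_map_of_mem (f := LinearMap.inl R M N) h1
    have h2' := Submodule.mem_map_of_mem (f := LinearMap.inr R M N) h2
    rw [Submodule.map_smul''] at h1' h2'
    simpa using add_mem (Submodule.smul_mono le_rfl le_top h1')
      (Submodule.smul_mono le_rfl le_top h2')

theorem δ_inj (i : Fin P.t) (u) (h : L.δ hp i u ∈ maximalIdeal S • (⊤ : Submodule S _)) :
    u ∈ maximalIdeal S • (⊤ : Submodule S (L.Mod hp i.castSucc × L.Mod hp i.castSucc)) := by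
  obtain ⟨z₁, z₂⟩ := u
  obtain ⟨x, rfl⟩ := (L.seq hp i.castSucc).cls_surjective z₁
  obtain ⟨y, rfl⟩ := (L.seq hp i.castSucc).cls_surjective z₂
  rw [δ_cls, L.mem_smul_top_iff] at h
  rw [prod_mem_smul_top, L.mem_smul_top_iff, L.mem_smul_top_iff]
  exact ⟨h.mono fun k hk => ((prod_mem_smul_top _ _).1 ((L.lev k).deg_inj i _ hk)).1,
    h.mono fun k hk => ((prod_mem_smul_top _ _).1 ((L.lev k).deg_inj i _ hk)).2⟩

/-- The map back in the limit, when it exists along the sequence. -/
theorem exists_cross (i : Fin P.t) (h : ∀ k, (L.lev k).Cross i) :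
    ∃ (T c : L.Ring) (δs : L.Mod hp i.succ →ₗ[L.Ring] L.Mod hp i.castSucc × L.Mod hp i.castSucc),
      δs ∘ₗ L.δ hp i = Lift.crossMap c T ∧ T ^ 2 - c ^ 2 = L.γ (P.flipEl (P.ord i)) ∧
      (∀ (r : S) x, δs (r • x) = r • δs x) ∧
      ∀ u, ∃ x, δs x - u ∈
        maximalIdeal S • (⊤ : Submodule S (L.Mod hp i.castSucc × L.Mod hp i.castSucc)) := by
  choose T c degS hcomp hT hS hsurj using h
  let g₁ : ∀ k, (L.seq hp i.succ).M k →ₗ[S] (L.seq hp i.castSucc).M k := fun k =>
    { toFun := fun x => (degS k x).1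
      map_add' := fun x y => by rw [map_add]; rfl
      map_smul' := fun r x => by rw [hS]; rfl }
  let g₂ : ∀ k, (L.seq hp i.succ).M k →ₗ[S] (L.seq hp i.castSucc).M k := fun k =>
    { toFun := fun x => (degS k x).2
      map_add' := fun x y => by rw [map_add]; rfl
      map_smul' := fun r x => by rw [hS]; rfl }
  let δs : L.Mod hp i.succ →ₗ[L.Ring] L.Mod hp i.castSucc × L.Mod hp i.castSucc :=
    (Lim.mapLim g₁ fun k a x => show (degS k (a • x)).1 = _ by rw [map_smul]; rfl).prod
      (Lim.mapLim g₂ fun k a x => show (degS k (a • x)).2 = _ by rw [map_smul]; rfl)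
  have hδs : ∀ x : ∀ k, (L.seq hp i.succ).M k, δs ((L.seq hp i.succ).cls x) =
      ((L.seq hp i.castSucc).cls fun k => (degS k (x k)).1,
        (L.seq hp i.castSucc).cls fun k => (degS k (x k)).2) := fun x => rfl
  refine ⟨Lim.lim U L.ringAt T, Lim.lim U L.ringAt c, δs, LinearMap.ext fun u => ?_, ?_,
    fun r z => ?_, fun u => ?_⟩
  · obtain ⟨z₁, z₂⟩ := u
    obtain ⟨x, rfl⟩ := (L.seq hp i.castSucc).cls_surjective z₁
    obtain ⟨y, rfl⟩ := (L.seq hp i.castSucc).cls_surjective z₂
    rw [LinearMap.comp_apply, δ_cls, hδs, Lift.crossMap_apply]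
    have e : ∀ k, degS k ((L.lev k).deg i (x k, y k)) = Lift.crossMap (c k) (T k) (x k, y k) :=
      fun k => LinearMap.congr_fun (hcomp k) _
    simp only [Lim.ModSeq.smul_cls, ← map_add, e, Lift.crossMap_apply]
    rfl
  · rw [γ_apply, ← map_pow, ← map_pow, ← map_sub]
    exact L.lim_eq hT
  · obtain ⟨x, rfl⟩ := (L.seq hp i.succ).cls_surjective z
    rw [← map_smul, hδs, hδs, Prod.smul_mk, ← map_smul, ← map_smul]
    refine Prod.ext ?_ ?_ <;>
      refine congrArg ((L.seq hp i.castSucc).cls) (funext fun k => ?_)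
    · exact congrArg Prod.fst (hS k r (x k))
    · exact congrArg Prod.snd (hS k r (x k))
  · obtain ⟨z₁, z₂⟩ := u
    obtain ⟨x, rfl⟩ := (L.seq hp i.castSucc).cls_surjective z₁
    obtain ⟨y, rfl⟩ := (L.seq hp i.castSucc).cls_surjective z₂
    choose z hz using fun k => hsurj k (x k, y k)
    refine ⟨(L.seq hp i.succ).cls z, ?_⟩
    rw [hδs, prod_mem_smul_top, Prod.mk_sub_mk]
    dsimp only
    rw [← map_sub, ← map_sub, L.mem_smul_top_iff, L.mem_smul_top_iff]
    exact ⟨Filter.Eventually.of_forall fun k => ((prod_mem_smul_top _ _).1 (hz k)).1,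
      Filter.Eventually.of_forall fun k => ((prod_mem_smul_top _ _).1 (hz k)).2⟩

/-- A class outside the image in the limit, when one exists along the sequence. -/
theorem exists_fresh (i : Fin P.t) (h : ∀ k, (L.lev k).Fresh i) :
    ∃ z : L.Mod hp i.succ, ∀ u, z ≠ L.δ hp i u := by
  choose x hx using h
  refine ⟨(L.seq hp i.succ).cls x, fun u hu => ?_⟩
  obtain ⟨z₁, z₂⟩ := u
  obtain ⟨a, rfl⟩ := (L.seq hp i.castSucc).cls_surjective z₁
  obtain ⟨b, rfl⟩ := (L.seq hp i.castSucc).cls_surjective z₂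
  rw [δ_cls, ← sub_eq_zero, ← map_sub] at hu
  have h' : (L.seq hp i.succ).cls (x - fun k => (L.lev k).deg i (a k, b k)) ∈
      maximalIdeal S • (⊤ : Submodule S (L.Mod hp i.succ)) := hu ▸ zero_mem _
  rw [L.mem_smul_top_iff] at h'
  obtain ⟨k, hk⟩ := h'.exists
  exact hx k (a k, b k) hk

omit [IsAdicComplete (maximalIdeal O) O] in
/-- The element separating new from old systems at the base. -/
theorem exists_sep (i : Fin P.t) : ∃ (c : O) (a : L.Ring), c ≠ 0 ∧
    (∀ z : L.Mod hp i.succ, ∃ u, a • z - L.δ hp i u ∈ J₀ • (⊤ : Submodule S (L.Mod hp i.succ))) ∧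
    ∀ z : L.Mod hp i.castSucc,
      (algebraMap O L.Ring c - a) • z ∈ J₀ • (⊤ : Submodule S (L.Mod hp i.castSucc)) := by
  obtain ⟨c, hc, h⟩ := L.sep i
  choose a ha ha' using h
  refine ⟨c, Lim.lim U L.ringAt a, hc, fun z => ?_, fun z => ?_⟩
  · obtain ⟨x, rfl⟩ := (L.seq hp i.succ).cls_surjective z
    choose u hu using fun k => ha k (x k)
    choose y hy using fun k => exists_eq_sum_of_mem_span_smul _ (hu k)
    refine ⟨((L.seq hp i.castSucc).cls fun k => (u k).1,
      (L.seq hp i.castSucc).cls fun k => (u k).2), ?_⟩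
    rw [δ_cls, Lim.ModSeq.smul_cls, ← map_sub]
    have e : ((L.seq hp i.succ).cls ((fun k => a k • x k) - fun k =>
        (L.lev k).deg i ((u k).1, (u k).2))) =
        ∑ l : Fin P.R, (X l : S) • (L.seq hp i.succ).cls fun k => y k l := by
      simp only [← map_smul, ← map_sum]
      refine congrArg _ (funext fun k => ?_)
      rw [Pi.sub_apply, Finset.sum_apply]
      exact hy k
    rw [e]
    exact Submodule.sum_mem _ fun l _ =>
      Submodule.smul_mem_smul (Ideal.subset_span ⟨l, rfl⟩) Submodule.mem_top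
  · rw [Lim.algebraMap_lim, ← map_sub]
    exact L.smul_mem_span hp i.castSucc _ ha' z

/-- The element killing the top at the base. -/
theorem exists_top : ∃ (c : O) (a : L.Ring), c ≠ 0 ∧
    (∀ z : L.Mod hp (Fin.last P.t), a • z ∈ J₀ • (⊤ : Submodule S (L.Mod hp (Fin.last P.t)))) ∧
    L.π a = c := by
  obtain ⟨c, hc, h⟩ := L.top
  choose a ha he using h
  exact ⟨c, Lim.lim U L.ringAt a, hc, fun z => L.smul_mem_span hp _ a ha z, L.π_lim he⟩

end Uniform

end Fermat.Agent.RT.Lift59.Chain

end
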