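import Fermat.Agent.RT.Lift59.Chain.Coker

/-!
# The chain of flips: no sequence of levels

Starting at a component of the bottom level, each flip either moves the component to the next
type or leaves it among the old forms, which the separation at the base excludes. The component
at the top contains the curve, where the element killing the top at the base does not vanish.
-/

set_option autoImplicit false

noncomputable section

namespace Fermat.Agent.RT.Lift59.Chain

open IsLocalRing MvPowerSeries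
open Fermat.Agent.RT.Assembly

variable {O : Type} [CommRing O] [IsDomain O] [IsDiscreteValuationRing O]
  [IsAdicComplete (maximalIdeal O) O] [Finite (ResidueField O)]
  {P : Shape O} {p : ℕ}

/-- The places before position `j`. -/
def Shape.placesBefore (P : Shape O) (j : ℕ) : Set (P.Nd ⊕ P.Vs) := {u | (P.ord.symm u : ℕ) < j}

omit [IsAdicComplete (maximalIdeal O) O] [Finite (ResidueField O)] in
theorem Shape.mem_placesBefore_iff (l : Fin P.t) (j : ℕ) :
    P.ord l ∈ P.placesBefore j ↔ (l : ℕ) < j := by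
  simp [Shape.placesBefore]

omit [IsAdicComplete (maximalIdeal O) O] [Finite (ResidueField O)] in
/-- At the places where inertia does not vanish the component is multiplicative. -/
theorem phi_mem_of_ent_notMem {A : Type} [CommRing A] [Algebra O A] {γ : P.Coords →ₐ[O] A}
    (h : RelAlg P γ) {𝔮 : Ideal A} [𝔮.IsPrime] {w : P.Nd} {j : Fin 2 × Fin 2}
    (hj : γ (P.ent w j) ∉ 𝔮) (hκ : γ (P.phi w + C (P.κ w)) ∉ 𝔮) : γ (P.phi w) ∈ 𝔮 := by
  have h0 : γ (P.ent w j) * (γ (P.phi w) * γ (P.phi w + C (P.κ w))) ∈ 𝔮 := by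
    rw [← map_mul, ← map_mul, h.node_mul]
    exact zero_mem _
  exact (Ideal.IsPrime.mem_or_mem ‹_› ((Ideal.IsPrime.mem_or_mem ‹_› h0).resolve_left hj))
    |>.resolve_right hκ

omit [IsAdicComplete (maximalIdeal O) O] [Finite (ResidueField O)] in
theorem conic_mem_of_nil_notMem {A : Type} [CommRing A] [Algebra O A] {γ : P.Coords →ₐ[O] A}
    (h : RelAlg P γ) {𝔮 : Ideal A} [𝔮.IsPrime] {v : P.Vs} {k : Fin 3}
    (hk : γ (X (Sum.inl (v, 1, k))) ∉ 𝔮) : γ (P.conic v) ∈ 𝔮 := by
  have h0 : γ (X (Sum.inl (v, 1, k))) * γ (P.conic v) ∈ 𝔮 := by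
    rw [← map_mul, h.scalar_mul]
    exact zero_mem _
  exact (Ideal.IsPrime.mem_or_mem ‹_› h0).resolve_left hk

omit [IsAdicComplete (maximalIdeal O) O] [Finite (ResidueField O)] in
theorem kappa_add_isUnit {A : Type} [CommRing A] [IsLocalRing A] [Algebra O A]
    {γ : P.Coords →ₐ[O] A} (_h : RelAlg P γ) {w : P.Nd} (hκ : IsUnit (P.κ w)) :
    IsUnit (γ (P.phi w + C (P.κ w))) :=
  IsUnit.map γ (MvPowerSeries.isUnit_iff_constantCoeff.2 (by simpa [Shape.phi] using hκ))

namespace Uniform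

variable (L : Uniform P p) (hp : (p : O) ∈ maximalIdeal O)

/-- A component at position `j`. -/
def State (j : Fin (P.t + 1)) : Prop :=
  ∃ 𝔮 : Ideal L.Ring, IsType P L.γ (P.placesBefore j) 𝔮 ∧
    ringKrullDim (MvPowerSeries (Fin P.R) O) ≤ ringKrullDim (L.Ring ⧸ 𝔮) ∧
    Module.annihilator L.Ring (L.Mod hp j) ≤ 𝔮

omit [IsAdicComplete (maximalIdeal O) O] in
/-- The places after a position still have trivial inertia. -/
theorem inertia_mem {j : Fin (P.t + 1)} {𝔮 : Ideal L.Ring}
    (hann : Module.annihilator L.Ring (L.Mod hp j) ≤ 𝔮) {l : Fin P.t} (hl : (j : ℕ) ≤ l)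
    (h0 : ∀ w, P.ord l = Sum.inl w → IsUnit (P.κ w) → (l : ℕ) ≠ 0) :
    ∀ f ∈ P.inertiaCrd (P.ord l), L.γ f ∈ 𝔮 :=
  fun _ hf => hann (L.unr hp l j hl h0 hf)

/-- **One flip.** -/
theorem state_succ (hpr : p.Prime) (h2 : IsUnit (2 : O)) (i : Fin P.t)
    (hs : L.State hp i.castSucc) : L.State hp i.succ := by
  classical
  obtain ⟨𝔮, hq, hdim, hann⟩ := hs
  have hrel := L.relAlg
  have := hq.prime
  set St := P.placesBefore (i.castSucc : ℕ)
  have hu : P.ord i ∉ St := by simp [St, Shape.mem_placesBefore_iff]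
  -- a prime in the support of the new part, with inertia not vanishing at the old places
  obtain ⟨𝔭, h𝔭, hcok, hκ, hent, hnil⟩ : ∃ 𝔭 : Ideal L.Ring, 𝔭.IsPrime ∧
      Module.annihilator L.Ring (L.Mod hp i.succ ⧸ LinearMap.range (L.δ hp i)) ≤ 𝔭 ∧
      (∀ w, Sum.inl w ∈ St ∨ Sum.inl w = P.ord i → L.γ (P.phi w + C (P.κ w)) ∉ 𝔭) ∧
      (∀ w, Sum.inl w ∈ St → ∃ j, L.γ (P.ent w j) ∉ 𝔭) ∧
      ∀ v, Sum.inr v ∈ St → ∃ k : Fin 3, L.γ (X (Sum.inl (v, 1, k))) ∉ 𝔭 := by
    rcases L.alt i with hc | ⟨hi0, ⟨w₀, hw₀, hκ₀⟩, hf⟩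
    · obtain ⟨T, c, δs, hcomp, hT, hS, hsurj⟩ := L.exists_cross hp i hc
      obtain ⟨𝔭, h𝔭, hle, hconst, hflip, hphi, hent, hnil⟩ :=
        exists_flip_prime hrel h2 hq hdim hu
      have := L.finite hp hpr i.castSucc
      let δs' : L.Mod hp i.succ →ₗ[MvPowerSeries (Fin P.R) O]
          L.Mod hp i.castSucc × L.Mod hp i.castSucc :=
        { toFun := δs, map_add' := map_add _, map_smul' := hS }
      have hsurj' : Function.Surjective δs := Lift.surjective_of_surjective_mod δs' hsurj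
      refine ⟨𝔭, h𝔭, Lift.annihilator_coker_le (hann.trans hle) (hT ▸ hflip) hcomp hsurj',
        fun w hw => kappa_add_notMem h𝔭 hconst w ?_, hent, hnil⟩
      rcases hw with hw | hw
      · exact hle (hq.phi_mem w hw)
      · exact hphi w hw
    · have hne : Module.annihilator L.Ring
          (L.Mod hp i.succ ⧸ LinearMap.range (L.δ hp i)) ≠ ⊤ := by
        intro h
        obtain ⟨z, hz⟩ := L.exists_fresh hp i hf
        have h1 : Submodule.Quotient.mk (p := LinearMap.range (L.δ hp i)) z = 0 := by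
          rw [← one_smul L.Ring (Submodule.Quotient.mk z)]
          exact Module.mem_annihilator.1 (h ▸ Submodule.mem_top : (1 : L.Ring) ∈ _) _
        obtain ⟨u, hu'⟩ := (Submodule.Quotient.mk_eq_zero _).1 h1
        exact hz u hu'.symm
      obtain ⟨𝔭, hmax, hle⟩ := Ideal.exists_le_maximal _ hne
      have hempty : ∀ x, x ∉ St := fun x hx => by
        simp [St, Shape.placesBefore, hi0] at hx
      refine ⟨𝔭, hmax.isPrime, hle, fun w hw hmem => ?_, fun w hw => (hempty _ hw).elim,
        fun v hv => (hempty _ hv).elim⟩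
      obtain rfl : w = w₀ := Sum.inl.inj ((hw.resolve_left (hempty _)).trans hw₀)
      exact hmax.ne_top (Ideal.eq_top_of_isUnit_mem _ hmem (kappa_add_isUnit hrel hκ₀))
  obtain ⟨𝔮', h𝔮', hle, hann', hdim', 𝔔, h𝔔, hqQ, htw, hconstQ, hmemQ⟩ :=
    L.exists_coker_prime hp hpr i hcok
  have hconst' : ∀ c : O, c ≠ 0 → algebraMap O L.Ring c ∉ 𝔮' :=
    fun c hc h => hconstQ c hc (hqQ h)
  have hlater : ∀ l : Fin P.t, (i : ℕ) < l → ∀ f ∈ P.inertiaCrd (P.ord l), L.γ f ∈ 𝔮' :=
    fun l hl => L.inertia_mem hp hann' (by rw [Fin.val_succ]; omega) fun _ _ _ => by omega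
  -- the conditions at the old places
  have hphiSt : ∀ w, Sum.inl w ∈ St → L.γ (P.phi w) ∈ 𝔮' := fun w hw => by
    obtain ⟨j, hj⟩ := hent w hw
    exact phi_mem_of_ent_notMem hrel (fun h => hj (hle h)) fun h => hκ w (Or.inl hw) (hle h)
  have hconicSt : ∀ v, Sum.inr v ∈ St → L.γ (P.conic v) ∈ 𝔮' := fun v hv => by
    obtain ⟨k, hk⟩ := hnil v hv
    exact conic_mem_of_nil_notMem hrel fun h => hk (hle h)
  -- inertia at the flipped place does not vanish on the new component
  have hnew : ∃ f ∈ P.inertiaCrd (P.ord i), L.γ f ∉ 𝔮' := by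
    by_contra hall
    push Not at hall
    have hout : ∀ x, x ∉ St → ∀ f ∈ P.inertiaCrd x, L.γ f ∈ 𝔮' := fun x hx => by
      obtain ⟨l, rfl⟩ := P.ord.surjective x
      rw [Shape.mem_placesBefore_iff, Fin.val_castSucc, not_lt] at hx
      rcases hx.lt_or_eq with hl | hl
      · exact hlater l hl
      · exact Fin.ext hl ▸ hall
    have htype : IsType P L.γ St 𝔮' :=
      { prime := h𝔮'
        const := hconst'
        phi_mem := hphiSt
        ent_mem := fun w hw j => hout _ hw _ ⟨j, rfl⟩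
        conic_mem := hconicSt
        nil_mem := fun v hv k => hout _ hv _ ⟨k, rfl⟩ }
    have heq : 𝔮' = 𝔮 := le_antisymm (htype.le_of_dim hrel h2 hq hdim'.ge)
      (hq.le_of_dim hrel h2 htype hdim)
    obtain ⟨c, a, hc, ha, hca⟩ := L.exists_sep hp i
    have h1 : a ∈ 𝔔 := hmemQ a ha
    have h2' : algebraMap O L.Ring c - a ∈ 𝔔 :=
      L.mem_of_smul_mem_span hp hpr i.castSucc (hann.trans (heq ▸ hqQ)) htw hca
    exact hconstQ c hc (by simpa using add_mem h2' h1)
  have hafter : ∀ x, x ∉ P.placesBefore (i.succ : ℕ) → ∀ f ∈ P.inertiaCrd x, L.γ f ∈ 𝔮' :=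
    fun x hx => by
      obtain ⟨l, rfl⟩ := P.ord.surjective x
      rw [Shape.mem_placesBefore_iff, Fin.val_succ] at hx
      exact hlater l (by omega)
  have hsplit : ∀ x, x ∈ P.placesBefore (i.succ : ℕ) → x ∈ St ∨ x = P.ord i := fun x hx => by
    obtain ⟨l, rfl⟩ := P.ord.surjective x
    rw [Shape.mem_placesBefore_iff, Fin.val_succ] at hx
    rcases Nat.lt_succ_iff_lt_or_eq.1 hx with hl | hl
    · exact Or.inl ((Shape.mem_placesBefore_iff l _).2 hl)
    · exact Or.inr (congrArg P.ord (Fin.ext hl))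
  obtain ⟨f, hf, hf'⟩ := hnew
  refine ⟨𝔮',
    { prime := h𝔮'
      const := hconst'
      phi_mem := fun w hw => ?_
      ent_mem := fun w hw j => hafter _ hw _ ⟨j, rfl⟩
      conic_mem := fun v hv => ?_
      nil_mem := fun v hv k => hafter _ hv _ ⟨k, rfl⟩ }, hdim'.ge, hann'⟩
  · rcases hsplit _ hw with h | h
    · exact hphiSt w h
    · rw [← h] at hf
      obtain ⟨j, rfl⟩ := hf
      exact phi_mem_of_ent_notMem hrel hf' fun h' => hκ w (Or.inr h) (hle h')
  · rcases hsplit _ hv with h | h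
    · exact hconicSt v h
    · rw [← h] at hf
      obtain ⟨k, rfl⟩ := hf
      exact conic_mem_of_nil_notMem hrel hf'

/-- A component at the bottom, or just after a first place of node type. -/
theorem exists_state (hpr : p.Prime) : ∃ j, L.State hp j := by
  classical
  obtain ⟨𝔮, hq, hann, hdim, hconst⟩ := L.exists_bottom_prime hp hpr
  by_cases hall : ∀ (l : Fin P.t), ∀ f ∈ P.inertiaCrd (P.ord l), L.γ f ∈ 𝔮
  · have hin : ∀ x, ∀ f ∈ P.inertiaCrd x, L.γ f ∈ 𝔮 := fun x => by
      obtain ⟨l, rfl⟩ := P.ord.surjective x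
      exact hall l
    refine ⟨0, 𝔮,
      { prime := hq
        const := hconst
        phi_mem := fun w hw => absurd hw (by simp [Shape.placesBefore])
        ent_mem := fun w _ j => hin (Sum.inl w) _ ⟨j, rfl⟩
        conic_mem := fun v hv => absurd hv (by simp [Shape.placesBefore])
        nil_mem := fun v _ k => hin (Sum.inr v) _ ⟨k, rfl⟩ }, hdim.ge, hann⟩
  push Not at hall
  obtain ⟨i, f, hf, hf'⟩ := hall
  -- only a first place of node type with a unit `κ` is possible
  obtain ⟨w, hw, hκ, hi0⟩ : ∃ w, P.ord i = Sum.inl w ∧ IsUnit (P.κ w) ∧ (i : ℕ) = 0 := by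
    by_contra h
    push Not at h
    exact hf' (L.inertia_mem hp hann (Nat.zero_le _) h f hf)
  have hlater : ∀ x, x ∉ P.placesBefore (i.succ : ℕ) → ∀ g ∈ P.inertiaCrd x, L.γ g ∈ 𝔮 :=
    fun x hx => by
      obtain ⟨l, rfl⟩ := P.ord.surjective x
      rw [Shape.mem_placesBefore_iff, Fin.val_succ] at hx
      exact L.inertia_mem hp hann (Nat.zero_le _) fun _ _ _ => by omega
  have honly : ∀ x, x ∈ P.placesBefore (i.succ : ℕ) → x = Sum.inl w := fun x hx => by
    obtain ⟨l, rfl⟩ := P.ord.surjective x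
    rw [Shape.mem_placesBefore_iff, Fin.val_succ, hi0] at hx
    rw [← hw]
    exact congrArg P.ord (Fin.ext (by omega))
  refine ⟨i.succ, 𝔮,
    { prime := hq
      const := hconst
      phi_mem := fun w' hw' => ?_
      ent_mem := fun w' hw' j => hlater (Sum.inl w') hw' _ ⟨j, rfl⟩
      conic_mem := fun v hv => absurd (honly _ hv) (by simp)
      nil_mem := fun v hv k => hlater (Sum.inr v) hv _ ⟨k, rfl⟩ }, hdim.ge, ?_⟩
  · obtain rfl : w' = w := Sum.inl.inj (honly _ hw')
    rw [hw] at hf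
    obtain ⟨j, rfl⟩ := hf
    exact phi_mem_of_ent_notMem L.relAlg hf' fun h =>
      hq.ne_top (Ideal.eq_top_of_isUnit_mem _ h (kappa_add_isUnit L.relAlg hκ))
  · refine (L.annihilator_succ_le hp i).trans ?_
    rw [show i.castSucc = 0 from Fin.ext hi0]
    exact hann

theorem state_last (hpr : p.Prime) (h2 : IsUnit (2 : O)) : L.State hp (Fin.last P.t) := by
  obtain ⟨j, hj⟩ := L.exists_state hp hpr
  suffices h : ∀ n, (j : ℕ) ≤ n → (hn : n < P.t + 1) → L.State hp ⟨n, hn⟩ from
    h P.t (Nat.le_of_lt_succ j.2) (Nat.lt_succ_self _)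
  intro n hjn
  induction n, hjn using Nat.le_induction with
  | base => exact fun hn => hj
  | succ m _ ih => exact fun hn => L.state_succ hp hpr h2 ⟨m, by omega⟩ (ih (by omega))

include L hp in
/-- The top component passes through the curve, where the element killing the top does not
vanish. -/
theorem false_of_state_last (hpr : p.Prime) (h2 : IsUnit (2 : O)) : False := by
  obtain ⟨𝔮, hq, hdim, hann⟩ := L.state_last hp hpr h2
  let E : Ideal L.Ring := RingHom.ker (L.π : L.Ring →+* O)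
  have hE : E.IsPrime := RingHom.ker_isPrime _
  have hall : ∀ x, x ∈ P.placesBefore ((Fin.last P.t : Fin (P.t + 1)) : ℕ) := fun x => by
    simp [Shape.placesBefore]
  have htype : IsType P L.γ (P.placesBefore ((Fin.last P.t : Fin (P.t + 1)) : ℕ)) E :=
    { prime := hE
      const := fun c hc h => hc ((L.π_algebraMap c).symm.trans h)
      phi_mem := fun w _ => L.π_γ_phi w
      ent_mem := fun w hw => absurd (hall _) hw
      conic_mem := fun v _ => L.π_γ_conic v
      nil_mem := fun v hv => absurd (hall _) hv }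
  obtain ⟨c, a, hc, ha, hπ⟩ := L.exists_top hp
  have hle : 𝔮 ≤ E := hq.le_of_dim L.relAlg h2 htype hdim
  have hmem : a ∈ E := L.mem_of_smul_mem_span hp hpr _ (hann.trans hle)
    (fun l => by
      show L.π (L.tw l - 2) = 0
      rw [map_sub, L.π_tw, map_ofNat, sub_self]) ha
  exact hc (hπ.symm.trans hmem)

end Uniform

/-- **The chain of flips**: there is no sequence of levels. -/
theorem LevelSeq.not_exists (hpr : p.Prime) (hp : (p : O) ∈ maximalIdeal O) (h2 : IsUnit (2 : O))
    (L : LevelSeq P p) : False :=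
  L.exists_uniform.elim fun L' => L'.false_of_state_last hp hpr h2

end Fermat.Agent.RT.Lift59.Chain

end
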