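import Fermat.Agent.CFT.Tangent.Derivation
import Fermat.Agent.RT.Assembly.Quotient
import Fermat.Agent.RT.Algebra.Ultralimit
import Fermat.Agent.RT.Algebra.Limit
import Fermat.Prelude.Thm_IsLocalRing_isAdicComplete_of_module_finite

/-!
# Power series rings over the coefficients, as complete local rings
-/

set_option autoImplicit false

noncomputable section

namespace Fermat.Agent.RT.Lift59.Chain

open IsLocalRing MvPowerSeries Fermat.Agent.RT.Algebra Fermat.Agent.RT.Assembly
open Fermat.Agent.CFT.Tangent (exists_evalHom)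

variable {O : Type} [CommRing O] [IsLocalRing O] {σ : Type} [Finite σ]

omit [Finite σ] in
theorem C_mem_maximalIdeal {c : O} (hc : c ∈ maximalIdeal O) :
    (C c : MvPowerSeries σ O) ∈ maximalIdeal (MvPowerSeries σ O) :=
  (IsLocalRing.mem_maximalIdeal _).2 fun h => (IsLocalRing.mem_maximalIdeal _).1 hc (by
    simpa using MvPowerSeries.isUnit_iff_constantCoeff.mp h)

omit [IsLocalRing O] in
/-- Series are polynomials modulo every power of the ideal of the variables. -/
theorem exists_poly (f : MvPowerSeries σ O) (K : ℕ) :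
    ∃ t : MvPolynomial σ O,
      f - (t : MvPowerSeries σ O) ∈ Ideal.span (Set.range (X : σ → MvPowerSeries σ O)) ^ K := by
  refine ⟨truncTotal K f, mem_pow_span_X (MvPolynomial.ext _ _ fun d => ?_)⟩
  rw [map_sub, MvPolynomial.coeff_sub, MvPolynomial.coeff_zero]
  by_cases hd : d.degree < K
  · rw [coeff_truncTotal _ hd, coeff_truncTotal _ hd, MvPolynomial.coeff_coe,
      coeff_truncTotal _ hd, sub_self]
  · rw [coeff_truncTotal_eq_zero _ (not_lt.mp hd), coeff_truncTotal_eq_zero _ (not_lt.mp hd),
      sub_self]

omit [IsLocalRing O] in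
/-- Homomorphisms into a Hausdorff local algebra which agree on the variables are equal. -/
theorem algHom_ext_X {R : Type} [CommRing R] [IsLocalRing R] [IsHausdorff (maximalIdeal R) R]
    [Algebra O R] {f g : MvPowerSeries σ O →ₐ[O] R} (h : ∀ i, f (X i) = g (X i))
    (hX : ∀ i, f (X i) ∈ maximalIdeal R) : f = g := by
  refine AlgHom.ext fun x => sub_eq_zero.1 (IsHausdorff.haus' (I := maximalIdeal R) _ fun K => ?_)
  rw [SModEq.zero, smul_eq_mul, Ideal.mul_top]
  obtain ⟨t, ht⟩ := exists_poly x K
  have e : f (t : MvPowerSeries σ O) = g (t : MvPowerSeries σ O) := by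
    have : f.comp (MvPolynomial.coeToMvPowerSeries.algHom O) =
        g.comp (MvPolynomial.coeToMvPowerSeries.algHom O) :=
      MvPolynomial.algHom_ext fun i => by simpa using h i
    simpa using DFunLike.congr_fun this t
  have hle : ∀ k : MvPowerSeries σ O →ₐ[O] R, (∀ i, k (X i) ∈ maximalIdeal R) →
      k (x - (t : MvPowerSeries σ O)) ∈ maximalIdeal R ^ K := fun k hk => by
    have h1 := Ideal.mem_map_of_mem (k : MvPowerSeries σ O →+* R) ht
    rw [Ideal.map_pow, Ideal.map_span, ← Set.range_comp] at h1
    exact Ideal.pow_right_mono (Ideal.span_le.2 (Set.range_subset_iff.2 hk)) K h1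
  have h2 := sub_mem (hle f hX) (hle g fun i => h i ▸ hX i)
  rwa [map_sub, map_sub, e, sub_sub_sub_cancel_right] at h2

/-- A surjective endomorphism of a Noetherian ring is injective. -/
theorem injective_of_surjective_endo {R : Type} [CommRing R] [IsNoetherianRing R] (f : R →+* R)
    (hf : Function.Surjective f) : Function.Injective f := by
  let K : ℕ →o Ideal R :=
    ⟨fun n => RingHom.ker (f ^ n), monotone_nat_of_le_succ fun n x hx => by
      rw [RingHom.mem_ker] at hx ⊢
      rw [pow_succ', RingHom.mul_def, RingHom.comp_apply, hx, map_zero]⟩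
  obtain ⟨n, hn⟩ := monotone_stabilizes_iff_noetherian.2 inferInstance K
  refine (injective_iff_map_eq_zero f).2 fun x hx => ?_
  have hs : ∀ m, Function.Surjective (f ^ m : R →+* R) := fun m => by
    induction m with
    | zero => exact fun x => ⟨x, rfl⟩
    | succ m ih =>
      rw [pow_succ', RingHom.mul_def, RingHom.coe_comp]
      exact hf.comp ih
  obtain ⟨y, rfl⟩ := hs n x
  have : y ∈ K (n + 1) := by
    show (f ^ (n + 1)) y = 0
    rw [pow_succ', RingHom.mul_def, RingHom.comp_apply, hx]
  rw [← hn (n + 1) n.le_succ] at this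
  exact this

omit [Finite σ] in
instance isLocalHom_algebraMap_mvPowerSeries : IsLocalHom (algebraMap O (MvPowerSeries σ O)) :=
  ⟨fun c hc => by
    have h : IsUnit (constantCoeff (C c : MvPowerSeries σ O)) :=
      MvPowerSeries.isUnit_iff_constantCoeff.mp hc
    rwa [constantCoeff_C] at h⟩

variable [IsNoetherianRing O] [IsAdicComplete (maximalIdeal O) O] [Finite (ResidueField O)]

/-- Power series over a complete local ring with finite residue field are complete. -/
instance isAdicComplete_maximalIdeal_mvPowerSeries :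
    IsAdicComplete (maximalIdeal (MvPowerSeries σ O)) (MvPowerSeries σ O) where
  haus' := (inferInstance : IsHausdorff (maximalIdeal (MvPowerSeries σ O))
    (MvPowerSeries σ O)).haus'
  prec' f hf := by
    obtain ⟨L, hL⟩ := exists_ultralimit (Filter.hyperfilter ℕ) f
    refine ⟨L, fun K => ?_⟩
    obtain ⟨n, hn, hKn⟩ := ((hL K).and (Filter.hyperfilter_le_cofinite (by
      rw [Nat.cofinite_eq_atTop]; exact Filter.eventually_ge_atTop K))).exists
    rw [SModEq.sub_mem, smul_eq_mul, Ideal.mul_top]
    have h := hf hKn
    rw [SModEq.sub_mem, smul_eq_mul, Ideal.mul_top] at h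
    simpa using add_mem h hn

omit [Finite (ResidueField O)] [IsAdicComplete (maximalIdeal O) O] [IsNoetherianRing O]
  [Finite σ] in
theorem isLocalHom_algebraMap_of_surjective {R : Type} [CommRing R] [Nontrivial R] [Algebra O R]
    (γ : MvPowerSeries σ O →ₐ[O] R) (hγ : Function.Surjective γ) :
    IsLocalHom (algebraMap O R) := by
  have : IsLocalHom (γ : MvPowerSeries σ O →+* R) := IsLocalHom.of_surjective _ hγ
  refine ⟨fun c hc => ?_⟩
  rw [← γ.commutes] at hc
  have := isUnit_of_map_unit (γ : MvPowerSeries σ O →+* R) _ hc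
  have h2 : IsUnit (constantCoeff (C c : MvPowerSeries σ O)) :=
    MvPowerSeries.isUnit_iff_constantCoeff.mp this
  rwa [constantCoeff_C] at h2

/-- Quotients of power series rings are complete. -/
theorem isAdicComplete_of_surjective {R : Type} [CommRing R] [IsLocalRing R] [Algebra O R]
    (γ : MvPowerSeries σ O →ₐ[O] R) (hγ : Function.Surjective γ) :
    IsAdicComplete (maximalIdeal R) R := by
  let : Algebra (MvPowerSeries σ O) R := (γ : MvPowerSeries σ O →+* R).toAlgebra
  have : Module.Finite (MvPowerSeries σ O) R :=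
    Module.Finite.of_surjective (Algebra.linearMap (MvPowerSeries σ O) R) hγ
  have : IsLocalHom (algebraMap (MvPowerSeries σ O) R) := IsLocalHom.of_surjective _ hγ
  exact IsLocalRing.isAdicComplete_of_module_finite (𝒪 := MvPowerSeries σ O)

/-- Evaluation at given elements of the maximal ideal of a power series ring. -/
theorem exists_substHom {τ : Type} [Finite τ] (s : τ → MvPowerSeries σ O)
    (hs : ∀ i, s i ∈ maximalIdeal (MvPowerSeries σ O)) :
    ∃ γ : MvPowerSeries τ O →ₐ[O] MvPowerSeries σ O, ∀ i, γ (X i) = s i :=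
  exists_evalHom s hs

end Fermat.Agent.RT.Lift59.Chain

end
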