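import Fermat.Agent.RT.Lift59.Chain.Level
import Fermat.Agent.RT.Lift59.Lim.Module

/-!
# A subsequence of levels of constant rank and uniform alternatives
-/

set_option autoImplicit false

noncomputable section

namespace Fermat.Agent.RT.Lift59.Chain

open IsLocalRing MvPowerSeries
open Fermat.Agent.RT.Assembly

variable {O : Type} [CommRing O] [IsLocalRing O] {P : Shape O} {p n : ℕ}

local notation "S" => MvPowerSeries (Fin P.R) O

namespace Level

variable (L : Level P p n) (i : Fin P.t)

/-- The map back with its composite and Ihara's lemma. -/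
def Cross : Prop :=
  ∃ (T c : L.A) (degS : L.M i.succ →ₗ[L.A] L.M i.castSucc × L.M i.castSucc),
    degS ∘ₗ L.deg i = Lift.crossMap c T ∧ T ^ 2 - c ^ 2 = L.γ (P.flipEl (P.ord i)) ∧
    (∀ (r : S) x, degS (r • x) = r • degS x) ∧
    ∀ u, ∃ x, degS x - u ∈ maximalIdeal S • (⊤ : Submodule S (L.M i.castSucc × L.M i.castSucc))

/-- A class outside the image of the old ones. -/
def Fresh : Prop :=
  ∃ x : L.M i.succ, ∀ u, x - L.deg i u ∉ maximalIdeal S • (⊤ : Submodule S (L.M i.succ))

end Level

variable (P p) in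
/-- Levels of growing depth, of constant rank and with the same alternative at each flip. -/
structure Uniform : Type 1 where
  dep : ℕ → ℕ
  le_dep : ∀ k, k ≤ dep k
  lev : ∀ k, Level P p (dep k)
  D : Fin (P.t + 1) → ℕ
  rank_eq : ∀ k j, (lev k).rank j = D j
  D_pos : 0 < D 0
  alt : ∀ i : Fin P.t, (∀ k, (lev k).Cross i) ∨
    ((i : ℕ) = 0 ∧ (∃ w, P.ord i = Sum.inl w ∧ IsUnit (P.κ w)) ∧ ∀ k, (lev k).Fresh i)
  sep : ∀ i : Fin P.t, ∃ c : O, c ≠ 0 ∧ ∀ k, ∃ a : (lev k).A,
    (∀ x : (lev k).M i.succ, ∃ u, a • x - (lev k).deg i u ∈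
      Ideal.span (Set.range fun l : Fin P.R => (X l : S)) • (⊤ : Submodule S ((lev k).M i.succ))) ∧
    ∀ x : (lev k).M i.castSucc, (algebraMap O (lev k).A c - a) • x ∈
      Ideal.span (Set.range fun l : Fin P.R => (X l : S)) •
        (⊤ : Submodule S ((lev k).M i.castSucc))
  top : ∃ c : O, c ≠ 0 ∧ ∀ k, ∃ a : (lev k).A,
    (∀ x : (lev k).M (Fin.last P.t), a • x ∈
      Ideal.span (Set.range fun l : Fin P.R => (X l : S)) •
        (⊤ : Submodule S ((lev k).M (Fin.last P.t)))) ∧
    (lev k).e a = c

/-- Pigeonhole on the ranks and the alternatives. -/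
theorem LevelSeq.exists_uniform (L : LevelSeq P p) : Nonempty (Uniform P p) := by
  classical
  let key : ℕ → (Fin (P.t + 1) → Fin (L.B + 1)) × (Fin P.t → Bool) := fun n =>
    (fun j => ⟨(L.lev n).rank j, Nat.lt_succ_of_le (L.rank_le n j)⟩,
      fun i => decide ((L.lev n).Cross i))
  obtain ⟨⟨d, b⟩, hinf⟩ := Finite.exists_infinite_fiber key
  have hinf' : {n | key n = (d, b)}.Infinite := Set.infinite_coe_iff.1 hinf
  let φ : ℕ → ℕ := Nat.nth fun n => key n = (d, b)
  have hφ : StrictMono φ := Nat.nth_strictMono hinf'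
  have hk : ∀ k, key (φ k) = (d, b) := Nat.nth_mem_of_infinite hinf'
  have hD : ∀ k j, (L.lev (φ k)).rank j = d j := fun k j =>
    congrArg (fun q : (Fin (P.t + 1) → Fin (L.B + 1)) × (Fin P.t → Bool) => (q.1 j : ℕ)) (hk k)
  have hb : ∀ k i, decide ((L.lev (φ k)).Cross i) = b i := fun k i =>
    congrArg (fun q : (Fin (P.t + 1) → Fin (L.B + 1)) × (Fin P.t → Bool) => q.2 i) (hk k)
  refine ⟨
    { dep := φ
      le_dep := fun k => hφ.le_apply
      lev := fun k => L.lev (φ k)
      D := fun j => d j
      rank_eq := hD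
      D_pos := (hD 0 0).symm ▸ L.rank_pos (φ 0)
      alt := fun i => ?_
      sep := fun i => (L.sep i).imp fun c h => ⟨h.1, fun k => h.2 (φ k)⟩
      top := L.top.imp fun c h => ⟨h.1, fun k => h.2 (φ k)⟩ }⟩
  rcases hbi : b i with _ | _
  · have hc : ∀ k, ¬ (L.lev (φ k)).Cross i := fun k h => by
      have h' := hb k i
      rw [hbi, decide_eq_false_iff_not] at h'
      exact h' h
    have hf := fun k => ((L.lev (φ k)).flip i).resolve_left (hc k)
    exact Or.inr ⟨(hf 0).1, (hf 0).2.1, fun k => (hf k).2.2⟩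
  · refine Or.inl fun k => ?_
    have h' := hb k i
    rwa [hbi, decide_eq_true_iff] at h'

namespace Uniform

variable [IsNoetherianRing O] [IsAdicComplete (maximalIdeal O) O] [Finite (ResidueField O)]
  (L : Uniform P p)

/-- The ultrafilter. -/
abbrev U : Ultrafilter ℕ := Filter.hyperfilter ℕ

theorem eventually_ge (K : ℕ) : ∀ᶠ k in (U : Filter ℕ), K ≤ k :=
  Filter.Eventually.filter_mono (Filter.hyperfilter_le_cofinite (α := ℕ))
    (Nat.cofinite_eq_atTop ▸ Filter.eventually_ge_atTop K)

/-- The rings of the levels. -/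
abbrev ringAt (k : ℕ) : Type := (L.lev k).A

/-- The limit ring. -/
abbrev Ring : Type := Lim.LimRing U L.ringAt

/-- The coordinates of the limit. -/
def γ : P.Coords →ₐ[O] L.Ring := Lim.const U L.ringAt fun k => (L.lev k).γ

theorem γ_surjective : Function.Surjective L.γ :=
  Lim.const_surjective U L.ringAt fun k => (L.lev k).γ_surj

instance : IsLocalRing L.Ring := Lim.isLocalRing_limRing U L.ringAt fun k => (L.lev k).γ_surj

variable (hp : (p : O) ∈ maximalIdeal O)

/-- The sequence of modules of one place of the chain. -/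
@[reducible]
def seq (j : Fin (P.t + 1)) : Lim.ModSeq U L.ringAt (Fin P.R) O where
  M k := (L.lev k).M j
  D := L.D j
  b k i := (L.lev k).b j (Fin.cast (L.rank_eq k j).symm i)
  span k x := by
    obtain ⟨c, rfl⟩ := (L.lev k).span j x
    exact ⟨fun i => c (Fin.cast (L.rank_eq k j).symm i),
      Fintype.sum_equiv (finCongr (L.rank_eq k j)) _ _ fun i => rfl⟩
  indep K := by
    filter_upwards [eventually_ge K] with k hk c hc i
    refine Ideal.pow_le_pow_right (le_trans hk ((L.le_dep k).trans (Nat.le_succ _)))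
      (levelIdeal_le hp _ ?_)
    have h := (L.lev k).indep j (fun l => c (Fin.cast (L.rank_eq k j) l))
      ((Fintype.sum_equiv (finCongr (L.rank_eq k j)) _ _ fun l => rfl).trans hc)
      (Fin.cast (L.rank_eq k j).symm i)
    simpa using h

/-- The module of one place of the chain in the limit. -/
abbrev Mod (j : Fin (P.t + 1)) : Type := (L.seq hp j).Limit

omit [IsAdicComplete (maximalIdeal O) O] in
theorem compat (j : Fin (P.t + 1)) (c : O) (z : L.Mod hp j) :
    algebraMap O L.Ring c • z = (C c : S) • z := by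
  obtain ⟨x, rfl⟩ := (L.seq hp j).cls_surjective z
  rw [Lim.algebraMap_lim, Lim.ModSeq.smul_cls, ← map_smul]
  exact congrArg _ (funext fun k => (L.lev k).compat j c (x k))

theorem finite (hpr : p.Prime) (j : Fin (P.t + 1)) : Module.Finite L.Ring (L.Mod hp j) := by
  classical
  let e := Fintype.equivFin (Finset (Fin P.R))
  refine Lim.ModSeq.finite_of_gen (P := L.seq hp j) (fun q => ∏ i ∈ e.symm q, (X i : S))
    fun k x => ?_
  obtain ⟨c, rfl⟩ := (L.lev k).exists_gen j hpr hp x
  refine ⟨fun q => c (e.symm q.1, Fin.cast (L.rank_eq k j).symm q.2),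
    Fintype.sum_equiv (e.prodCongr (finCongr (L.rank_eq k j))) _ _ fun q => ?_⟩
  simp

/-- Membership in the multiples of the maximal ideal is decided along the sequence. -/
theorem mem_smul_top_iff (j : Fin (P.t + 1)) (x : ∀ k, (L.seq hp j).M k) :
    (L.seq hp j).cls x ∈ maximalIdeal S • (⊤ : Submodule S (L.Mod hp j)) ↔
      ∀ᶠ k in (U : Filter ℕ),
        x k ∈ maximalIdeal S • (⊤ : Submodule S ((L.seq hp j).M k)) := by
  have e1 : ∀ k, (L.seq hp j).fil k 1 = maximalIdeal S • (⊤ : Submodule S ((L.seq hp j).M k)) :=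
    fun k => by rw [Lim.ModSeq.fil, pow_one]
  constructor
  · intro h
    suffices h' : ∀ z ∈ maximalIdeal S • (⊤ : Submodule S (L.Mod hp j)), ∀ x,
        (L.seq hp j).cls x = z →
          ∀ᶠ k in (U : Filter ℕ), x k ∈ maximalIdeal S • (⊤ : Submodule S ((L.seq hp j).M k)) from
      h' _ h x rfl
    intro z hz
    refine Submodule.smul_induction_on hz (fun r hr w _ x hx => ?_) fun a b ha hb x hx => ?_
    · obtain ⟨y, rfl⟩ := (L.seq hp j).cls_surjective w
      rw [← map_smul, Lim.ModSeq.cls_eq_iff] at hx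
      filter_upwards [hx 1] with k hk
      rw [e1] at hk
      simpa using add_mem hk (Submodule.smul_mem_smul hr (Submodule.mem_top (x := y k)))
    · obtain ⟨a, rfl⟩ := (L.seq hp j).cls_surjective a
      have hb' := hb (x - a) (by rw [map_sub, hx]; abel)
      filter_upwards [ha a rfl, hb'] with k h1 h2
      simpa using add_mem h1 h2
  · intro h
    classical
    have h' : ∀ k, ∃ c : Fin (L.D j) → S, (∀ i, c i ∈ maximalIdeal S) ∧
        (x k ∈ maximalIdeal S • (⊤ : Submodule S ((L.seq hp j).M k)) →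
          x k = ∑ i, c i • (L.seq hp j).b k i) := fun k => by
      by_cases hk : x k ∈ maximalIdeal S • (⊤ : Submodule S ((L.seq hp j).M k))
      · obtain ⟨c, hc, he⟩ :=
          (L.seq hp j).exists_coeff_of_mem (K := 1) (show x k ∈ _ by rwa [e1])
        exact ⟨c, fun i => by simpa using hc i, fun _ => he⟩
      · exact ⟨0, fun i => zero_mem _, fun h => absurd h hk⟩
    choose c hc he using h'
    choose l hl using fun i => Algebra.exists_ultralimit U fun k => c k i
    have hlm : ∀ i, l i ∈ maximalIdeal S := fun i => by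
      obtain ⟨k, hk⟩ := (hl i 1).exists
      rw [pow_one] at hk
      simpa using sub_mem (hc k i) hk
    have e : (L.seq hp j).cls x =
        ∑ i, l i • (L.seq hp j).cls fun k => (L.seq hp j).b k i := by
      simp only [← map_smul, ← map_sum]
      refine (L.seq hp j).cls_eq_iff.2 fun K => ?_
      filter_upwards [h, Filter.eventually_all.2 fun i => hl i K] with k hk hlk
      rw [he k hk, Finset.sum_apply, ← Finset.sum_sub_distrib]
      refine Submodule.sum_mem _ fun i _ => ?_
      rw [Pi.smul_apply, ← sub_smul]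
      exact Submodule.smul_mem_smul (hlk i) Submodule.mem_top
    rw [e]
    exact Submodule.sum_mem _ fun i _ => Submodule.smul_mem_smul (hlm i) Submodule.mem_top

omit [IsAdicComplete (maximalIdeal O) O] in
theorem smul_mem_span (j : Fin (P.t + 1)) (a : ∀ k, L.ringAt k)
    (ha : ∀ k, ∀ x : (L.lev k).M j, a k • x ∈
      Ideal.span (Set.range fun l : Fin P.R => (X l : S)) • (⊤ : Submodule S ((L.lev k).M j)))
    (z : L.Mod hp j) :
    Lim.lim U L.ringAt a • z ∈
      Ideal.span (Set.range fun l : Fin P.R => (X l : S)) • (⊤ : Submodule S (L.Mod hp j)) :=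
  (L.seq hp j).smul_mem_of_eventually _
    (Filter.Eventually.of_forall fun k x => exists_eq_sum_of_mem_span_smul _ (ha k x)) z

end Uniform

end Fermat.Agent.RT.Lift59.Chain

end
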